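import Fermat.Agent.ConductorMatch.Coefficient
import Mathlib.RingTheory.Invariant.Basic
import Mathlib.FieldTheory.Galois.Basic
import Mathlib.FieldTheory.Normal.Closure
import Mathlib.Analysis.Complex.Polynomial.Basic

/-!
# Coefficient rings at a prescribed prime

A `p`-adic coefficient ring for an order of algebraic integers inducing a prescribed prime over
`p`.
-/

set_option autoImplicit false

noncomputable section

open scoped Pointwise

namespace FLTAgent.LocalThree

variable (p : ℕ) [Fact p.Prime]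

/-- A finite Galois subfield of `ℂ` containing a given order. -/
theorem exists_galois_field (R₀ : Subring ℂ) [Module.Finite ℤ R₀] :
    ∃ K : IntermediateField ℚ ℂ, FiniteDimensional ℚ K ∧ IsGalois ℚ K ∧
      ∀ x : R₀, (x : ℂ) ∈ K := by
  have hint : ∀ x : R₀, IsIntegral ℤ x := IsIntegral.of_finite ℤ
  obtain ⟨s, hs⟩ := Module.Finite.fg_top (R := ℤ) (M := R₀)
  let K₀ : IntermediateField ℚ ℂ := IntermediateField.adjoin ℚ ((fun x : R₀ => (x : ℂ)) '' s)
  have : Finite ((fun x : R₀ => (x : ℂ)) '' (s : Set R₀)) :=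
    (s.finite_toSet.image _).to_subtype
  have : FiniteDimensional ℚ K₀ := IntermediateField.finiteDimensional_adjoin fun z hz => by
    obtain ⟨x, -, rfl⟩ := hz
    exact ((hint x).map R₀.subtype.toIntAlgHom).tower_top
  let K := IntermediateField.normalClosure ℚ K₀ ℂ
  have : IsNormalClosure ℚ K₀ K :=
    Algebra.IsAlgebraic.isNormalClosure_normalClosure fun x => IsAlgClosed.splits _
  have : Normal ℚ K := IsNormalClosure.normal (K := K₀)
  have : FiniteDimensional ℚ K := normalClosure.is_finiteDimensional ℚ K₀ ℂ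
  refine ⟨K, inferInstance, ⟨⟩, fun x => ?_⟩
  refine IntermediateField.le_normalClosure K₀ ?_
  have hx : x ∈ Submodule.span ℤ (s : Set R₀) := hs ▸ Submodule.mem_top
  induction hx using Submodule.span_induction with
  | mem y hy => exact IntermediateField.subset_adjoin ℚ _ ⟨y, hy, rfl⟩
  | zero => exact zero_mem _
  | add a b _ _ ha hb => exact add_mem ha hb
  | smul a y _ ha =>
    rw [show ((a • y : R₀) : ℂ) = a • (y : ℂ) from map_zsmul R₀.subtype a y]
    exact zsmul_mem ha a

/-- An order of algebraic integers embeds in a finite extension of `ℤ_p` compatibly with a given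
maximal ideal over `p`. -/
theorem exists_coefficientRing_at (R₀ : Subring ℂ) [Module.Finite ℤ R₀]
    (𝔪 : Ideal (integralClosure ℤ ℂ)) (h𝔪 : 𝔪.IsMaximal) (hp : (p : integralClosure ℤ ℂ) ∈ 𝔪) :
    ∃ (O : Type) (_ : CommRing O) (_ : IsDomain O) (_ : IsDiscreteValuationRing O)
      (_ : IsAdicComplete (IsLocalRing.maximalIdeal O) O)
      (_ : Finite (IsLocalRing.ResidueField O)) (_ : CharZero O),
      (p : O) ∈ IsLocalRing.maximalIdeal O ∧
        ∃ ι : R₀ →+* O, Function.Injective ι ∧
          ∀ (x : R₀) (a : integralClosure ℤ ℂ), (a : ℂ) = x → a ∈ 𝔪 →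
            ι x ∈ IsLocalRing.maximalIdeal O := by
  classical
  have hpr : p.Prime := Fact.out
  obtain ⟨K, hKfd, hKgal, hRK⟩ := exists_galois_field R₀
  let B := integralClosure ℤ K
  have : Module.Finite ℤ B := IsIntegralClosure.finite ℤ ℚ K B
  let toC : B →+* ℂ := (K.val.toRingHom).comp B.val.toRingHom
  have htoC : Function.Injective toC := fun a b h => Subtype.ext (Subtype.ext h)
  have : Module.Finite ℤ toC.range :=
    Module.Finite.of_surjective toC.rangeRestrict.toIntAlgHom.toLinearMap
      toC.rangeRestrict_surjective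
  obtain ⟨O, i1, i2, i3, i4, i5, i6, hpO, ι₁, hι₁⟩ :=
    FLTAgent.ConductorMatch.exists_coefficientRing p toC.range
  let ι₂ : B →+* O := ι₁.comp toC.rangeRestrict
  -- the two primes
  let toInt : B →+* integralClosure ℤ ℂ := toC.codRestrict _ fun b =>
    b.2.map (K.val.toRingHom.toIntAlgHom)
  let P : Ideal B := 𝔪.comap toInt
  let Q : Ideal B := (IsLocalRing.maximalIdeal O).comap ι₂
  have : P.IsPrime := Ideal.comap_isPrime _ _
  have : Q.IsPrime := Ideal.comap_isPrime _ _
  have : Algebra.IsInvariant ℤ B (K ≃ₐ[ℚ] K) := ⟨fun b hb => by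
    have hfix : ((b : K)) ∈ Set.range (algebraMap ℚ K) :=
      (IsGalois.mem_range_algebraMap_iff_fixed (b : K)).mpr fun σ => congrArg Subtype.val (hb σ)
    obtain ⟨r, hr⟩ := hfix
    have hrint : IsIntegral ℤ r := by
      refine (isIntegral_algebraMap_iff (algebraMap ℚ K).injective).mp ?_
      rw [hr]; exact b.2
    obtain ⟨n, hn⟩ := IsIntegrallyClosed.isIntegral_iff.mp hrint
    exact ⟨n, Subtype.ext (by rw [← hr, ← hn]; simp)⟩⟩
  have hunder : ∀ I : Ideal B, I.IsPrime → (p : B) ∈ I → I.under ℤ = Ideal.span {(p : ℤ)} := by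
    intro I hI hmem
    refine ((PrincipalIdealRing.isMaximal_of_irreducible
      (Nat.prime_iff_prime_int.mp hpr).irreducible).eq_of_le
      (Ideal.IsPrime.ne_top inferInstance) ?_).symm
    rw [Ideal.span_singleton_le_iff_mem, Ideal.mem_comap, map_natCast]
    exact hmem
  obtain ⟨τ, hτ⟩ := Algebra.IsInvariant.exists_smul_of_under_eq ℤ B (K ≃ₐ[ℚ] K) P Q (by
    rw [hunder P inferInstance (by rw [Ideal.mem_comap, map_natCast]; exact hp),
      hunder Q inferInstance (by rw [Ideal.mem_comap, map_natCast]; exact hpO)])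
  -- the embedding
  have hint : ∀ x : R₀, IsIntegral ℤ x := IsIntegral.of_finite ℤ
  let j₀ : R₀ →+* B := (R₀.subtype.codRestrict K.toSubring hRK).codRestrict B.toSubring fun x =>
    (hint x).map (R₀.subtype.codRestrict K.toSubring hRK : R₀ →+* K).toIntAlgHom
  let ι : R₀ →+* O := (ι₂.comp (MulSemiringAction.toRingHom (K ≃ₐ[ℚ] K) B τ)).comp j₀
  refine ⟨O, i1, i2, i3, i4, i5, i6, hpO, ι, fun a b h => ?_, fun x a ha ham => ?_⟩
  · have h1 := htoC (show toC (τ • j₀ a) = toC (τ • j₀ b) from
      congrArg (Subtype.val : toC.range → ℂ) (hι₁ h))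
    exact Subtype.ext (congrArg (fun z : B => ((z : K) : ℂ)) (MulAction.injective τ h1))
  · have hP : j₀ x ∈ P := by
      rw [Ideal.mem_comap, show toInt (j₀ x) = a from Subtype.ext ha.symm]
      exact ham
    have hQ : τ • j₀ x ∈ Q := by
      rw [hτ]
      exact Ideal.smul_mem_pointwise_smul τ (j₀ x) P hP
    exact hQ

end FLTAgent.LocalThree
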