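import Fermat.Agent.LocalThree.Bridge
import Fermat.Agent.LocalThree.Place
import Fermat.Agent.GaloisAttach.Integral
import Fermat.Agent.Density.Chebotarev

/-!
# The line at `3` from the local theory of newforms

The line at `3` of the residual representation of a newform with `3 ∥ L`, transported to a mod `3`
representation with the same Frobenius traces.
-/

set_option autoImplicit false

noncomputable section

open CongruenceSubgroup IsLocalRing

namespace FLTAgent.LocalThree

open FLTAgent.GaloisImage FLTAgent.GaloisAttach FLTAgent.DefRing FLTAgent.ModularityLifting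
open FLTAgent.Density (Qbar GalQ)

/-- The statement of the local theory of a newform at `3 ∥ M` for `p = 3`. -/
abbrev NewformStrictInput : Prop :=
  ∀ (O : Type) [CommRing O] [IsDomain O] [IsDiscreteValuationRing O]
    [IsAdicComplete (maximalIdeal O) O] [Finite (ResidueField O)] [CharZero O],
    ((3 : ℕ) : O) ∈ maximalIdeal O →
    ∀ (M : ℕ) [NeZero M] (g : CuspForm (Gamma0 M) 2) (hg : g.IsNewform), 3 ∣ M → ¬ 3 ^ 2 ∣ M →
    ∀ (S : Finset ℕ), (∀ q, q.Prime → q ∣ M → q ∈ S) →
    ∀ θ : CuspForm.heckeAlgebra M 2 (↑S : Set ℕ) →+* O,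
      RingHom.ker θ =
          RingHom.ker (Eigenforms.eigenChar (S := (↑S : Set ℕ)) hg.isNormalizedEigenform) →
    ∀ (T : AttachedTrace M 3 (↑S : Set ℕ) (maximalIdeal O) θ) (ρ : MatRep O), MatCont ρ →
      (∀ σ, (ρ σ).trace = T.f σ) → AbsIrreducibleOn (mapRep (residue O) ρ) ⊤ →
      ∃ ε : ℤ, StrictAt ρ 3 (ε : O)

/-! ### Two representations with equal traces -/

section Compare

variable {k : Type} [Field k]

/-- Matrices over `ZMod 3` spanning over the algebraic closure span over every extension field. -/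
theorem span_map_eq_top (ι : ZMod 3 →+* k) {R : GalQ →* Matrix (Fin 2) (Fin 2) (ZMod 3)}
    (h : NoStableLine (extRep (AlgebraicClosure (ZMod 3)) R)) :
    Submodule.span k (Set.range fun g => (R g).map ι) = ⊤ := by
  classical
  have : Fact (Nat.Prime 3) := ⟨Nat.prime_three⟩
  let K := AlgebraicClosure (ZMod 3)
  let φ : ZMod 3 →+* K := algebraMap (ZMod 3) K
  have hK : Submodule.span K (Set.range fun g => (R g).map φ) = ⊤ :=
    span_range_eq_top_of_noStableLine (extRep K R) h
  have h3 : Submodule.span (ZMod 3) (Set.range R) = ⊤ := by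
    by_contra hne
    obtain ⟨f, hf, hle⟩ := Submodule.exists_le_ker_of_lt_top _ (lt_top_iff_ne_top.mpr hne)
    set X : Matrix (Fin 2) (Fin 2) (ZMod 3) := Matrix.of fun i j => f (Matrix.single j i 1) with hX
    have hfY : ∀ Y, (X * Y).trace = f Y := by
      intro Y
      have hY : Y = Y 0 0 • Matrix.single 0 0 1 + Y 0 1 • Matrix.single 0 1 1 +
          Y 1 0 • Matrix.single 1 0 1 + Y 1 1 • Matrix.single 1 1 1 := by
        ext i j; fin_cases i <;> fin_cases j <;> simp
      conv_rhs => rw [hY]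
      simp only [hX, map_add, map_smul, smul_eq_mul, Matrix.trace_fin_two, Matrix.mul_apply,
        Fin.sum_univ_two, Matrix.of_apply]
      ring
    have hX0 : X = 0 := eq_zero_of_trace_mul_eq_zero φ
      (fun t ht => isUnit_iff_ne_zero.mpr fun h0 => ht (by rw [h0, map_zero]))
      (fun g => R g) hK fun g => by
        rw [hfY]; exact LinearMap.mem_ker.mp (hle (Submodule.subset_span ⟨g, rfl⟩))
    exact hf (LinearMap.ext fun Y => by rw [← hfY, hX0, zero_mul, Matrix.trace_zero]; rfl)
  set Sk := Submodule.span k (Set.range fun g => (R g).map ι)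
  have hall : ∀ Y : Matrix (Fin 2) (Fin 2) (ZMod 3), Y.map ι ∈ Sk := by
    intro Y
    have hY : Y ∈ Submodule.span (ZMod 3) (Set.range R) := h3 ▸ Submodule.mem_top
    induction hY using Submodule.span_induction with
    | mem y hy => obtain ⟨g, rfl⟩ := hy; exact Submodule.subset_span ⟨g, rfl⟩
    | zero => simp
    | add a b _ _ ha hb => rw [Matrix.map_add _ (map_add ι)]; exact add_mem ha hb
    | smul a y _ ha =>
      rw [show (a • y).map ι = ι a • y.map ι by ext i j; simp]
      exact Sk.smul_mem _ ha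
  refine eq_top_iff.mpr fun Z _ => ?_
  have hZ : Z = Z 0 0 • (Matrix.single 0 0 (1 : ZMod 3)).map ι +
      Z 0 1 • (Matrix.single 0 1 (1 : ZMod 3)).map ι +
      Z 1 0 • (Matrix.single 1 0 (1 : ZMod 3)).map ι +
      Z 1 1 • (Matrix.single 1 1 (1 : ZMod 3)).map ι := by
    ext i j; fin_cases i <;> fin_cases j <;> simp
  rw [hZ]
  exact add_mem (add_mem (add_mem (Sk.smul_mem _ (hall _)) (Sk.smul_mem _ (hall _)))
    (Sk.smul_mem _ (hall _))) (Sk.smul_mem _ (hall _))

variable {G : Type} [Group G]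

/-- Evaluation of formal combinations of group elements. -/
def evalComb (M : G →* Matrix (Fin 2) (Fin 2) k) : (G →₀ k) →ₗ[k] Matrix (Fin 2) (Fin 2) k :=
  Finsupp.linearCombination k M

theorem evalComb_mapDomain (M : G →* Matrix (Fin 2) (Fin 2) k) (σ : G) (c : G →₀ k) :
    evalComb M (Finsupp.mapDomain (σ * ·) c) = M σ * evalComb M c := by
  induction c using Finsupp.induction_linear with
  | zero => simp
  | add a b ha hb => rw [Finsupp.mapDomain_add, map_add, map_add, ha, hb, mul_add]
  | single g r => simp [evalComb, Finsupp.mapDomain_single, map_mul]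

theorem trace_evalComb_mul (M : G →* Matrix (Fin 2) (Fin 2) k) (c : G →₀ k) (h : G) :
    (evalComb M c * M h).trace = c.sum fun g r => r * (M (g * h)).trace := by
  rw [evalComb, Finsupp.linearCombination_apply, Finsupp.sum, Finset.sum_mul, Matrix.trace_sum,
    Finsupp.sum]
  refine Finset.sum_congr rfl fun g _ => ?_
  rw [smul_mul_assoc, Matrix.trace_smul, map_mul, smul_eq_mul]

variable {M N : G →* Matrix (Fin 2) (Fin 2) k} (htr : ∀ g, (M g).trace = (N g).trace)
  (hN : Submodule.span k (Set.range N) = ⊤)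

include htr hN in
/-- Relations transfer to a spanning representation with the same traces. -/
theorem evalComb_eq_zero_transfer {c : G →₀ k} (hc : evalComb M c = 0) : evalComb N c = 0 := by
  refine eq_zero_of_trace_mul_eq_zero (RingHom.id k) (fun t ht => isUnit_iff_ne_zero.mpr ht)
    (fun g => N g) (by simpa using hN) fun h => ?_
  rw [trace_evalComb_mul]
  simp only [← htr]
  rw [← trace_evalComb_mul, hc, zero_mul, Matrix.trace_zero]

include htr hN in
theorem span_eq_top_of_trace_eq : Submodule.span k (Set.range M) = ⊤ := by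
  rw [← Finsupp.range_linearCombination]
  show LinearMap.range (evalComb M) = ⊤
  set Φ : LinearMap.range (evalComb M) →ₗ[k] Matrix (Fin 2) (Fin 2) k :=
    ((LinearMap.ker (evalComb M)).liftQ (evalComb N) fun c hc => LinearMap.mem_ker.mpr
      (evalComb_eq_zero_transfer htr hN (LinearMap.mem_ker.mp hc))).comp
      (evalComb M).quotKerEquivRange.symm.toLinearMap
  have hsurj : Function.Surjective Φ := fun Y => by
    have hY : Y ∈ LinearMap.range (evalComb N) := by
      rw [evalComb, Finsupp.range_linearCombination, hN]; trivial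
    obtain ⟨c, rfl⟩ := hY
    refine ⟨⟨evalComb M c, c, rfl⟩, ?_⟩
    rw [LinearMap.comp_apply, LinearEquiv.coe_coe,
      show (evalComb M).quotKerEquivRange.symm ⟨evalComb M c, c, rfl⟩ =
        Submodule.Quotient.mk c from LinearMap.quotKerEquivRange_symm_apply_image _ c ⟨c, rfl⟩]
    rfl
  exact Submodule.eq_top_of_finrank_eq (le_antisymm (Submodule.finrank_le _)
    (Φ.finrank_le_finrank_of_surjective hsurj |>.trans_eq rfl))

include htr hN in
/-- A matrix killed by `M σ - d σ` gives one killed by `N σ - d σ`. -/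
theorem exists_kill_transfer {X : Matrix (Fin 2) (Fin 2) k} (hX : X ≠ 0) :
    ∃ Y : Matrix (Fin 2) (Fin 2) k, Y ≠ 0 ∧
      ∀ (σ : G) (d : k), M σ * X = d • X → N σ * Y = d • Y := by
  have hM := span_eq_top_of_trace_eq htr hN
  have hXr : X ∈ LinearMap.range (evalComb M) := by
    rw [evalComb, Finsupp.range_linearCombination, hM]; trivial
  obtain ⟨c, rfl⟩ := hXr
  refine ⟨evalComb N c, fun h0 => hX (evalComb_eq_zero_transfer (fun g => (htr g).symm) hM h0),
    fun σ d h => ?_⟩
  have := evalComb_eq_zero_transfer htr hN (c := Finsupp.mapDomain (σ * ·) c - d • c) (by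
    rw [map_sub, map_smul, evalComb_mapDomain, h, sub_self])
  rwa [map_sub, map_smul, evalComb_mapDomain, sub_eq_zero] at this

theorem absIrreducibleOn_of_span {ρ : MatRep k} (h : Submodule.span k (Set.range ρ) = ⊤) :
    AbsIrreducibleOn ρ ⊤ := by
  intro K _ ι v hv
  have hall : ∀ Y : Matrix (Fin 2) (Fin 2) k, ∃ c : K, (Y.map ι).mulVec v = c • v := by
    intro Y
    have hY : Y ∈ Submodule.span k (Set.range ρ) := h ▸ Submodule.mem_top
    induction hY using Submodule.span_induction with
    | mem y hy => obtain ⟨σ, rfl⟩ := hy; exact hv σ trivial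
    | zero => exact ⟨0, by simp⟩
    | add a b _ _ ha hb =>
      obtain ⟨c, hc⟩ := ha
      obtain ⟨d, hd⟩ := hb
      exact ⟨c + d, by rw [Matrix.map_add _ (map_add ι), Matrix.add_mulVec, hc, hd, add_smul]⟩
    | smul a y _ ha =>
      obtain ⟨c, hc⟩ := ha
      refine ⟨ι a * c, ?_⟩
      rw [show (a • y).map ι = ι a • y.map ι by ext i j; simp, Matrix.smul_mulVec, hc, smul_smul]
  obtain ⟨c, hc⟩ := hall (Matrix.single 0 1 1)
  obtain ⟨d, hd⟩ := hall (Matrix.single 1 0 1)
  have e0 := congrFun hc 0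
  have e1 := congrFun hc 1
  have f0 := congrFun hd 0
  have f1 := congrFun hd 1
  simp [Matrix.mulVec, dotProduct, Fin.sum_univ_two] at e0 e1 f0 f1
  funext i
  rcases e1 with e1 | e1
  · rw [e1, zero_mul] at e0
    rcases f0 with f0 | f0
    · rw [f0, zero_mul] at f1
      fin_cases i
      exacts [f1, e0]
    · rw [f0] at f1
      fin_cases i
      exacts [f0, e0]
  · rw [e1, mul_zero] at f1
    fin_cases i
    exacts [f1, e1]

end Compare

theorem eq_of_agree {M : Type} [Monoid M] (π : GalQ →* M) {L : IntermediateField ℚ Qbar}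
    (h : ∀ σ : GalQ, (∀ x ∈ L, σ x = x) → π σ = 1) {g σ : GalQ} (hg : ∀ x ∈ L, g x = σ x) :
    π g = π σ := by
  rw [show g = σ * (σ⁻¹ * g) by rw [mul_inv_cancel_left], map_mul,
    h (σ⁻¹ * g) fun x hx => by rw [AlgEquiv.mul_apply, hg x hx]; exact σ.symm_apply_apply x,
    mul_one]

theorem two_det_eq {A : Type} [CommRing A] (M : GalQ →* Matrix (Fin 2) (Fin 2) A) (g : GalQ) :
    2 * (M g).det = (M g).trace ^ 2 - (M (g * g)).trace := by
  rw [map_mul, Matrix.det_fin_two, Matrix.trace_fin_two, Matrix.trace_fin_two]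
  simp only [Matrix.mul_apply, Fin.sum_univ_two]
  ring

/-- The input of the bridge, from the local theory of newforms at `3`. -/
theorem newformDetLine_of_strict (hstrict : NewformStrictInput) : NewformDetLineInput := by
  classical
  intro L _ g hg h3L h9 𝔪 h𝔪 h3 S hS h3S R hR hirr hcong A hA
  have : Fact (Nat.Prime 3) := ⟨Nat.prime_three⟩
  let χ₀ : CuspForm.heckeAlgebra L 2 (↑S : Set ℕ) →+* ℂ :=
    Eigenforms.eigenChar hg.isNormalizedEigenform
  have := FLTAgent.MFIntegral.moduleFinite_heckeAlgebra L 2 (↑S : Set ℕ)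
  have : Module.Finite ℤ χ₀.range :=
    Module.Finite.of_surjective χ₀.rangeRestrict.toIntAlgHom.toLinearMap
      χ₀.rangeRestrict_surjective
  obtain ⟨O, _, _, _, _, _, _, hpO, ι, hι, hι𝔪⟩ := exists_coefficientRing_at 3 χ₀.range 𝔪 h𝔪 h3
  let θ : CuspForm.heckeAlgebra L 2 (↑S : Set ℕ) →+* O := ι.comp χ₀.rangeRestrict
  have hker : RingHom.ker θ = RingHom.ker χ₀ := by
    ext t
    rw [RingHom.mem_ker, RingHom.mem_ker, RingHom.comp_apply, map_eq_zero_iff ι hι]
    exact ⟨fun h => congrArg Subtype.val h, fun h => Subtype.ext h⟩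
  obtain ⟨T⟩ := exists_attachedTrace Nat.prime_three (jacobianInputs L Nat.prime_three)
    frobeniusDivisions S.finite_toSet (maximalIdeal O) hpO θ
  obtain ⟨P⟩ := T.exists_integralMatrixRep
  have htrT : ∀ σ, (P.M σ).trace = T.f σ :=
    trace_eq_attached frobeniusDivisions T P.M P.continuous P.frob
  let k := ResidueField O
  have h30 : ((3 : ℕ) : k) = 0 := by
    rw [← map_natCast (residue O), residue_eq_zero_iff]; exact hpO
  have : CharP k 3 := (CharP.charP_iff_prime_eq_zero Nat.prime_three).mpr h30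
  let φ : ZMod 3 →+* k := ZMod.castHom dvd_rfl k
  let ρ : MatRep k := mapRep (residue O) P.M
  let Rk : GalQ →* Matrix (Fin 2) (Fin 2) k := φ.mapMatrix.toMonoidHom.comp R
  obtain ⟨L₁, hL₁, hfix₁⟩ := hR
  obtain ⟨L₂, hL₂, hfix₂⟩ := P.continuous 1
  let E := IntermediateField.normalClosure ℚ (L₁ ⊔ L₂ : IntermediateField ℚ Qbar) Qbar
  have : FiniteDimensional ℚ (L₁ ⊔ L₂ : IntermediateField ℚ Qbar) :=
    IntermediateField.finiteDimensional_sup _ _
  have : Normal ℚ E := normalClosure.normal ℚ _ Qbar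
  have : IsGalois ℚ E := IsGalois.mk
  have hle : (L₁ ⊔ L₂ : IntermediateField ℚ Qbar) ≤ E := IntermediateField.le_normalClosure _
  have hfixρ : ∀ σ : GalQ, (∀ x ∈ E, σ x = x) → ρ σ = 1 := fun σ hσ => by
    ext i j
    have hm := hfix₂ σ (fun x hx => hσ x (hle (le_sup_right (a := L₁) hx))) i j
    rw [pow_one] at hm
    rw [mapRep_apply, ← sub_eq_zero, show (1 : Matrix (Fin 2) (Fin 2) k) i j =
      residue O ((1 : Matrix (Fin 2) (Fin 2) O) i j) by
        rw [Matrix.one_apply, Matrix.one_apply]; split <;> simp, ← map_sub, residue_eq_zero_iff]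
    exact hm
  have hfixR : ∀ σ : GalQ, (∀ x ∈ E, σ x = x) → Rk σ = 1 := fun σ hσ => by
    show φ.mapMatrix (R σ) = 1
    rw [hfix₁ σ fun x hx => hσ x (hle (le_sup_left (b := L₂) hx)), map_one]
  -- equal traces
  have htr : ∀ γ, (ρ γ).trace = (Rk γ).trace := by
    intro γ
    obtain ⟨ℓ, hℓ, hℓS, B, hB, -, σ, hσ, hag⟩ := FLTAgent.Density.exists_frobenius_agree E γ S
    rw [eq_of_agree ρ hfixρ hag, eq_of_agree Rk hfixR hag]
    have hℓL : ¬ ℓ ∣ L := fun h => hℓS (hS ℓ hℓ h)
    obtain ⟨a, n, ha, hab, hP⟩ := hcong ℓ hℓ hℓS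
    obtain ⟨h1, -⟩ := P.frob ℓ hℓ hℓL (fun h => hℓS (Finset.mem_coe.mp h))
      (fun h => hℓS (h ▸ h3S)) B hB σ hσ
    show ((P.M σ).map (residue O)).trace = ((R σ).map φ).trace
    rw [show ((P.M σ).map (residue O)).trace = residue O (P.M σ).trace from
        (AddMonoidHom.map_trace (residue O).toAddMonoidHom _).symm,
      show ((R σ).map φ).trace = φ (R σ).trace from
        (AddMonoidHom.map_trace φ.toAddMonoidHom _).symm, h1, (hP B hB σ hσ).1,
      map_intCast, ← sub_eq_zero, ← map_intCast (residue O), ← map_sub, residue_eq_zero_iff]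
    have hmem := hι𝔪 (χ₀.rangeRestrict (CuspForm.heckeAlgebra.T hℓ hℓL
      (fun h => hℓS (Finset.mem_coe.mp h))) - (n : χ₀.range))
      (a - (n : integralClosure ℤ ℂ)) (by
        push_cast
        rw [ha, RingHom.coe_rangeRestrict]
        exact congrArg (· - (n : ℂ)) (Eigenforms.eigenChar_T _ hℓ hℓL _).symm) hab
    rwa [map_sub, map_intCast] at hmem
  have hspanR : Submodule.span k (Set.range Rk) = ⊤ := span_map_eq_top φ hirr
  have habs : AbsIrreducibleOn ρ ⊤ :=
    absIrreducibleOn_of_span (span_eq_top_of_trace_eq htr hspanR)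
  obtain ⟨ε, hst⟩ := hstrict O hpO L g hg h3L h9 S hS θ hker T P.M P.continuous htrT habs
  obtain ⟨Gm, hGm⟩ := hst A hA
  have hdet : ∀ γ, (ρ γ).det = φ (R γ).det := fun γ => by
    have h2 : (2 : k) ≠ 0 := by
      intro h
      have h' : ((2 : ℕ) : k) = 0 := by exact_mod_cast h
      rw [CharP.cast_eq_zero_iff k 3] at h'
      omega
    refine mul_left_cancel₀ h2 ?_
    rw [two_det_eq ρ, htr, htr, ← two_det_eq Rk]
    show 2 * (φ.mapMatrix (R γ)).det = _
    rw [← RingHom.map_det]
  -- the line on the newform side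
  let G₁ : Matrix (Fin 2) (Fin 2) k := (residue O).mapMatrix (Gm : Matrix (Fin 2) (Fin 2) O)
  let G₂ : Matrix (Fin 2) (Fin 2) k :=
    (residue O).mapMatrix ((Gm⁻¹ : GL (Fin 2) O) : Matrix (Fin 2) (Fin 2) O)
  have h21 : G₂ * G₁ = 1 := by rw [← map_mul, Units.inv_mul, map_one]
  have h12 : G₁ * G₂ = 1 := by rw [← map_mul, Units.mul_inv, map_one]
  let u : Fin 2 → k := G₂.mulVec (Pi.single 0 1)
  let X : Matrix (Fin 2) (Fin 2) k := Matrix.of fun i _ => u i
  have hX : X ≠ 0 := fun h0 => by
    have hu : u = 0 := funext fun i => congrFun (congrFun h0 i) 0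
    have := congrArg G₁.mulVec hu
    rw [Matrix.mulVec_mulVec, h12, Matrix.one_mulVec, Matrix.mulVec_zero] at this
    simpa using congrFun this 0
  have hXσ : ∀ σ ∈ A.inertiaSubgroupIn ℚ, ρ σ * X = φ (R σ).det • X := by
    intro σ hσ
    obtain ⟨e10, e11, -⟩ := hGm σ (FLTAgent.Density.mem_inertiaSubgroupIn_iff.mp hσ).1
    set U := G₁ * ρ σ * G₂ with hU
    have hUe : U = (residue O).mapMatrix ((Gm : Matrix (Fin 2) (Fin 2) O) * P.M σ *
        ((Gm⁻¹ : GL (Fin 2) O) : Matrix (Fin 2) (Fin 2) O)) := by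
      rw [map_mul, map_mul]; rfl
    have h10 : U 1 0 = 0 := by
      rw [hUe, RingHom.mapMatrix_apply, Matrix.map_apply, e10, map_zero]
    have h11 : U 1 1 = 1 := by
      rw [hUe, RingHom.mapMatrix_apply, Matrix.map_apply, e11 hσ, map_one]
    have h00 : U 0 0 = φ (R σ).det := by
      have e : U.det = φ (R σ).det := by
        rw [hU, Matrix.det_mul, Matrix.det_mul, mul_right_comm, ← Matrix.det_mul, h12,
          Matrix.det_one, one_mul, hdet]
      rwa [Matrix.det_fin_two U, h10, h11, mul_one, mul_zero, sub_zero] at e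
    have hcol : U.mulVec (Pi.single 0 1) = φ (R σ).det • Pi.single 0 1 := by
      funext i
      fin_cases i <;> simp [h10, h00]
    have h := congrArg G₂.mulVec hcol
    rw [Matrix.mulVec_mulVec, hU, ← mul_assoc, ← mul_assoc, h21, one_mul, ← Matrix.mulVec_mulVec,
      Matrix.mulVec_smul] at h
    ext i j
    exact congrFun h i
  obtain ⟨Y, hY, hYσ⟩ := exists_kill_transfer htr hspanR hX
  obtain ⟨i₀, j₀, hij⟩ : ∃ i j, Y i j ≠ 0 := by
    by_contra hcon
    push Not at hcon
    exact hY (Matrix.ext hcon)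
  let : Algebra (ZMod 3) k := φ.toAlgebra
  obtain ⟨f, hf⟩ := Module.Projective.exists_dual_ne_zero (ZMod 3) hij
  refine ⟨fun i => f (Y i j₀), fun h => hf (congrFun h i₀), fun σ hσ => funext fun i => ?_⟩
  have h := congrFun (congrFun (hYσ σ _ (hXσ σ hσ)) i) j₀
  have hsm : ∀ (a : ZMod 3) (y : k), f (φ a * y) = a * f y := fun a y => f.map_smul a y
  calc Matrix.mulVec (R σ) (fun i => f (Y i j₀)) i = ∑ l, R σ i l * f (Y l j₀) := rfl
    _ = f (∑ l, φ (R σ i l) * Y l j₀) := by simp only [map_sum, hsm]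
    _ = f (φ (R σ).det * Y i j₀) := by
        congr 1
    _ = (R σ).det • f (Y i j₀) := hsm _ _

end FLTAgent.LocalThree
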