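import Fermat.Agent.ModularityLifting.EigenFree
import Fermat.Agent.LevelRaising.PeriodSymbols
import Mathlib.NumberTheory.Padics.RingHoms
import Mathlib.LinearAlgebra.Eigenspace.Triangularizable
import Mathlib.RingTheory.Ideal.GoingUp

/-!
# Residual eigensymbols and eigenforms at `3`

Residual eigensymbols of eigenforms, and eigenforms from residual eigensymbols of level `L` with
`2 ∣ L` over a field of characteristic `3`.
-/

set_option autoImplicit false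

noncomputable section

open CongruenceSubgroup FLTAgent.LevelRaising FLTAgent.ModularityLifting IsLocalRing
open ModularFormClass
open scoped MatrixGroups

namespace FLTAgent.LocalThree

local notation "k₃" => ResidueField ℤ_[3]

/-! ### From an eigenform to a residual eigensymbol -/

section Reduce

variable {M : ℕ} [NeZero M]

theorem exists_hom_zmod_ne_zero_aux {p : ℕ} [Fact p.Prime] {W : Type*} [AddCommGroup W]
    [Module (ZMod p) W] {w : W} (hw : w ≠ 0) : ∃ f : W →+ ZMod p, f w ≠ 0 := by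
  obtain ⟨f, hf⟩ := Module.Projective.exists_dual_ne_zero (ZMod p) hw
  exact ⟨f.toAddMonoidHom, hf⟩

theorem exists_hom_zmod_ne_zero {p : ℕ} [hp : Fact p.Prime] {W : Type*} [AddCommGroup W]
    (h : ∀ v : W, p • v = 0) {w : W} (hw : w ≠ 0) : ∃ f : W →+ ZMod p, f w ≠ 0 :=
  @exists_hom_zmod_ne_zero_aux p hp W _ (AddCommGroup.zmodModule h) w hw

theorem map_tOp_apply {R S : Type*} [CommRing R] [CommRing S] (lam : R →+ S) (ℓ : ℕ)
    (Φ : Cusp → Cusp → R) (x y : Cusp) :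
    tOp S ℓ (fun s t => lam (Φ s t)) x y = lam (tOp R ℓ Φ x y) := by
  simp only [tOp, pullFam_apply, Finset.sum_apply, pull_apply, map_sum]

omit [NeZero M] in
theorem map_mem_lev {R S : Type*} [CommRing R] [CommRing S] (lam : R →+ S)
    {Φ : Cusp → Cusp → R} (hΦ : Φ ∈ Lev R M) : (fun s t => lam (Φ s t)) ∈ Lev S M :=
  ⟨fun x y z => by rw [← map_add, hΦ.1], fun γ hγ x y => congrArg lam (hΦ.2 γ hγ x y)⟩

theorem cfracSum_mem {Γ : Subgroup SL(2, ℤ)} (Λ : AddSubgroup ℂ) {f : (SL(2, ℤ) ⧸ Γ) → ℂ}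
    (hf : ∀ c, f c ∈ Λ) (g : SL(2, ℤ)) (x : ℚ) : cfracSum f g x ∈ Λ := by
  fun_induction cfracSum f g x with
  | case1 => exact neg_mem (hf _)
  | case2 _ _ _ ih => exact add_mem (neg_mem (hf _)) ih

theorem cuspSum_mem {Γ : Subgroup SL(2, ℤ)} (Λ : AddSubgroup ℂ) {f : (SL(2, ℤ) ⧸ Γ) → ℂ}
    (hf : ∀ c, f c ∈ Λ) (g : SL(2, ℤ)) (x : Cusp) : cuspSum f g x ∈ Λ := by
  induction x using OnePoint.rec with
  | infty => exact zero_mem _
  | coe x => exact cfracSum_mem Λ hf g x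

/-- An eigenform with a congruence at `𝔪 ∋ p` gives a mod `p` eigensymbol. -/
theorem exists_residual_symb {p : ℕ} [Fact p.Prime] (K : Type*) [Field K] [CharP K p]
    {f : CuspForm (Gamma0 M) 2} (hf : f.IsNormalizedEigenform)
    {𝔪 : Ideal (integralClosure ℤ ℂ)} (h𝔪 : 𝔪.IsMaximal) (hp : (p : integralClosure ℤ ℂ) ∈ 𝔪)
    (b : ℕ → ℤ) (P : ℕ → Prop)
    (hb : ∀ ℓ, ℓ.Prime → ¬ ℓ ∣ M → P ℓ →
      ∃ a : integralClosure ℤ ℂ, (a : ℂ) = qCoeff f ℓ ∧ a - (b ℓ : integralClosure ℤ ℂ) ∈ 𝔪) :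
    ∃ Φ : Cusp → Cusp → K, Φ ∈ Lev K M ∧ Φ ≠ 0 ∧
      ∀ ℓ, ℓ.Prime → ¬ ℓ ∣ M → P ℓ → tOp K ℓ Φ = (b ℓ : K) • Φ := by
  classical
  have hint := FLTAgent.MFIntegral.hasIntegralStructure M 2
  set Φc := perSymb M f with hΦc
  have hmem : Φc ∈ Lev ℂ M := perSymb_mem f
  have hne : Φc ≠ 0 := perSymb_ne_zero fun h => by
    exact zero_ne_one
      ((FLTAgent.Eigenforms.qCoeff_zero_form (N := M) (k := 2) 1).symm.trans (h ▸ hf.qCoeff_one))
  -- values at the edges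
  let edge : SL(2, ℤ) ⧸ Gamma0 M → ℂ := fun c => cosetFun (Γ := Gamma0 M) Φc c
  have : Fintype (SL(2, ℤ) ⧸ Gamma0 M) := Fintype.ofFinite _
  -- the module of values over the algebraic integers
  let Λ : Submodule (integralClosure ℤ ℂ) ℂ := Submodule.span _ (Set.range edge)
  have hedge : ∃ c, edge c ≠ 0 := by
    by_contra hcon
    push Not at hcon
    refine hne (Symb.eq_zero_of_edge hmem fun g => ?_)
    rw [← cosetFun_mk (Γ := Gamma0 M) hmem g]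
    exact hcon _
  have hfg : Λ.FG := Submodule.fg_span (Set.finite_range edge)
  have hlt : ¬ Λ ≤ 𝔪 • Λ := by
    intro hle
    obtain ⟨r, hr, hr0⟩ :=
      Submodule.exists_sub_one_mem_and_smul_eq_zero_of_fg_of_le_smul 𝔪 Λ hfg hle
    obtain ⟨c, hc⟩ := hedge
    have h1 : (r : ℂ) * edge c = 0 := hr0 _ (Submodule.subset_span ⟨c, rfl⟩)
    have hr00 : r = 0 := Subtype.ext ((mul_eq_zero.mp h1).resolve_right hc)
    rw [hr00, zero_sub] at hr
    exact h𝔪.ne_top ((Ideal.eq_top_iff_one _).mpr (by simpa using hr))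
  -- all values lie in the module
  have hneg : (-1 : SL(2, ℤ)) ∈ Gamma0 M := Gamma0_mem.mpr (by simp)
  have hsym : Φc = symbolOf (cosetFun (Γ := Gamma0 M) Φc) := by
    have h := congrArg Subtype.val ((symbEquiv hneg).symm_apply_apply ⟨Φc, hmem⟩)
    exact h.symm
  have hedgeΛ : ∀ c, edge c ∈ Λ := fun c => Submodule.subset_span ⟨c, rfl⟩
  have hval : ∀ x y, Φc x y ∈ Λ := fun x y => by
    rw [hsym]
    exact sub_mem (cuspSum_mem Λ.toAddSubgroup hedgeΛ 1 y) (cuspSum_mem Λ.toAddSubgroup hedgeΛ 1 x)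
  -- a functional on the module modulo `𝔪`
  let J : Submodule (integralClosure ℤ ℂ) Λ := 𝔪 • ⊤
  obtain ⟨g, hw⟩ : ∃ g : SL(2, ℤ),
      (Submodule.Quotient.mk
        (⟨Φc (glQ g • ((0 : ℚ) : Cusp)) (glQ g • OnePoint.infty), hval _ _⟩ : Λ)
        : Λ ⧸ J) ≠ 0 := by
    by_contra hcon
    push Not at hcon
    refine hlt (Submodule.span_le.mpr ?_)
    rintro _ ⟨c, rfl⟩
    obtain ⟨g, rfl⟩ : ∃ g : SL(2, ℤ), c = ↑(g⁻¹) := by
      obtain ⟨e, rfl⟩ := QuotientGroup.mk_surjective c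
      exact ⟨e⁻¹, by rw [inv_inv]⟩
    have h := (Submodule.Quotient.mk_eq_zero _).mp (hcon g)
    have h2 := Submodule.mem_map_of_mem (f := Λ.subtype) h
    rw [Submodule.map_smul'', Submodule.map_top, Submodule.range_subtype] at h2
    show cosetFun Φc _ ∈ _
    rw [cosetFun_mk hmem]
    exact h2
  set w := (Submodule.Quotient.mk (⟨Φc (glQ g • ((0 : ℚ) : Cusp)) (glQ g • OnePoint.infty),
    hval _ _⟩ : Λ) : Λ ⧸ J)
  have hpW : ∀ v : Λ ⧸ J, p • v = 0 := fun v => by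
    obtain ⟨z, rfl⟩ := Submodule.Quotient.mk_surjective _ v
    rw [← Submodule.Quotient.mk_smul, Submodule.Quotient.mk_eq_zero,
      ← Nat.cast_smul_eq_nsmul (integralClosure ℤ ℂ)]
    exact Submodule.smul_mem_smul hp trivial
  obtain ⟨lam0, hlam0⟩ := exists_hom_zmod_ne_zero hpW hw
  let lam : Λ →+ K := (ZMod.castHom dvd_rfl K).toAddMonoidHom.comp
    (lam0.comp (Submodule.mkQ J).toAddMonoidHom)
  let Ψ : Cusp → Cusp → K := fun x y => lam ⟨Φc x y, hval x y⟩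
  refine ⟨Ψ, ⟨fun x y z => ?_, fun γ hγ x y => ?_⟩, fun h0 => ?_, fun ℓ hℓ hℓM hP => ?_⟩
  · simp only [Ψ, ← map_add]
    exact congrArg lam (Subtype.ext (hmem.1 x y z))
  · exact congrArg lam (Subtype.ext (hmem.2 γ hγ x y))
  · exact hlam0 ((ZMod.castHom_injective (n := p) K)
      ((congrFun (congrFun h0 (glQ g • ((0 : ℚ) : Cusp))) (glQ g • OnePoint.infty)).trans
        (map_zero _).symm))
  · obtain ⟨a, ha, hab⟩ := hb ℓ hℓ hℓM hP
    funext x y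
    have heig : tOp ℂ ℓ Φc = qCoeff f ℓ • Φc := by
      rw [hΦc, ← perSymb_heckeT hℓ hℓM, ← map_smul]
      congr 1
      exact (FLTAgent.Eigenforms.apply_eq_eigenChar_smul (S := ∅) hf
        (CuspForm.heckeAlgebra.T hℓ hℓM (Set.notMem_empty _))).trans
        (by rw [FLTAgent.Eigenforms.eigenChar_T])
    have hsum : tOp K ℓ Ψ x y = lam (a • ⟨Φc x y, hval x y⟩) := by
      have h1 : tOp K ℓ Ψ x y = lam (∑ i, (⟨Φc (ofMat (heckeFam ℓ i) • x)
          (ofMat (heckeFam ℓ i) • y), hval _ _⟩ : Λ)) := by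
        rw [map_sum]
        simp only [tOp, pullFam_apply, Finset.sum_apply, pull_apply]
        rfl
      rw [h1]
      congr 1
      apply Subtype.ext
      push_cast
      have h2 := congrFun (congrFun heig x) y
      simp only [tOp, pullFam_apply, Finset.sum_apply, pull_apply, Pi.smul_apply,
        smul_eq_mul] at h2
      rw [h2, ← ha]
      rfl
    rw [hsum, Pi.smul_apply, Pi.smul_apply, smul_eq_mul, ← zsmul_eq_mul]
    show lam _ = _ • lam _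
    rw [← map_zsmul, ← Int.cast_smul_eq_zsmul (integralClosure ℤ ℂ), ← sub_eq_zero, ← map_sub]
    erw [← sub_smul]
    show (ZMod.castHom dvd_rfl K) (lam0 (Submodule.Quotient.mk
      ((a - (b ℓ : integralClosure ℤ ℂ)) • (⟨Φc x y, hval x y⟩ : Λ)))) = 0
    rw [(Submodule.Quotient.mk_eq_zero J).mpr (Submodule.smul_mem_smul hab Submodule.mem_top),
      map_zero, map_zero]

end Reduce

/-! ### From a residual eigensymbol to an eigenform -/

section Lift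

variable {L : ℕ} [NeZero L]

omit [NeZero L] in
theorem isUnit_corner {γ : SL(2, ℤ)} (hγ : γ ∈ Gamma0 L) : IsUnit ((γ 1 1 : ℤ) : ZMod L) := by
  have hdet := congrArg (Int.cast : ℤ → ZMod L) γ.det_coe
  rw [Matrix.det_fin_two] at hdet
  push_cast at hdet
  rw [Gamma0_mem.mp hγ, mul_zero, sub_zero] at hdet
  exact IsUnit.of_mul_eq_one _ ((mul_comm _ _).trans hdet)

omit [NeZero L] in
theorem mem_symbChar_one {R : Type} [CommRing R] {Φ : Cusp → Cusp → R} :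
    Φ ∈ SymbChar R (1 : DirichletCharacter R L) ↔ Φ ∈ Lev R L :=
  and_congr_right fun _ => forall₂_congr fun _ hγ => by
    simp [MulChar.one_apply (isUnit_corner hγ)]

omit [NeZero L] in
theorem tOpChar_one {R : Type} [CommRing R] {ℓ : ℕ} (hℓ : ℓ.Prime) (hℓL : ¬ ℓ ∣ L)
    (Φ : Cusp → Cusp → R) : tOpChar R (1 : DirichletCharacter R L) ℓ Φ = tOp R ℓ Φ := by
  have hu : IsUnit (ℓ : ZMod L) :=
    (ZMod.unitOfCoprime ℓ ((hℓ.coprime_iff_not_dvd).mpr hℓL)).isUnit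
  rw [tOpChar, tOp, pullFam, Fintype.sum_option, MulChar.one_apply hu, one_smul]

/-- A symbol with `3`-adic values is killed once all its images under additive maps are. -/
theorem eq_zero_of_forall_hom {z : ℤ_[3]} (h : ∀ μ : ℤ_[3] →+ ℂ, μ z = 0) : z = 0 := by
  by_contra hz
  have hz' : (z : ℚ_[3]) ≠ 0 := by exact fun h => hz (Subtype.ext h)
  obtain ⟨f, hf⟩ := Module.Projective.exists_dual_ne_zero ℚ (V := ℚ_[3]) hz'
  refine hf (Rat.cast_injective (α := ℂ) ?_)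
  rw [Rat.cast_zero]
  exact h ((Rat.castHom ℂ).toAddMonoidHom.comp
    (f.toAddMonoidHom.comp PadicInt.Coe.ringHom.toAddMonoidHom))

variable (L)

/-- `T_ℓ` on the symbols of level `L`. -/
def tLev (R : Type) [CommRing R] {ℓ : ℕ} (hℓ : ℓ.Prime) (hℓL : ¬ ℓ ∣ L) :
    Module.End R (Lev R L) :=
  (tOp R ℓ).restrict fun _ h => tOp_mem hℓ hℓL h

/-- `U_q` on the symbols of level `L`. -/
def uLev (R : Type) [CommRing R] {q : ℕ} (hq : q.Prime) (hqL : q ∣ L) :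
    Module.End R (Lev R L) :=
  (uOp R q).restrict fun _ h => uOp_mem hq hqL h

variable {L}

omit [NeZero L] in
theorem commute_tLev {R : Type} [CommRing R] {ℓ m : ℕ} (hℓ : ℓ.Prime) (hℓL : ¬ ℓ ∣ L)
    (hm : m.Prime) (hmL : ¬ m ∣ L) : Commute (tLev L R hℓ hℓL) (tLev L R hm hmL) := by
  refine LinearMap.ext fun Φ => Subtype.ext ?_
  show tOp R ℓ (tOp R m Φ.1) = tOp R m (tOp R ℓ Φ.1)
  rcases eq_or_ne ℓ m with rfl | hne
  · rfl
  · exact tOp_comm hℓ hm hne hℓL hmL Φ.2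

omit [NeZero L] in
theorem commute_tLev_uLev {R : Type} [CommRing R] {ℓ q : ℕ} (hℓ : ℓ.Prime) (hℓL : ¬ ℓ ∣ L)
    (hq : q.Prime) (hqL : q ∣ L) : Commute (tLev L R hℓ hℓL) (uLev L R hq hqL) :=
  LinearMap.ext fun Φ => Subtype.ext (tOp_uOp_comm hℓ hq hℓL hqL Φ.2)

/-- A stable subspace on which the operators are scalars, with annihilator inside the kernel of a
character. -/
theorem exists_scalar_subspace {V : Type*} [AddCommGroup V] [Module ℂ V] [FiniteDimensional ℂ V]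
    {A : Type*} [Ring A] (π : A →+* Module.End ℂ V) (O : Set (Module.End ℂ V))
    (hO : ∀ o ∈ O, ∀ o' ∈ O, Commute o o') (hOπ : ∀ o ∈ O, ∀ x, Commute o (π x))
    (hπ : ∀ W : Submodule ℂ V, (∀ o ∈ O, ∀ w ∈ W, o w ∈ W) → ∀ x, ∀ w ∈ W, π x w ∈ W)
    {k : Type*} [Field k] (χ : A →+* k) (hχ : ∀ x, π x = 0 → χ x = 0) :
    ∃ W : Submodule ℂ V, W ≠ ⊥ ∧ (∀ o ∈ O, ∃ c : ℂ, ∀ w ∈ W, o w = c • w) ∧
      ∀ x, (∀ w ∈ W, π x w = 0) → χ x = 0 := by
  suffices h : ∀ (n : ℕ) (W : Submodule ℂ V), Module.finrank ℂ W = n →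
      (∀ o ∈ O, ∀ w ∈ W, o w ∈ W) → (∀ x, (∀ w ∈ W, π x w = 0) → χ x = 0) →
      ∃ W : Submodule ℂ V, W ≠ ⊥ ∧ (∀ o ∈ O, ∃ c : ℂ, ∀ w ∈ W, o w = c • w) ∧
        ∀ x, (∀ w ∈ W, π x w = 0) → χ x = 0 from
    h _ ⊤ rfl (fun _ _ _ _ => trivial) fun x hx => hχ x (LinearMap.ext fun w => hx w trivial)
  intro n
  induction n using Nat.strong_induction_on with
  | _ n ih =>
  intro W hn hstab hann
  have hW : W ≠ ⊥ := fun h => one_ne_zero (α := k) ((map_one χ).symm.trans (hann 1 fun w hw => by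
    rw [h, Submodule.mem_bot] at hw
    rw [hw, map_zero]))
  by_cases hsc : ∀ o ∈ O, ∃ c : ℂ, ∀ w ∈ W, o w = c • w
  · exact ⟨W, hW, hsc, hann⟩
  push Not at hsc
  obtain ⟨o, ho, hns⟩ := hsc
  have : Nontrivial W := Submodule.nontrivial_iff_ne_bot.mpr hW
  obtain ⟨c, hc⟩ := Module.End.exists_eigenvalue (o.restrict (hstab o ho))
  obtain ⟨v, hv⟩ := hc.exists_hasEigenvector
  set D : Module.End ℂ V := o - c • 1 with hD
  have hDapply : ∀ w, D w = o w - c • w := fun w => rfl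
  have hDcomm : ∀ o' ∈ O, ∀ w, o' (D w) = D (o' w) := fun o' ho' w => by
    have h := LinearMap.congr_fun (hO o' ho' o ho).eq w
    simp only [Module.End.mul_apply] at h
    rw [hDapply, hDapply, map_sub, map_smul, h]
  have hDπ : ∀ x w, π x (D w) = D (π x w) := fun x w => by
    have h := LinearMap.congr_fun (hOπ o ho x).eq w
    simp only [Module.End.mul_apply] at h
    rw [hDapply, hDapply, map_sub, map_smul, h]
  set W1 : Submodule ℂ V := W ⊓ LinearMap.ker D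
  set W2 : Submodule ℂ V := W.map D
  have hv0 : (v : V) ≠ 0 := fun h => hv.2 (Subtype.ext h)
  have hDv : D (v : V) = 0 := by
    have h := congrArg Subtype.val hv.apply_eq_smul
    rw [LinearMap.coe_restrict_apply, Submodule.coe_smul] at h
    rw [hDapply, h, sub_self]
  have h1lt : Module.finrank ℂ W1 < n := hn ▸ Submodule.finrank_lt_finrank_of_lt
    (lt_of_le_of_ne inf_le_left fun h => by
      obtain ⟨w, hw, hw'⟩ := hns c
      exact hw' (sub_eq_zero.mp ((h ▸ hw : w ∈ W1).2)))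
  have h2le : W2 ≤ W := by
    rintro _ ⟨w, hw, rfl⟩
    exact sub_mem (hstab o ho w hw) (W.smul_mem c hw)
  have h2lt : Module.finrank ℂ W2 < n := hn ▸ Submodule.finrank_lt_finrank_of_lt
    (lt_of_le_of_ne h2le fun h => by
      have hsurj : Function.Surjective (D.restrict (fun w hw => h2le ⟨w, hw, rfl⟩ :
          ∀ w ∈ W, D w ∈ W)) := fun ⟨y, hy⟩ => by
        rw [← h] at hy
        obtain ⟨w, hw, rfl⟩ := hy
        exact ⟨⟨w, hw⟩, rfl⟩
      have hinj := LinearMap.injective_iff_surjective.mpr hsurj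
      exact hv0 (congrArg Subtype.val (hinj (a₁ := v) (a₂ := 0) (Subtype.ext (by
        rw [LinearMap.coe_restrict_apply, hDv, map_zero, ZeroMemClass.coe_zero])))))
  have h1stab : ∀ o' ∈ O, ∀ w ∈ W1, o' w ∈ W1 := fun o' ho' w hw =>
    ⟨hstab o' ho' w hw.1, by
      rw [SetLike.mem_coe, LinearMap.mem_ker, ← hDcomm o' ho', LinearMap.mem_ker.mp hw.2, map_zero]⟩
  have h2stab : ∀ o' ∈ O, ∀ w ∈ W2, o' w ∈ W2 := by
    rintro o' ho' _ ⟨w, hw, rfl⟩
    exact ⟨o' w, hstab o' ho' w hw, (hDcomm o' ho' w).symm⟩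
  by_cases ha1 : ∀ x, (∀ w ∈ W1, π x w = 0) → χ x = 0
  · exact ih _ h1lt W1 rfl h1stab ha1
  by_cases ha2 : ∀ x, (∀ w ∈ W2, π x w = 0) → χ x = 0
  · exact ih _ h2lt W2 rfl h2stab ha2
  push Not at ha1 ha2
  obtain ⟨x1, hx1, hx1'⟩ := ha1
  obtain ⟨x2, hx2, hx2'⟩ := ha2
  refine absurd (hann (x1 * x2) fun w hw => ?_) (by
    rw [map_mul]
    exact mul_ne_zero hx1' hx2')
  rw [map_mul, Module.End.mul_apply]
  refine hx1 _ ⟨hπ W hstab x2 w hw, ?_⟩
  rw [SetLike.mem_coe, LinearMap.mem_ker, ← hDπ]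
  exact hx2 _ ⟨w, hw, rfl⟩

/-- The Hecke operators away from `S` on complex and `3`-adic symbols. -/
def pairGen (S : Finset ℕ) (hS : ∀ q, q.Prime → q ∣ L → q ∈ S)
    (i : {ℓ : ℕ // ℓ.Prime ∧ ℓ ∉ S}) :
    Module.End ℂ (Lev ℂ L) × Module.End ℤ_[3] (Lev ℤ_[3] L) :=
  (tLev L ℂ i.2.1 fun h => i.2.2 (hS _ i.2.1 h), tLev L ℤ_[3] i.2.1 fun h => i.2.2 (hS _ i.2.1 h))

/-- The ring they generate. -/
def pairRing (S : Finset ℕ) (hS : ∀ q, q.Prime → q ∣ L → q ∈ S) :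
    Subring (Module.End ℂ (Lev ℂ L) × Module.End ℤ_[3] (Lev ℤ_[3] L)) :=
  Subring.closure (Set.range (pairGen S hS))

variable {S : Finset ℕ} {hS : ∀ q, q.Prime → q ∣ L → q ∈ S}

/-- The action on complex symbols. -/
def pairFst : pairRing S hS →+* Module.End ℂ (Lev ℂ L) :=
  (RingHom.fst _ _).comp (pairRing S hS).subtype

omit [NeZero L] in
theorem pairRing_transfer {x : Module.End ℂ (Lev ℂ L) × Module.End ℤ_[3] (Lev ℤ_[3] L)}
    (hx : x ∈ pairRing S hS) (μ : ℤ_[3] →+ ℂ) (Θ : Lev ℤ_[3] L) :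
    (x.1 ⟨_, map_mem_lev μ Θ.2⟩).1 = fun s t => μ ((x.2 Θ).1 s t) := by
  induction hx using Subring.closure_induction generalizing Θ with
  | mem x hx =>
    obtain ⟨i, rfl⟩ := hx
    funext s t
    exact map_tOp_apply μ _ Θ.1 s t
  | zero => funext s t; simp
  | one => rfl
  | neg x _ hx => funext s t; simp [hx Θ]
  | add x y _ _ hx hy => funext s t; simp [hx Θ, hy Θ]
  | mul x y _ _ hx hy =>
    rw [Prod.fst_mul, Prod.snd_mul, Module.End.mul_apply, Module.End.mul_apply,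
      show y.1 ⟨_, map_mem_lev μ Θ.2⟩ = ⟨_, map_mem_lev μ (y.2 Θ).2⟩ from Subtype.ext (hy Θ),
      hx (y.2 Θ)]

omit [NeZero L] in
theorem pairRing_fst_eq_zero {x : Module.End ℂ (Lev ℂ L) × Module.End ℤ_[3] (Lev ℤ_[3] L)}
    (hx : x ∈ pairRing S hS) (h0 : x.1 = 0) : x.2 = 0 := by
  refine LinearMap.ext fun Θ => Subtype.ext (funext fun s => funext fun t =>
    eq_zero_of_forall_hom fun μ => ?_)
  have h := congrFun (congrFun (pairRing_transfer hx μ Θ) s) t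
  rw [h0] at h
  exact h.symm

omit [NeZero L] in
theorem pairRing_reduce {b : ℕ → ℤ} {Φ : Cusp → Cusp → k₃}
    (heig : ∀ ℓ, ℓ.Prime → ℓ ∉ S → tOp k₃ ℓ Φ = (b ℓ : k₃) • Φ)
    {x : Module.End ℂ (Lev ℂ L) × Module.End ℤ_[3] (Lev ℤ_[3] L)} (hx : x ∈ pairRing S hS) :
    ∃ c : k₃, ∀ (r : k₃) (Θ : Lev ℤ_[3] L), mapVal (residue ℤ_[3]) Θ.1 = r • Φ →
      mapVal (residue ℤ_[3]) (x.2 Θ).1 = (c * r) • Φ := by
  induction hx using Subring.closure_induction with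
  | mem x hx =>
    obtain ⟨⟨ℓ, hℓ, hℓS⟩, rfl⟩ := hx
    refine ⟨b ℓ, fun r Θ h => ?_⟩
    have h' : mapVal (residue ℤ_[3]) ((pairGen S hS ⟨ℓ, hℓ, hℓS⟩).2 Θ).1 =
        tOp k₃ ℓ (mapVal (residue ℤ_[3]) Θ.1) := funext fun s => funext fun t =>
      (map_tOp_apply (residue ℤ_[3]).toAddMonoidHom ℓ Θ.1 s t).symm
    rw [h', h, map_smul, heig ℓ hℓ hℓS, smul_smul, mul_comm]
  | zero => exact ⟨0, fun r Θ _ => by funext s t; simp [mapVal]⟩
  | one => exact ⟨1, fun r Θ h => by rw [one_mul]; exact h⟩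
  | neg x _ hx =>
    obtain ⟨c, hc⟩ := hx
    refine ⟨-c, fun r Θ h => ?_⟩
    have h' := hc r Θ h
    funext s t
    have := congrFun (congrFun h' s) t
    simp [mapVal] at this ⊢
    exact this
  | add x y _ _ hx hy =>
    obtain ⟨c, hc⟩ := hx
    obtain ⟨d, hd⟩ := hy
    refine ⟨c + d, fun r Θ h => ?_⟩
    rw [Prod.snd_add, LinearMap.add_apply, Submodule.coe_add, mapVal_add, hc r Θ h, hd r Θ h,
      add_mul, add_smul]
  | mul x y _ _ hx hy =>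
    obtain ⟨c, hc⟩ := hx
    obtain ⟨d, hd⟩ := hy
    refine ⟨c * d, fun r Θ h => ?_⟩
    rw [Prod.snd_mul, Module.End.mul_apply, hc _ _ (hd r Θ h), mul_assoc]

/-- A character in characteristic `p` factoring through algebraic integers gives a maximal ideal. -/
theorem exists_maximal_of_char {p : ℕ} [hp : Fact p.Prime] {A : Type*} [Ring A] {k : Type*}
    [Field k] [CharP k p] (R₀ : A →+* integralClosure ℤ ℂ) (χ : A →+* k)
    (h : ∀ x, R₀ x = 0 → χ x = 0) :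
    ∃ 𝔪 : Ideal (integralClosure ℤ ℂ), 𝔪.IsMaximal ∧ (p : integralClosure ℤ ℂ) ∈ 𝔪 ∧
      ∀ x, χ x = 0 → R₀ x ∈ 𝔪 := by
  let φ : R₀.range →+* k :=
    R₀.rangeRestrict.liftOfSurjective R₀.rangeRestrict_surjective
      ⟨χ, fun x hx => h x (congrArg Subtype.val (RingHom.mem_ker.mp hx))⟩
  have hφ : ∀ x, φ (R₀.rangeRestrict x) = χ x := fun x =>
    R₀.rangeRestrict.liftOfRightInverse_comp_apply _ _ _ x
  have : Algebra.IsIntegral R₀.range (integralClosure ℤ ℂ) :=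
    ⟨fun z => (IsIntegral.tower_top ((isIntegral_algHom_iff (integralClosure ℤ ℂ).val
      Subtype.val_injective).mp z.2))⟩
  have : (RingHom.ker φ).IsPrime := RingHom.ker_isPrime φ
  obtain ⟨𝔪, -, h𝔪p, h𝔪⟩ := Ideal.exists_ideal_over_prime_of_isIntegral (RingHom.ker φ)
    (⊥ : Ideal (integralClosure ℤ ℂ)) (by
      rw [Ideal.comap_bot_of_injective _ Subtype.val_injective]; exact bot_le)
  have hmem : ∀ x, χ x = 0 → R₀ x ∈ 𝔪 := fun x hx => by
    have : R₀.rangeRestrict x ∈ 𝔪.comap (algebraMap R₀.range (integralClosure ℤ ℂ)) := by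
      rw [h𝔪, RingHom.mem_ker, hφ, hx]
    exact this
  have hp' : (p : integralClosure ℤ ℂ) ∈ 𝔪 := by
    have := hmem (p : A) (by rw [map_natCast]; exact CharP.cast_eq_zero k p)
    rwa [map_natCast] at this
  refine ⟨𝔪, ?_, hp', hmem⟩
  have := h𝔪p
  have hmax : (𝔪.comap (algebraMap ℤ (integralClosure ℤ ℂ))).IsMaximal := by
    have heq := (Int.ideal_span_isMaximal_of_prime p).eq_of_le
      (Ideal.IsPrime.ne_top (I := 𝔪.comap (algebraMap ℤ (integralClosure ℤ ℂ))) inferInstance) (by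
        rw [Ideal.span_singleton_le_iff_mem, Ideal.mem_comap, map_natCast]; exact hp')
    rw [← heq]
    exact Int.ideal_span_isMaximal_of_prime p
  exact Ideal.isMaximal_of_isIntegral_of_isMaximal_comap 𝔪 ‹_›

/-- The generator of the ring attached to a prime away from `S`. -/
private def pairRingGen (i : {ℓ : ℕ // ℓ.Prime ∧ ℓ ∉ S}) : pairRing S hS :=
  ⟨pairGen S hS i, Subring.subset_closure ⟨i, rfl⟩⟩

/-- A residual eigensymbol lifts to a `3`-adic symbol. -/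
private theorem exists_lift_symbol (h2 : 2 ∣ L) (hS3 : ∀ q, q.Prime → q ∣ L * 3 → q ∈ S)
    {b : ℕ → ℤ} {Φ : Cusp → Cusp → k₃} (hΦ : Φ ∈ Lev k₃ L)
    (heig : ∀ ℓ, ℓ.Prime → ℓ ∉ S → tOp k₃ ℓ Φ = (b ℓ : k₃) • Φ) {ℓ₀ : ℕ} (hℓ₀ : ℓ₀.Prime)
    (hℓ₀S : ℓ₀ ∉ S) (hℓ₀1 : ℓ₀ ≡ 1 [MOD L]) (hne : (b ℓ₀ : k₃) ≠ 1 + (ℓ₀ : k₃)) :
    ∃ Ψ : Lev ℤ_[3] L, mapVal (residue ℤ_[3]) Ψ.1 = Φ := by
  have : Fact (Nat.Prime 3) := ⟨Nat.prime_three⟩
  have : Finite k₃ := Finite.of_equiv _ (PadicInt.residueField (p := 3)).symm.toEquiv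
  have : CharP k₃ 3 := charP_of_injective_ringHom
    (f := (PadicInt.residueField (p := 3)).symm.toRingHom) (RingEquiv.injective _) 3
  have hSL : ∀ q, q.Prime → q ∣ L → q ∈ S := fun q hq h => hS3 q hq (h.mul_right 3)
  have hnL : ∀ {ℓ}, ℓ.Prime → ℓ ∉ S → ¬ ℓ ∣ L := fun hℓ hℓS h => hℓS (hSL _ hℓ h)
  set δ : DirichletCharacter ℤ_[3] L := 1
  have hδ : δ.ringHomComp (residue ℤ_[3]) = 1 := MulChar.ext fun u => by
    simp [δ, MulChar.one_apply_coe]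
  have hcond : LiftCond ℤ_[3] δ := liftCond_of_order Nat.prime_three (by norm_num) δ
    (fun u => ⟨0, by simp [δ, MulChar.one_apply_coe]⟩) fun _ => ⟨2, Nat.prime_two, h2, rfl⟩
  have hu₀ : IsUnit (ℓ₀ : ℤ_[3]) := isUnit_natCast_of_charP Nat.prime_three fun h =>
    hℓ₀S (hS3 ℓ₀ hℓ₀ (((Nat.prime_dvd_prime_iff_eq Nat.prime_three hℓ₀).mp h) ▸ dvd_mul_left 3 L))
  have hΦpart : Φ ∈ eigenPart k₃ (δ.ringHomComp (residue ℤ_[3])) S
      (residue ℤ_[3] ∘ fun ℓ => (b ℓ : ℤ_[3])) := by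
    rw [hδ]
    refine (mem_eigenPart_iff hSL).mpr ⟨mem_symbChar_one.mpr hΦ, fun ℓ hℓ hℓS n => ⟨1, ?_⟩⟩
    rw [pow_one, shiftOp_apply, tOpChar_one hℓ (hnL hℓ hℓS), heig ℓ hℓ hℓS, Function.comp_apply,
      map_intCast, sub_self]
    exact zero_mem _
  obtain ⟨Ψ, hΨ, hΨΦ⟩ := exists_eigenPart_lift hcond hSL (fun ℓ => (b ℓ : ℤ_[3])) hℓ₀ hℓ₀S
    (by simpa using (ZMod.natCast_eq_natCast_iff' ℓ₀ 1 L).mpr hℓ₀1) hu₀
    (by simpa using hne) hΦpart
  exact ⟨⟨Ψ, mem_symbChar_one.mp ((mem_eigenPart_iff hSL).mp hΨ).1⟩, hΨΦ⟩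

omit [NeZero L] in
/-- A lifted residual eigensymbol gives the residual character of the pair ring. -/
private theorem exists_residual_character {b : ℕ → ℤ} {Φ : Cusp → Cusp → k₃} (h0 : Φ ≠ 0)
    (heig : ∀ ℓ, ℓ.Prime → ℓ ∉ S → tOp k₃ ℓ Φ = (b ℓ : k₃) • Φ) {Ψ : Lev ℤ_[3] L}
    (hΨΦ : mapVal (residue ℤ_[3]) Ψ.1 = Φ) :
    ∃ χ : pairRing S hS →+* k₃, (∀ i, χ (pairRingGen i) = (b i.1 : k₃)) ∧
      ∀ x, pairFst x = 0 → χ x = 0 := by
  have : Fact (Nat.Prime 3) := ⟨Nat.prime_three⟩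
  choose c hc using fun x : pairRing S hS => pairRing_reduce (b := b) heig x.2
  have hΨr : mapVal (residue ℤ_[3]) Ψ.1 = (1 : k₃) • Φ := by rw [one_smul]; exact hΨΦ
  have huniq : ∀ x y : k₃, x • Φ = y • Φ → x = y := fun x y h => smul_left_injective k₃ h0 h
  have hc1 : ∀ x : pairRing S hS, mapVal (residue ℤ_[3]) (x.1.2 Ψ).1 = c x • Φ := fun x => by
    rw [hc x 1 Ψ hΨr, mul_one]
  refine ⟨
    { toFun := c
      map_one' := huniq _ _ ((hc1 1).symm.trans hΨr)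
      map_mul' := fun x y => huniq _ _ ((hc1 (x * y)).symm.trans (by
        rw [Subring.coe_mul, Prod.snd_mul, Module.End.mul_apply, hc x _ _ (hc1 y)]))
      map_zero' := huniq _ _ ((hc1 0).symm.trans (by funext s t; simp [mapVal]))
      map_add' := fun x y => huniq _ _ ((hc1 (x + y)).symm.trans (by
        rw [Subring.coe_add, Prod.snd_add, LinearMap.add_apply, Submodule.coe_add, mapVal_add,
          hc1, hc1, add_smul])) }, fun i => huniq _ _ ?_, fun x hx => huniq _ _ ?_⟩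
  · show c _ • Φ = _
    rw [← hc1, ← heig i.1 i.2.1 i.2.2, ← hΨΦ]
    funext s t
    exact (map_tOp_apply (residue ℤ_[3]).toAddMonoidHom i.1 Ψ.1 s t).symm
  · show c x • Φ = _
    rw [← hc1, pairRing_fst_eq_zero x.2 hx, LinearMap.zero_apply, zero_smul]
    funext s t
    simp [mapVal]

variable (L) in
/-- The Hecke operators away from the level and `U₂`. -/
private def heckeOps (h2 : 2 ∣ L) : Set (Module.End ℂ (Lev ℂ L)) :=
  {o | (∃ (ℓ : ℕ) (hℓ : ℓ.Prime) (hℓL : ¬ ℓ ∣ L), o = tLev L ℂ hℓ hℓL) ∨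
    o = uLev L ℂ Nat.prime_two h2}

omit [NeZero L] in
/-- The Hecke operators commute. -/
private theorem commute_heckeOps (h2 : 2 ∣ L) :
    ∀ o ∈ heckeOps L h2, ∀ o' ∈ heckeOps L h2, Commute o o' := by
  rintro o (⟨ℓ, hℓ, hℓL, rfl⟩ | rfl) o' (⟨m, hm, hmL, rfl⟩ | rfl)
  · exact commute_tLev hℓ hℓL hm hmL
  · exact commute_tLev_uLev hℓ hℓL Nat.prime_two h2
  · exact (commute_tLev_uLev hm hmL Nat.prime_two h2).symm
  · exact Commute.refl _

omit [NeZero L] in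
/-- The generators act by Hecke operators. -/
private theorem pairGen_mem_heckeOps (h2 : 2 ∣ L) (i : {ℓ : ℕ // ℓ.Prime ∧ ℓ ∉ S}) :
    (pairGen S hS i).1 ∈ heckeOps L h2 :=
  .inl ⟨i.1, i.2.1, fun h => i.2.2 (hS _ i.2.1 h), rfl⟩

omit [NeZero L] in
/-- The Hecke operators commute with the pair ring. -/
private theorem commute_pairFst (h2 : 2 ∣ L) :
    ∀ o ∈ heckeOps L h2, ∀ x : pairRing S hS, Commute o (pairFst x) := by
  rintro o ho ⟨x, hx⟩
  show Commute o x.1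
  induction hx using Subring.closure_induction with
  | mem x hx =>
    obtain ⟨i, rfl⟩ := hx
    exact commute_heckeOps h2 o ho _ (pairGen_mem_heckeOps h2 i)
  | zero => exact Commute.zero_right _
  | one => exact Commute.one_right _
  | neg x _ hx =>
    refine LinearMap.ext fun w => ?_
    have h := LinearMap.congr_fun hx.eq w
    simp only [Prod.fst_neg, Module.End.mul_apply, LinearMap.neg_apply, map_neg] at h ⊢
    rw [h]
  | add x y _ _ hx hy => exact hx.add_right hy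
  | mul x y _ _ hx hy => exact hx.mul_right hy

omit [NeZero L] in
/-- A subspace stable under the Hecke operators is stable under the pair ring. -/
private theorem pairFst_mem (h2 : 2 ∣ L) :
    ∀ W : Submodule ℂ (Lev ℂ L), (∀ o ∈ heckeOps L h2, ∀ w ∈ W, o w ∈ W) →
      ∀ x : pairRing S hS, ∀ w ∈ W, pairFst x w ∈ W := by
  rintro W hW ⟨x, hx⟩
  show ∀ w ∈ W, x.1 w ∈ W
  induction hx using Subring.closure_induction with
  | mem x hx =>
    obtain ⟨i, rfl⟩ := hx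
    exact hW _ (pairGen_mem_heckeOps h2 i)
  | zero => exact fun w _ => W.zero_mem
  | one => exact fun w hw => hw
  | neg x _ hx => exact fun w hw => W.neg_mem (hx w hw)
  | add x y _ _ hx hy => exact fun w hw => W.add_mem (hx w hw) (hy w hw)
  | mul x y _ _ hx hy => exact fun w hw => hx _ (hy w hw)

/-- A common eigenspace with the eigenvalues of an eigenform gives an integral character. -/
private theorem exists_integral_character {f : CuspForm (Gamma0 L) 2}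
    (hf : f.IsNormalizedEigenform) {W : Submodule ℂ (Lev ℂ L)} {v : Lev ℂ L} (hvW : v ∈ W)
    (hv0 : v ≠ 0) (hW : ∀ ℓ, ℓ.Prime → ℓ ∉ S → ∀ w ∈ W, tOp ℂ ℓ w.1 = qCoeff f ℓ • w.1) :
    ∃ R₀ : pairRing S hS →+* integralClosure ℤ ℂ,
      (∀ x, ∀ w ∈ W, pairFst x w = (R₀ x : ℂ) • w) ∧
      ∀ i : {ℓ : ℕ // ℓ.Prime ∧ ℓ ∉ S}, (R₀ (pairRingGen i) : ℂ) = qCoeff f i.1 := by
  have hint := FLTAgent.MFIntegral.hasIntegralStructure L 2
  have hsys : ∀ x : pairRing S hS, ∃ r : integralClosure ℤ ℂ, ∀ w ∈ W,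
      pairFst x w = (r : ℂ) • w := by
    rintro ⟨x, hx⟩
    show ∃ r : integralClosure ℤ ℂ, ∀ w ∈ W, x.1 w = (r : ℂ) • w
    induction hx using Subring.closure_induction with
    | mem x hx =>
      obtain ⟨i, rfl⟩ := hx
      refine ⟨FLTAgent.Eigenforms.intQCoeff hint hf i.1, fun w hw => Subtype.ext ?_⟩
      exact hW i.1 i.2.1 i.2.2 w hw
    | zero => exact ⟨0, fun w _ => by simp⟩
    | one => exact ⟨1, fun w _ => by simp⟩
    | neg x _ hx =>
      obtain ⟨r, hr⟩ := hx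
      exact ⟨-r, fun w hw => by simp [hr w hw]; exact (neg_smul (r : ℂ) w).symm⟩
    | add x y _ _ hx hy =>
      obtain ⟨r, hr⟩ := hx
      obtain ⟨r', hr'⟩ := hy
      exact ⟨r + r', fun w hw => by simp [hr w hw, hr' w hw, add_smul]⟩
    | mul x y _ _ hx hy =>
      obtain ⟨r, hr⟩ := hx
      obtain ⟨r', hr'⟩ := hy
      exact ⟨r * r', fun w hw => by
        rw [Prod.fst_mul, Module.End.mul_apply, hr' w hw, map_smul, hr w hw, smul_smul,
          Subalgebra.coe_mul, mul_comm]⟩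
  choose r hr using hsys
  have hrw : ∀ (x : pairRing S hS) (s : integralClosure ℤ ℂ),
      pairFst x v = (s : ℂ) • v → r x = s :=
    fun x s h => Subtype.ext (smul_left_injective ℂ hv0 ((hr x v hvW).symm.trans h))
  refine ⟨
    { toFun := r
      map_one' := hrw _ _ (by simp)
      map_mul' := fun x y => hrw _ _ (by
        rw [map_mul, Module.End.mul_apply, hr y v hvW, map_smul, hr x v hvW, smul_smul,
          Subalgebra.coe_mul, mul_comm])
      map_zero' := hrw _ _ (by simp)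
      map_add' := fun x y => hrw _ _ (by simp [hr x v hvW, hr y v hvW, add_smul]) },
    hr, fun i => ?_⟩
  exact congrArg Subtype.val (hrw (pairRingGen i) (FLTAgent.Eigenforms.intQCoeff hint hf i.1)
    (Subtype.ext (hW i.1 i.2.1 i.2.2 v hvW)))

open scoped Classical in
/-- A residual eigensymbol of level `L`, `2 ∣ L`, comes from an eigenform. -/
theorem exists_eigenform_of_residual_symb (h2 : 2 ∣ L) (S : Finset ℕ)
    (hS : ∀ q, q.Prime → q ∣ L * 3 → q ∈ S) (b : ℕ → ℤ)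
    {Φ : Cusp → Cusp → ResidueField ℤ_[3]} (hΦ : Φ ∈ Lev (ResidueField ℤ_[3]) L) (h0 : Φ ≠ 0)
    (heig : ∀ ℓ, ℓ.Prime → ℓ ∉ S →
      tOp (ResidueField ℤ_[3]) ℓ Φ = (b ℓ : ResidueField ℤ_[3]) • Φ)
    (hne : ∃ ℓ, ℓ.Prime ∧ ℓ ∉ S ∧ ℓ ≡ 1 [MOD L] ∧
      (b ℓ : ResidueField ℤ_[3]) ≠ 1 + (ℓ : ResidueField ℤ_[3])) :
    ∃ (f : CuspForm (Gamma0 L) 2) (𝔪 : Ideal (integralClosure ℤ ℂ)), f.IsNormalizedEigenform ∧
      𝔪.IsMaximal ∧ ((3 : ℕ) : integralClosure ℤ ℂ) ∈ 𝔪 ∧ ∀ ℓ, ℓ.Prime → ℓ ∉ S →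
        ∃ a : integralClosure ℤ ℂ, (a : ℂ) = qCoeff f ℓ ∧ a - (b ℓ : integralClosure ℤ ℂ) ∈ 𝔪 := by
  have : Fact (Nat.Prime 3) := ⟨Nat.prime_three⟩
  have : CharP k₃ 3 := charP_of_injective_ringHom
    (f := (PadicInt.residueField (p := 3)).symm.toRingHom) (RingEquiv.injective _) 3
  obtain ⟨ℓ₀, hℓ₀, hℓ₀S, hℓ₀1, hne⟩ := hne
  have hSL : ∀ q, q.Prime → q ∣ L → q ∈ S := fun q hq h => hS q hq (h.mul_right 3)
  have hnL : ∀ {ℓ}, ℓ.Prime → ℓ ∉ S → ¬ ℓ ∣ L := fun hℓ hℓS h => hℓS (hSL _ hℓ h)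
  -- the residual character
  obtain ⟨Ψ, hΨΦ⟩ := exists_lift_symbol h2 hS hΦ heig hℓ₀ hℓ₀S hℓ₀1 hne
  obtain ⟨χ, hχg, hχ0⟩ := exists_residual_character (hS := hSL) h0 heig hΨΦ
  -- a scalar subspace of complex symbols
  have : FiniteDimensional ℂ (Lev ℂ L) := by
    have h := finite_symbChar (R := ℂ) (1 : DirichletCharacter ℂ L)
    rwa [show SymbChar ℂ (1 : DirichletCharacter ℂ L) = Lev ℂ L from
      SetLike.ext fun _ => mem_symbChar_one] at h
  obtain ⟨W, hW0, hWsc, hWann⟩ := exists_scalar_subspace (pairFst (S := S) (hS := hSL))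
    (heckeOps L h2) (commute_heckeOps h2) (commute_pairFst h2) (pairFst_mem h2) χ hχ0
  -- the eigensystem
  obtain ⟨v, hvW, hv0⟩ := Submodule.exists_mem_ne_zero_of_ne_bot hW0
  have hcv : ∀ ℓ, ∃ a : ℂ, ℓ.Prime → ¬ ℓ ∣ L → ∀ w ∈ W, tOp ℂ ℓ w.1 = a • w.1 := by
    intro ℓ
    by_cases h : ℓ.Prime ∧ ¬ ℓ ∣ L
    · obtain ⟨a, ha⟩ := hWsc _ (.inl ⟨ℓ, h.1, h.2, rfl⟩)
      exact ⟨a, fun _ _ w hw => congrArg Subtype.val (ha w hw)⟩
    · exact ⟨0, fun h1 h2 => absurd ⟨h1, h2⟩ h⟩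
  choose a ha using hcv
  obtain ⟨ε, hε⟩ := hWsc _ (.inr rfl)
  have hne' : a ℓ₀ ≠ 1 + (ℓ₀ : ℂ) := fun h => hne <| by
    have hx := hWann (pairRingGen ⟨ℓ₀, hℓ₀, hℓ₀S⟩ - (1 + (ℓ₀ : pairRing S hSL))) fun w hw => by
      rw [map_sub, map_add, map_one, map_natCast]
      apply Subtype.ext
      show tOp ℂ ℓ₀ w.1 - _ = _
      rw [ha ℓ₀ hℓ₀ (hnL hℓ₀ hℓ₀S) w hw, h]
      funext s t
      simp [add_smul, Module.End.natCast_apply]
    rwa [map_sub, map_add, map_one, map_natCast, hχg ⟨ℓ₀, hℓ₀, hℓ₀S⟩, sub_eq_zero] at hx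
  obtain ⟨f, hf, -, hfa⟩ := exists_eigenform_of_symb Nat.prime_two h2 v.2
    (fun h => hv0 (Subtype.ext h)) a (fun ℓ hℓ hℓL => ha ℓ hℓ hℓL v hvW)
    (congrArg Subtype.val (hε v hvW))
    ⟨ℓ₀, hℓ₀, hnL hℓ₀ hℓ₀S, hℓ₀1, hne'⟩
  obtain ⟨R₀, hR₀, hR₀g⟩ := exists_integral_character (hS := hSL) hf hvW hv0
    fun ℓ hℓ hℓS w hw => by rw [hfa ℓ hℓ (hnL hℓ hℓS), ha ℓ hℓ (hnL hℓ hℓS) w hw]
  obtain ⟨𝔪, h𝔪, h3, hmem⟩ := exists_maximal_of_char (p := 3) R₀ χ fun x hx =>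
    hWann x fun w hw => by rw [hR₀ x w hw, hx, ZeroMemClass.coe_zero, zero_smul]
  refine ⟨f, 𝔪, hf, h𝔪, h3, fun ℓ hℓ hℓS => ⟨R₀ (pairRingGen ⟨ℓ, hℓ, hℓS⟩), hR₀g _, ?_⟩⟩
  have h := hmem (pairRingGen ⟨ℓ, hℓ, hℓS⟩ - (b ℓ : pairRing S hSL))
    (by rw [map_sub, hχg, map_intCast, sub_self])
  rwa [map_sub, map_intCast] at h

end Lift

end FLTAgent.LocalThree
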