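import Fermat.Agent.LocalThree.Tame
import Fermat.Agent.FiniteFlat.Torsion
import Fermat.Agent.GoodReduction.X0
import Fermat.Agent.GaloisImage.Monomial
import Fermat.Agent.GaloisAttach.Supplied

/-!
# Flatness at `3` of representations of level prime to `3`

A two dimensional mod `3` representation attached to a Hecke character of level prime to `3` with
values in `ZMod 3` is finite flat at `3`, being a subquotient of the torsion of `J₀(N)`.
-/

set_option autoImplicit false

noncomputable section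

open ModularCurve GaloisRep

namespace FLTAgent.LocalThree

open FLTAgent.GaloisAttach FLTAgent.FiniteFlat FLTAgent.GaloisImage
open FLTAgent.Density (Qbar GalQ)

/-- Without a stable line the matrices span. -/
theorem span_range_eq_top_of_noStableLine {G K : Type} [Group G] [Field K] [IsAlgClosed K]
    (M : G →* Matrix (Fin 2) (Fin 2) K) (h : NoStableLine M) :
    Submodule.span K (Set.range M) = ⊤ := by
  let ρ : G →* Module.End K (Fin 2 → K) :=
    (Matrix.toLinAlgEquiv' : Matrix (Fin 2) (Fin 2) K ≃ₐ[K] _).toMonoidHom.comp M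
  have hρ : ∀ g v, ρ g v = Matrix.mulVec (M g) v := fun g v => rfl
  have hirr : ∀ W : Submodule K (Fin 2 → K), (∀ g, ∀ x ∈ W, ρ g x ∈ W) → W = ⊥ ∨ W = ⊤ := by
    intro W hW
    by_contra hcon
    push Not at hcon
    obtain ⟨v, hv, hv0⟩ := Submodule.exists_mem_ne_zero_of_ne_bot hcon.1
    have hle : Submodule.span K {v} ≤ W := (Submodule.span_singleton_le_iff_mem _ _).mpr hv
    have hlt : Module.finrank K W < 2 := by
      have := Submodule.finrank_lt (lt_top_iff_ne_top.mpr hcon.2).ne
      simpa using this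
    have h1 : Module.finrank K (Submodule.span K {v}) = 1 := finrank_span_singleton hv0
    have heq : Submodule.span K {v} = W := Submodule.eq_of_le_of_finrank_le hle (by omega)
    refine h v ⟨hv0, fun g _ => ?_⟩
    have := hW g v hv
    rw [← heq, Submodule.mem_span_singleton] at this
    obtain ⟨c, hc⟩ := this
    exact ⟨c, (hρ g v).symm.trans hc.symm⟩
  have h1 := congrArg (Submodule.map
    (Matrix.toLinAlgEquiv' : Matrix (Fin 2) (Fin 2) K ≃ₐ[K] _).symm.toLinearEquiv.toLinearMap)
    (span_range_eq_top_of_irreducible ρ hirr)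
  rw [Submodule.map_span, ← Set.range_comp, Submodule.map_top, LinearEquiv.range] at h1
  rw [← h1]
  congr 1
  exact congrArg Set.range (funext fun g => (AlgEquiv.symm_apply_apply _ (M g)).symm)

/-- Finite level in the shape used by the trace lemmas. -/
theorem adic_continuous_of_factors {R : GalQ →* Matrix (Fin 2) (Fin 2) (ZMod 3)}
    (hR : GaloisFactorsThroughFiniteLevel R) (I : Ideal (ZMod 3)) :
    ∀ n : ℕ, ∃ L : IntermediateField ℚ Qbar, FiniteDimensional ℚ L ∧
      ∀ σ : GalQ, (∀ x ∈ L, σ x = x) → ∀ i j, (R σ - 1) i j ∈ I ^ n := fun n => by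
  obtain ⟨L, hL, h⟩ := hR
  exact ⟨L, hL, fun σ hσ i j => by rw [h σ hσ, sub_self]; exact zero_mem _⟩

/-- The main statement. -/
theorem hasFlatModel_vecAct_of_char {N : ℕ} [NeZero N] (h3N : ¬ 3 ∣ N) {S : Finset ℕ}
    (θ : CuspForm.heckeAlgebra N 2 (↑S : Set ℕ) →+* ZMod 3)
    (R : GalQ →* Matrix (Fin 2) (Fin 2) (ZMod 3)) (hR : GaloisFactorsThroughFiniteLevel R)
    (hfrob : ∀ (ℓ : ℕ) (hℓ : ℓ.Prime) (hℓN : ¬ ℓ ∣ N) (hℓS : ℓ ∉ (↑S : Set ℕ)), ℓ ≠ 3 →
      ∀ P : ValuationSubring Qbar, P.LiesOverPrime ℓ → ∀ σ : GalQ, P.IsFrobeniusAt σ ℓ →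
        (R σ).trace = θ (CuspForm.heckeAlgebra.T hℓ hℓN hℓS) ∧ (R σ).det = (ℓ : ZMod 3))
    (hirr : NoStableLine (extRep (AlgebraicClosure (ZMod 3)) R)) :
    HasFlatModel 3 (vecAct R) := by
  classical
  have : Fact (Nat.Prime 3) := ⟨Nat.prime_three⟩
  have : IsAdicComplete (IsLocalRing.maximalIdeal (ZMod 3)) (ZMod 3) := by
    rw [IsLocalRing.maximalIdeal_eq_bot]; infer_instance
  let hJ := jacobianInputs N Nat.prime_three
  have h3 : ((3 : ℕ) : ZMod 3) ∈ IsLocalRing.maximalIdeal (ZMod 3) := by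
    rw [ZMod.natCast_self]; exact zero_mem _
  obtain ⟨A, c, hlink⟩ := exists_attachedTrace_link hJ frobeniusDivisions S.finite_toSet
    (IsLocalRing.maximalIdeal (ZMod 3)) h3 θ
  have htr := trace_eq_attached frobeniusDivisions A R
    (adic_continuous_of_factors hR _) hfrob
  -- spanning
  let K := AlgebraicClosure (ZMod 3)
  let φ : ZMod 3 →+* K := algebraMap (ZMod 3) K
  have hφ : ∀ t, φ t ≠ 0 → IsUnit t := fun t ht =>
    isUnit_iff_ne_zero.mpr fun h => ht (by rw [h, map_zero])
  have hspan : Submodule.span K (Set.range fun g => (R g).map φ) = ⊤ :=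
    span_range_eq_top_of_noStableLine (extRep K R) hirr
  obtain ⟨P, hP⟩ := FLTAgent.Density.exists_liesOverPrime Nat.prime_three
  refine hasFlatModel_of_attachedTrace hJ hlink (fun n => hasFlatModel_torsAct h3N hP
      (FLTAgent.GoodReduction.x0GoodReduction N Nat.prime_three h3N P hP)
      (pow_ne_zero _ three_ne_zero))
    R htr hφ hspan (I := ⊥) (k := 1)
    (by rw [pow_one, IsLocalRing.maximalIdeal_eq_bot]) (vecAct R)
    (fun σ t q => LinearMap.map_smul (Matrix.toLin' (R σ)) t q) fun s r hX q => ?_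
  have h0 : ∑ g ∈ s, r g • R g = 0 := Matrix.ext fun i j => Ideal.mem_bot.mp (hX i j)
  calc ∑ g ∈ s, r g • vecAct R g q = Matrix.mulVec (∑ g ∈ s, r g • R g) q := by
        rw [Matrix.sum_mulVec]
        exact Finset.sum_congr rfl fun g _ => (Matrix.smul_mulVec (r g) (R g) q).symm
    _ = 0 := by rw [h0, Matrix.zero_mulVec]

end FLTAgent.LocalThree
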