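import Fermat.Agent.LocalThree.TameValues
import Fermat.Agent.FiniteFlat.Operations
import Fermat.Agent.MazurStep.Characters
import Mathlib.RingTheory.RootsOfUnity.AlgebraicallyClosed
import Mathlib.LinearAlgebra.Matrix.ToLin

/-!
# Inertia at `3` and flat twists by the determinant

Inertia at `3` on two dimensional mod `3` representations with cyclotomic determinant: if the
twist by the determinant is finite flat, and the representation itself is finite flat unless
inertia has a stable line, then inertia fixes a nonzero vector.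

The proof uses Hopf algebra expansions of functions on a flat model: a connected nonzero point has
a function of value `s` with `v 3 ≤ s ^ 2`, and tame inertia acts on the leading terms through the
characters `θ ^ m`, `1 ≤ m ≤ 4`, which fixes the trace of a generator.
-/

set_option autoImplicit false

noncomputable section

open scoped TensorProduct

namespace FLTAgent.LocalThree

open GaloisRep FLTAgent.FiniteFlat FLTAgent.FiniteFlat.IsFlatModel
open FLTAgent.Density (Qbar GalQ)

variable {A : ValuationSubring Qbar}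

/-! ### Small points of a flat model -/

section Model

variable {M : Type} [AddCommGroup M] [Finite M]
variable {act : GalQ →* AddMonoid.End M} {H : Subalgebra (ratLocalizedAt 3) (M → Qbar)}

/-- The deviation of a function from its value at the origin. -/
def dev (f : M → Qbar) (x : M) : Qbar := f x - f 0

/-- The point reduces to the origin. -/
def SmallPt (A : ValuationSubring Qbar) (H : Subalgebra (ratLocalizedAt 3) (M → Qbar)) (x : M) :
    Prop :=
  ∀ f ∈ H, A.valuation (dev f x) < 1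

/-- The second difference of a function on pairs. -/
def mixedDiff (u : H ⊗[ratLocalizedAt 3] H) (a b : M) : Qbar :=
  mulMap H u (a, b) - mulMap H u (a, 0) - mulMap H u (0, b) + mulMap H u (0, 0)

omit [Finite M] in
theorem mixedDiff_tmul (g g' : H) (a b : M) :
    mixedDiff (g ⊗ₜ g') a b = dev g.1 a * dev g'.1 b := by
  simp only [mixedDiff, mulMap_tmul, dev]
  ring

omit [Finite M] in
theorem mixedDiff_add (u u' : H ⊗[ratLocalizedAt 3] H) (a b : M) :
    mixedDiff (u + u') a b = mixedDiff u a b + mixedDiff u' a b := by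
  simp only [mixedDiff, map_add, Pi.add_apply]
  ring

omit [Finite M] in
theorem mixedDiff_zero (a b : M) : mixedDiff (0 : H ⊗[ratLocalizedAt 3] H) a b = 0 := by
  simp [mixedDiff]

theorem dev_add_eq (h : IsFlatModel 3 act H) (f : H) (a b : M) :
    dev f.1 (a + b) = dev f.1 a + dev f.1 b + mixedDiff (h.comulHom f) a b := by
  simp only [mixedDiff, mulMap_comulHom, dev, add_zero, zero_add]
  ring

omit [Finite M] in
theorem dev_act (h : IsFlatModel 3 act H) {f : M → Qbar} (hf : f ∈ H) (σ : GalQ) (x : M) :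
    dev f (act σ x) = σ (dev f x) := by
  have h0 : σ (f 0) = f 0 := by
    conv_rhs => rw [← map_zero (act σ)]
    exact (h.equivariant f hf σ 0).symm
  rw [dev, dev, map_sub, h.equivariant f hf σ x, h0]

variable (hA : A.LiesOverPrime 3)

omit [Finite M] in
include hA in
theorem val_apply_fun_le (h : IsFlatModel 3 act H) {f : M → Qbar} (hf : f ∈ H) (x : M) :
    A.valuation (f x) ≤ 1 :=
  MazurStep.val_le_one_of_isIntegral Nat.prime_three hA (h.integral f hf x)

omit [Finite M] in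
include hA in
theorem val_dev_le_one (h : IsFlatModel 3 act H) {f : M → Qbar} (hf : f ∈ H) (x : M) :
    A.valuation (dev f x) ≤ 1 :=
  A.valuation.map_sub_le (val_apply_fun_le hA h hf x) (val_apply_fun_le hA h hf 0)

omit [Finite M] in
theorem val_mixedDiff_le (u : H ⊗[ratLocalizedAt 3] H) {a b : M} {α β : A.ValueGroup}
    (ha : ∀ g ∈ H, A.valuation (dev g a) ≤ α) (hb : ∀ g ∈ H, A.valuation (dev g b) ≤ β) :
    A.valuation (mixedDiff u a b) ≤ α * β := by
  induction u using TensorProduct.induction_on with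
  | zero => simp [mixedDiff_zero]
  | tmul g g' =>
    rw [mixedDiff_tmul, map_mul]
    exact mul_le_mul' (ha _ g.2) (hb _ g'.2)
  | add u u' hu hu' => rw [mixedDiff_add]; exact A.valuation.map_add_le hu hu'

theorem val_mixedDiff_double_le (h : IsFlatModel 3 act H) (u : H ⊗[ratLocalizedAt 3] H) {a : M}
    {β : A.ValueGroup} (ha : ∀ g ∈ H, A.valuation (dev g a) ≤ β) :
    A.valuation (mixedDiff u a (a + a) - 2 * mixedDiff u a a) ≤ β * (β * β) := by
  induction u using TensorProduct.induction_on with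
  | zero => simp [mixedDiff_zero]
  | tmul g g' =>
    rw [mixedDiff_tmul, mixedDiff_tmul, dev_add_eq h g' a a,
      show dev g.1 a * (dev g'.1 a + dev g'.1 a + mixedDiff (h.comulHom g') a a) -
        2 * (dev g.1 a * dev g'.1 a) = dev g.1 a * mixedDiff (h.comulHom g') a a by ring, map_mul]
    exact mul_le_mul' (ha _ g.2) (val_mixedDiff_le _ ha ha)
  | add u u' hu hu' =>
    rw [mixedDiff_add, mixedDiff_add,
      show mixedDiff u a (a + a) + mixedDiff u' a (a + a) -
        2 * (mixedDiff u a a + mixedDiff u' a a) = mixedDiff u a (a + a) - 2 * mixedDiff u a a +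
          (mixedDiff u' a (a + a) - 2 * mixedDiff u' a a) by ring]
    exact A.valuation.map_add_le hu hu'

omit [Finite M] in
include hA in
theorem val_mixedDiff_lt (h : IsFlatModel 3 act H) (u : H ⊗[ratLocalizedAt 3] H) {a : M} (b : M)
    (ha : SmallPt A H a) : A.valuation (mixedDiff u a b) < 1 := by
  induction u using TensorProduct.induction_on with
  | zero => simp [mixedDiff_zero]
  | tmul g g' =>
    rw [mixedDiff_tmul, map_mul]
    exact (mul_le_of_le_one_right' (val_dev_le_one hA h g'.2 b)).trans_lt (ha _ g.2)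
  | add u u' hu hu' => rw [mixedDiff_add]; exact A.valuation.map_add_lt hu hu'

variable (H) in
omit [Finite M] in
theorem smallPt_zero : SmallPt A H (0 : M) := fun f _ => by simp [dev]

include hA in
theorem smallPt_add (h : IsFlatModel 3 act H) {a b : M} (ha : SmallPt A H a)
    (hb : SmallPt A H b) : SmallPt A H (a + b) := fun f hf => by
  rw [show f = ((⟨f, hf⟩ : H) : M → Qbar) from rfl, dev_add_eq h]
  exact A.valuation.map_add_lt (A.valuation.map_add_lt (ha f hf) (hb f hf))
    (val_mixedDiff_lt hA h _ b ha)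

omit [Finite M] in
include hA in
theorem smallPt_act (h : IsFlatModel 3 act H) {σ : GalQ} (hσ : σ ∈ A.decompositionSubgroup ℚ)
    {a : M} (ha : SmallPt A H a) : SmallPt A H (act σ a) := fun f hf => by
  rw [dev_act h hf, val_apply Nat.prime_three hA hσ]
  exact ha f hf

include hA in
theorem smallPt_act_sub (h : IsFlatModel 3 act H) {σ : GalQ}
    (hσ : σ ∈ A.inertiaSubgroupIn ℚ) (x : M) : SmallPt A H (act σ x - x) := fun f hf => by
  have key : ∀ u : H ⊗[ratLocalizedAt 3] H,
      A.valuation (mulMap H u (act σ x, -x) - mulMap H u (x, -x)) < 1 := by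
    intro u
    induction u using TensorProduct.induction_on with
    | zero => simp
    | tmul g g' =>
      rw [mulMap_tmul, mulMap_tmul, ← sub_mul, map_mul]
      refine (mul_le_of_le_one_right' (val_apply_fun_le hA h g'.2 _)).trans_lt ?_
      rw [h.equivariant _ g.2]
      exact (ValuationSubring.mem_nonunits_iff A).mp
        ((Density.mem_inertiaSubgroupIn_iff.mp hσ).2 _
          ((A.valuation_le_one_iff _).mp (val_apply_fun_le hA h g.2 x)))
    | add u u' hu hu' =>
      rw [map_add, Pi.add_apply, Pi.add_apply, add_sub_add_comm]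
      exact A.valuation.map_add_lt hu hu'
  have h1 := key (h.comulHom ⟨f, hf⟩)
  rwa [mulMap_comulHom, mulMap_comulHom, add_neg_cancel, ← sub_eq_add_neg] at h1

include hA in
/-- The largest deviation on a nonempty set of points. -/
theorem exists_max_dev (h : IsFlatModel 3 act H) {S : Set M} (hS : S.Nonempty) :
    ∃ f ∈ H, ∃ a ∈ S, ∀ g ∈ H, ∀ x ∈ S, A.valuation (dev g x) ≤ A.valuation (dev f a) := by
  classical
  have : Fintype M := Fintype.ofFinite M
  obtain ⟨_, _⟩ := h.finite_and_free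
  let b := Module.Free.chooseBasis (ratLocalizedAt 3) H
  obtain ⟨x₀, hx₀⟩ := hS
  rcases isEmpty_or_nonempty (Module.Free.ChooseBasisIndex (ratLocalizedAt 3) H) with hι | hι
  · refine ⟨0, H.zero_mem, x₀, hx₀, fun g hg x _ => ?_⟩
    have : (⟨g, hg⟩ : H) = 0 := by rw [← b.sum_repr ⟨g, hg⟩]; simp
    rw [show g = 0 from congrArg Subtype.val this]
    simp [dev]
  obtain ⟨⟨i₀, a⟩, hmem, hmax⟩ := ((Finset.univ :
      Finset (Module.Free.ChooseBasisIndex (ratLocalizedAt 3) H)) ×ˢ
      (Finset.univ.filter (· ∈ S))).exists_max_image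
    (fun p => A.valuation (dev (b p.1).1 p.2))
    ⟨(Classical.arbitrary _, x₀), by simp [hx₀]⟩
  refine ⟨(b i₀).1, (b i₀).2, a, by simpa using hmem, fun g hg x hx => ?_⟩
  have hg' := congrArg (fun z : H => dev z.1 x) (b.sum_repr ⟨g, hg⟩)
  simp only at hg'
  rw [← hg']
  have hsum : dev ((∑ i, b.repr ⟨g, hg⟩ i • b i : H) : M → Qbar) x =
      ∑ i, algebraMap (ratLocalizedAt 3) Qbar (b.repr ⟨g, hg⟩ i) * dev (b i).1 x := by
    simp [dev, Finset.sum_apply, mul_sub, Algebra.smul_def, Finset.sum_sub_distrib]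
  rw [hsum]
  refine A.valuation.map_sum_le fun i _ => ?_
  rw [map_mul]
  refine (mul_le_of_le_one_left' (MazurStep.val_algebraMap_le Nat.prime_three hA _)).trans ?_
  exact hmax (i, x) (by simp [hx])

omit [Finite M] in
theorem exists_dev_ne_zero (h : IsFlatModel 3 act H) {a : M} (ha : a ≠ 0) :
    ∃ f ∈ H, dev f a ≠ 0 := by
  by_contra hcon
  push Not at hcon
  exact ha (h.separates a 0 fun f hf => sub_eq_zero.mp (hcon f hf))

theorem dev_neg_bound (h : IsFlatModel 3 act H) {a : M} (h3 : a + (a + a) = 0) {β : A.ValueGroup}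
    (hβ : ∀ g ∈ H, A.valuation (dev g a) ≤ β) (hβ1 : β ≤ 1) :
    ∀ g ∈ H, A.valuation (dev g (-a)) ≤ β := by
  intro g hg
  rw [show -a = a + a from neg_eq_of_add_eq_zero_right h3,
    show g = ((⟨g, hg⟩ : H) : M → Qbar) from rfl, dev_add_eq h]
  exact A.valuation.map_add_le (A.valuation.map_add_le (hβ g hg) (hβ g hg))
    ((val_mixedDiff_le _ hβ hβ).trans (mul_le_of_le_one_right' hβ1))

/-- The bound on a small point of order three. -/
theorem val_three_le (h : IsFlatModel 3 act H) {a : M} (h3 : a + (a + a) = 0) {f : M → Qbar}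
    (hf : f ∈ H) (hmax : ∀ g ∈ H, A.valuation (dev g a) ≤ A.valuation (dev f a))
    (hlt : A.valuation (dev f a) < 1) (hne : dev f a ≠ 0) :
    A.valuation (3 : Qbar) ≤ A.valuation (dev f a) * A.valuation (dev f a) := by
  have hd0 : (0 : A.ValueGroup) < A.valuation (dev f a) :=
    zero_lt_iff.mpr (A.valuation.ne_zero_iff.mpr hne)
  set u := h.comulHom ⟨f, hf⟩
  set z := dev f a
  set β := A.valuation z
  have e1 := dev_add_eq h ⟨f, hf⟩ a (a + a)
  have e2 := dev_add_eq h ⟨f, hf⟩ a a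
  rw [h3] at e1
  simp only at e1 e2
  rw [e2] at e1
  have e3 : 3 * z = -(3 * mixedDiff u a a) - (mixedDiff u a (a + a) - 2 * mixedDiff u a a) := by
    have : dev f (0 : M) = 0 := sub_self _
    rw [this] at e1
    linear_combination -e1
  have h1 : A.valuation 3 * β ≤ max (A.valuation 3 * (β * β)) (β * (β * β)) := by
    rw [← map_mul, e3]
    refine (A.valuation.map_sub _ _).trans (max_le_max ?_ (val_mixedDiff_double_le h u hmax))
    rw [Valuation.map_neg, map_mul]
    exact mul_le_mul_right (val_mixedDiff_le u hmax hmax) _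
  have h30 : (0 : A.ValueGroup) < A.valuation 3 :=
    zero_lt_iff.mpr (A.valuation.ne_zero_iff.mpr three_ne_zero)
  have h2 : A.valuation 3 * (β * β) < A.valuation 3 * β :=
    mul_lt_mul_of_pos_left (mul_lt_of_lt_one_left hd0 hlt) h30
  rcases le_max_iff.mp h1 with h4 | h4
  · exact absurd h4 (not_le.mpr h2)
  · rw [mul_comm (A.valuation 3) β] at h4
    exact le_of_mul_le_mul_left h4 hd0

/-- The leading term of a small point is semilinear. -/
theorem ratio_dev_eq (h : IsFlatModel 3 act H) {a : M}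
    (h3 : a + (a + a) = 0) {f : M → Qbar} (hf : f ∈ H)
    (hmax : ∀ g ∈ H, A.valuation (dev g a) ≤ A.valuation (dev f a))
    (hlt : A.valuation (dev f a) < 1) (hne : dev f a ≠ 0) (σ : GalQ) :
    (act σ a = a → ratio A σ (dev f a) = 1) ∧ (act σ a = -a → ratio A σ (dev f a) = -1) := by
  set z := dev f a
  refine ⟨fun hs => ?_, fun hs => ?_⟩
  · rw [ratio, ← dev_act h hf, hs, div_self hne, ares_one]
  have hz0 : (0 : A.ValueGroup) < A.valuation z := zero_lt_iff.mpr (A.valuation.ne_zero_iff.mpr hne)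
  have hle := dev_neg_bound h h3 hmax hlt.le
  have h1 : A.valuation (dev f (-a) + z) < A.valuation z := by
    have e := dev_add_eq h ⟨f, hf⟩ a (-a)
    rw [add_neg_cancel] at e
    simp only at e
    have e0 : dev f (0 : M) = 0 := sub_self _
    rw [e0] at e
    rw [show dev f (-a) + z = -mixedDiff (h.comulHom ⟨f, hf⟩) a (-a) by linear_combination -e,
      Valuation.map_neg]
    exact (val_mixedDiff_le _ hmax hle).trans_lt (mul_lt_of_lt_one_left hz0 hlt)
  rw [ratio, ← dev_act h hf, hs]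
  have hmem : (-1 : Qbar) ∈ A := A.neg_mem _ A.one_mem
  have hq : A.valuation (dev f (-a) / z - (-1)) < 1 := by
    rw [sub_neg_eq_add, div_add_one hne, map_div₀]
    exact (div_lt_one₀ hz0).mpr h1
  have hin : dev f (-a) / z ∈ A := by
    have h2 := (A.valuation_le_one_iff _).mp hq.le
    simpa using A.add_mem _ _ h2 hmem
  have hneg : ares A (-1 : Qbar) = -1 := by
    rw [eq_neg_iff_add_eq_zero, ← ares_one (A := A), ← ares_add hmem A.one_mem, neg_add_cancel,
      ares_zero]
  rw [ares_eq_of_sub hin hmem hq, hneg]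

end Model

/-! ### Two dimensional representations -/

/-- The vectors. -/
abbrev Vec : Type := Fin 2 → ZMod 3

/-- The additive action of a matrix representation. -/
def vecAct (R : GalQ →* Matrix (Fin 2) (Fin 2) (ZMod 3)) : GalQ →* AddMonoid.End Vec where
  toFun σ := (Matrix.toLin' (R σ)).toAddMonoidHom
  map_one' := AddMonoidHom.ext fun v => by rw [map_one, Matrix.toLin'_one]; rfl
  map_mul' σ τ := AddMonoidHom.ext fun v => by rw [map_mul, Matrix.toLin'_mul]; rfl

theorem vecAct_apply (R : GalQ →* Matrix (Fin 2) (Fin 2) (ZMod 3)) (σ : GalQ) (v : Vec) :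
    vecAct R σ v = Matrix.mulVec (R σ) v := rfl

/-- The twist by the determinant. -/
def twistDet (R : GalQ →* Matrix (Fin 2) (Fin 2) (ZMod 3)) :
    GalQ →* Matrix (Fin 2) (Fin 2) (ZMod 3) where
  toFun σ := (R σ).det • R σ
  map_one' := by rw [map_one, Matrix.det_one, one_smul]
  map_mul' σ τ := by rw [map_mul, Matrix.det_mul, smul_mul_smul_comm]

/-- The determinant is the mod `3` cyclotomic character. -/
def DetCyclo (R : GalQ →* Matrix (Fin 2) (Fin 2) (ZMod 3)) : Prop :=
  ∀ (σ : GalQ) (ζ : Qbar), ζ ^ 3 = 1 → σ ζ = ζ ^ (R σ).det.val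

/-- Inertia at `A` stabilises no line. -/
def NoInertiaLine (R : GalQ →* Matrix (Fin 2) (Fin 2) (ZMod 3)) (A : ValuationSubring Qbar) :
    Prop :=
  ∀ u : Vec, u ≠ 0 → ¬ ∀ σ ∈ A.inertiaSubgroupIn ℚ, ∃ c : ZMod 3, Matrix.mulVec (R σ) u = c • u

theorem det_ne_zero (R : GalQ →* Matrix (Fin 2) (Fin 2) (ZMod 3)) (σ : GalQ) :
    (R σ).det ≠ 0 := fun h => by
  have h1 := congrArg Matrix.det (map_mul R σ σ⁻¹)
  rw [mul_inv_cancel, map_one, Matrix.det_one, Matrix.det_mul, h, zero_mul] at h1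
  exact one_ne_zero h1

theorem zmod_three_sq : ∀ c : ZMod 3, c ≠ 0 → c * c = 1 := by decide

theorem zmod_three_cases' : ∀ c : ZMod 3, c ≠ 0 → c = 1 ∨ c = -1 := by decide

theorem det_twistDet (R : GalQ →* Matrix (Fin 2) (Fin 2) (ZMod 3)) (σ : GalQ) :
    (twistDet R σ).det = (R σ).det := by
  show ((R σ).det • R σ).det = _
  rw [Matrix.det_smul, Fintype.card_fin, pow_two, zmod_three_sq _ (det_ne_zero R σ), one_mul]

theorem smul_twistDet (R : GalQ →* Matrix (Fin 2) (Fin 2) (ZMod 3)) (σ : GalQ) :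
    R σ = (R σ).det • twistDet R σ := by
  show R σ = (R σ).det • ((R σ).det • R σ)
  rw [smul_smul, zmod_three_sq _ (det_ne_zero R σ), one_smul]

theorem eq_smul_of_det_eq_zero {u y : Vec} (hu : u ≠ 0) (hd : u 0 * y 1 - u 1 * y 0 = 0) :
    ∃ c : ZMod 3, y = c • u := by
  have key : ∀ a b c d : ZMod 3, ¬ (a = 0 ∧ b = 0) → a * d - b * c = 0 →
      ∃ k : ZMod 3, c = k * a ∧ d = k * b := by decide
  obtain ⟨k, h1, h2⟩ := key (u 0) (u 1) (y 0) (y 1)
    (fun h => hu (funext fun i => by fin_cases i <;> simp [h.1, h.2])) hd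
  exact ⟨k, funext fun i => by fin_cases i <;> simp [h1, h2]⟩

/-- A proper subgroup lies in the line of any of its nonzero elements. -/
theorem eq_smul_of_mem {S : AddSubgroup Vec} (hS : S ≠ ⊤) {u y : Vec} (hu : u ∈ S) (hu0 : u ≠ 0)
    (hy : y ∈ S) : ∃ c : ZMod 3, y = c • u := by
  refine eq_smul_of_det_eq_zero hu0 (by_contra fun hd => hS (eq_top_iff.mpr fun x _ => ?_))
  set d := u 0 * y 1 - u 1 * y 0
  have hsm : ∀ (c : ZMod 3) {v : Vec}, v ∈ S → c • v ∈ S := fun c v hv => by
    rw [← ZMod.natCast_zmod_val c, Nat.cast_smul_eq_nsmul]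
    exact S.nsmul_mem hv _
  have hx : x = (d⁻¹ * (x 0 * y 1 - x 1 * y 0)) • u + (d⁻¹ * (u 0 * x 1 - u 1 * x 0)) • y := by
    funext i
    have h1 : d⁻¹ * d = 1 := inv_mul_cancel₀ hd
    fin_cases i <;> simp only [Pi.add_apply, Pi.smul_apply, smul_eq_mul, Fin.zero_eta, Fin.mk_one]
    · linear_combination -(x 0) * h1
    · linear_combination -(x 1) * h1
  rw [hx]
  exact S.add_mem (hsm _ hu) (hsm _ hy)

/-- An eigenvector with trivial quotient. -/
theorem det_eq_of_eigen {T : Matrix (Fin 2) (Fin 2) (ZMod 3)} {u : Vec} {c : ZMod 3} (hu : u ≠ 0)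
    (hTu : Matrix.mulVec T u = c • u)
    (hq : ∀ x : Vec, ∃ d : ZMod 3, Matrix.mulVec T x - x = d • u) : T.det = c := by
  set N : Matrix (Fin 2) (Fin 2) (ZMod 3) := T - 1
  have hN : ∀ x, Matrix.mulVec N x = Matrix.mulVec T x - x := fun x => by
    rw [Matrix.sub_mulVec, Matrix.one_mulVec]
  have hsq : N * N = (c - 1) • N := by
    refine Matrix.ext_iff_mulVec.mpr fun x => ?_
    obtain ⟨d, hd⟩ := hq x
    rw [← Matrix.mulVec_mulVec, Matrix.smul_mulVec, hN x, hd, Matrix.mulVec_smul, hN u, hTu,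
      smul_comm, sub_smul, one_smul]
  have hdet : N.det = 0 := by
    obtain ⟨d0, h0⟩ := hq ![1, 0]
    obtain ⟨d1, h1⟩ := hq ![0, 1]
    rw [← hN] at h0 h1
    have e : ∀ (i : Fin 2), N i 0 = d0 * u i ∧ N i 1 = d1 * u i := fun i =>
      ⟨by simpa [Matrix.mulVec, dotProduct, Fin.sum_univ_two] using congrFun h0 i,
        by simpa [Matrix.mulVec, dotProduct, Fin.sum_univ_two] using congrFun h1 i⟩
    rw [Matrix.det_fin_two, (e 0).1, (e 0).2, (e 1).1, (e 1).2]
    ring
  have key : ∀ a b c' d μ : ZMod 3, a * d - b * c' = 0 → a * a + b * c' = μ * a →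
      a * b + b * d = μ * b → c' * a + d * c' = μ * c' → c' * b + d * d = μ * d →
      (a = 0 ∧ b = 0 ∧ c' = 0 ∧ d = 0) ∨ a + d = μ := by decide
  have e := fun i j => congrFun (congrFun hsq i) j
  have hT : T.det = 1 + (N 0 0 + N 1 1) + N.det := by
    simp [N, Matrix.det_fin_two]
    ring
  rcases key (N 0 0) (N 0 1) (N 1 0) (N 1 1) (c - 1) (by rw [← Matrix.det_fin_two]; exact hdet)
      (by simpa [Matrix.mul_apply, Fin.sum_univ_two] using e 0 0)
      (by simpa [Matrix.mul_apply, Fin.sum_univ_two] using e 0 1)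
      (by simpa [Matrix.mul_apply, Fin.sum_univ_two] using e 1 0)
      (by simpa [Matrix.mul_apply, Fin.sum_univ_two] using e 1 1) with ⟨ha, hb, hc, hd⟩ | h
  · have hN0 : N = 0 := by ext i j; fin_cases i <;> fin_cases j <;> simp [ha, hb, hc, hd]
    have h1 : T = 1 := sub_eq_zero.mp hN0
    rw [h1, Matrix.one_mulVec] at hTu
    obtain ⟨i, hi⟩ := Function.ne_iff.mp hu
    have h2 := congrFun hTu i
    rw [Pi.smul_apply, smul_eq_mul] at h2
    rw [h1, Matrix.det_one]
    exact mul_right_cancel₀ hi (by rw [one_mul]; exact h2)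
  · rw [hT, hdet, h]
    ring

theorem mul_self_eq (T : Matrix (Fin 2) (Fin 2) (ZMod 3)) :
    T * T = T.trace • T + (-T.det) • (1 : Matrix (Fin 2) (Fin 2) (ZMod 3)) := by
  ext i j
  fin_cases i <;> fin_cases j <;>
    simp [Matrix.mul_apply, Fin.sum_univ_two, Matrix.det_fin_two, Matrix.trace_fin_two] <;> ring

section Rep

variable {R : GalQ →* Matrix (Fin 2) (Fin 2) (ZMod 3)} {A : ValuationSubring Qbar}

theorem vec_three (v : Vec) : v + (v + v) = 0 := by
  funext i
  simp only [Pi.add_apply, Pi.zero_apply]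
  generalize v i = c
  revert c
  decide

/-- A field element fixed by inertia has integral value. -/
theorem exists_val_zpow_of_fixed (hA : A.LiesOverPrime 3) {z : Qbar} (hz : z ≠ 0)
    {L₀ : IntermediateField ℚ Qbar} [FiniteDimensional ℚ L₀] (hzL : z ∈ L₀)
    (hfix : ∀ σ ∈ A.inertiaSubgroupIn ℚ, σ z = z) :
    ∃ k : ℤ, A.valuation z = A.valuation (3 : Qbar) ^ k := by
  let L := IntermediateField.normalClosure ℚ L₀ Qbar
  have : FiniteDimensional ℚ L := normalClosure.is_finiteDimensional ℚ L₀ Qbar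
  have : IsGalois ℚ L := IsGalois.normalClosure ℚ L₀ Qbar
  obtain ⟨ϖ, -, -, -, -, -, h⟩ := exists_uniformizer L Nat.prime_three hA
  obtain ⟨k, hk⟩ := h z (IntermediateField.le_normalClosure L₀ hzL) hz hfix
  exact ⟨k, by rw [hk, Nat.cast_ofNat]⟩

theorem val_three_lt (hA : A.LiesOverPrime 3) : A.valuation (3 : Qbar) < 1 := by
  have := (residueChar_of_liesOverPrime Nat.prime_three hA).lt_one
  simpa using this

theorem false_of_fixed_square (hA : A.LiesOverPrime 3) {z : Qbar} (hz : z ≠ 0)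
    {L₀ : IntermediateField ℚ Qbar} [FiniteDimensional ℚ L₀] (hzL : z ∈ L₀)
    (hfix : ∀ σ ∈ A.inertiaSubgroupIn ℚ, σ z = z) (hlt : A.valuation z < 1)
    (hge : A.valuation (3 : Qbar) ≤ A.valuation z * A.valuation z) : False := by
  obtain ⟨k, hk⟩ := exists_val_zpow_of_fixed hA hz hzL hfix
  have h0 : (0 : A.ValueGroup) < A.valuation (3 : Qbar) :=
    zero_lt_iff.mpr (A.valuation.ne_zero_iff.mpr three_ne_zero)
  rw [hk] at hlt hge
  have hk0 : 0 < k := by
    by_contra hcon
    have := zpow_le_zpow_right_of_le_one₀ h0 (val_three_lt hA).le (not_lt.mp hcon)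
    rw [zpow_zero] at this
    exact absurd hlt (not_lt.mpr this)
  have h2 : A.valuation (3 : Qbar) ^ k * A.valuation (3 : Qbar) ^ k < A.valuation (3 : Qbar) := by
    rw [← zpow_add₀ h0.ne']
    exact (zpow_le_zpow_right_of_le_one₀ h0 (val_three_lt hA).le (show (2 : ℤ) ≤ k + k by omega)
      ).trans_lt (by
        rw [show (2 : ℤ) = 1 + 1 by norm_num, zpow_add₀ h0.ne', zpow_one]
        exact mul_lt_of_lt_one_left h0 (val_three_lt hA))
  exact absurd hge (not_le.mpr h2)

variable {H : Subalgebra (ratLocalizedAt 3) (Vec → Qbar)}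

/-- Inertia fixes no nonzero small point. -/
theorem false_of_fixed_small (hA : A.LiesOverPrime 3) (h : IsFlatModel 3 (vecAct R) H) {a : Vec}
    (ha : a ≠ 0) (hsm : SmallPt A H a)
    (hfix : ∀ σ ∈ A.inertiaSubgroupIn ℚ, vecAct R σ a = a) : False := by
  obtain ⟨f, hf, a', ha', hmax⟩ := exists_max_dev hA h (S := {a}) ⟨a, rfl⟩
  rw [Set.mem_singleton_iff] at ha'
  subst a'
  have hne : dev f a ≠ 0 := by
    obtain ⟨g, hg, hg0⟩ := exists_dev_ne_zero h ha
    intro h0
    have := hmax g hg a rfl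
    rw [h0, map_zero] at this
    exact hg0 (A.valuation.zero_iff.mp (le_antisymm this zero_le))
  obtain ⟨L₀, hL₀, -, hval⟩ := h.exists_valueField
  have := hL₀
  refine false_of_fixed_square hA hne (sub_mem (hval f hf a) (hval f hf 0)) (fun σ hσ => ?_)
    (hsm f hf) (val_three_le h (vec_three a) hf (fun g hg => hmax g hg a rfl) (hsm f hf) hne)
  show σ (dev f a) = dev f a
  rw [← dev_act h hf, hfix σ hσ]

/-- The value `ζ - 1`. -/
theorem exists_cyclo_elt (hA : A.LiesOverPrime 3) (hdet : DetCyclo R) :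
    ∃ ξ : Qbar, ξ ≠ 0 ∧ A.valuation ξ < 1 ∧
      A.valuation ξ * A.valuation ξ = A.valuation (3 : Qbar) ∧
      (∀ σ, (R σ).det = 1 → σ ξ = ξ) ∧ ∀ σ, (R σ).det = -1 → ratio A σ ξ = -1 := by
  obtain ⟨ζ, hζ⟩ : ∃ ζ : Qbar, IsPrimitiveRoot ζ 3 :=
    HasEnoughRootsOfUnity.exists_primitiveRoot Qbar 3
  have hsum : ζ ^ 2 + ζ + 1 = 0 := by
    have h := hζ.geom_sum_eq_zero (by norm_num)
    simp only [Finset.sum_range_succ, Finset.sum_range_zero, pow_zero, pow_one, zero_add] at h
    linear_combination h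
  have hξ : ζ - 1 ≠ 0 := sub_ne_zero.mpr (hζ.ne_one (by norm_num))
  have hζ1 : A.valuation ζ = 1 := by
    have h := congrArg A.valuation hζ.pow_eq_one
    rw [map_pow, map_one] at h
    exact (pow_eq_one_iff_of_nonneg zero_le (by norm_num)).mp h
  have hsq : A.valuation (ζ - 1) * A.valuation (ζ - 1) = A.valuation (3 : Qbar) := by
    rw [← map_mul, show (ζ - 1) * (ζ - 1) = -(3 * ζ) by linear_combination hsum, Valuation.map_neg,
      map_mul, hζ1, mul_one]
  have hlt : A.valuation (ζ - 1) < 1 := by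
    by_contra hcon
    exact absurd (hsq ▸ one_le_mul (not_lt.mp hcon) (not_lt.mp hcon))
      (not_le.mpr (val_three_lt hA))
  refine ⟨ζ - 1, hξ, hlt, hsq, fun σ hσ => ?_, fun σ hσ => ?_⟩
  · rw [map_sub, map_one, hdet σ ζ hζ.pow_eq_one, hσ, ZMod.val_one, pow_one]
  · have hv : ((-1 : ZMod 3)).val = 2 := by decide
    rw [ratio, map_sub, map_one, hdet σ ζ hζ.pow_eq_one, hσ, hv,
      show ζ ^ 2 - 1 = (ζ + 1) * (ζ - 1) by ring, mul_div_cancel_right₀ _ hξ,
      ares_add (mem_of_val_eq_one hζ1) A.one_mem,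
      ares_eq_of_sub (mem_of_val_eq_one hζ1) A.one_mem hlt, ares_one]
    have h3 : ((3 : ℕ) : IsLocalRing.ResidueField A) = 0 := by
      rw [← ares_natCast, ares_eq_zero_iff (natCast_mem A 3), Nat.cast_ofNat]
      exact val_three_lt hA
    push_cast at h3
    linear_combination h3

/-- The determinant is not trivial on inertia. -/
theorem exists_inertia_det (hA : A.LiesOverPrime 3) (hdet : DetCyclo R) :
    ∃ σ ∈ A.inertiaSubgroupIn ℚ, (R σ).det = -1 := by
  by_contra hcon
  push Not at hcon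
  obtain ⟨ξ, hξ, hlt, hsq, h1, -⟩ := exists_cyclo_elt hA hdet
  have : FiniteDimensional ℚ (IntermediateField.adjoin ℚ {ξ}) :=
    IntermediateField.adjoin.finiteDimensional (Algebra.IsIntegral.isIntegral ξ)
  refine false_of_fixed_square hA hξ (IntermediateField.subset_adjoin ℚ _ (Set.mem_singleton ξ))
    (fun σ hσ => h1 σ ((zmod_three_cases' _ (det_ne_zero R σ)).resolve_right (hcon σ hσ))) hlt
    hsq.ge

/-- Either all points are small, or a stable line has trivial quotient. -/
theorem allSmall_or_line (hA : A.LiesOverPrime 3) (hdet : DetCyclo R)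
    (h : IsFlatModel 3 (vecAct R) H) :
    (∀ x : Vec, SmallPt A H x) ∨ ∃ u : Vec, u ≠ 0 ∧
      ∀ σ ∈ A.inertiaSubgroupIn ℚ, Matrix.mulVec (R σ) u = (R σ).det • u := by
  let S : AddSubgroup Vec :=
    { carrier := {x | SmallPt A H x}
      zero_mem' := smallPt_zero H
      add_mem' := fun ha hb => smallPt_add hA h ha hb
      neg_mem' := fun {x} hx => by
        show SmallPt A H (-x)
        rw [neg_eq_of_add_eq_zero_right (vec_three x)]
        exact smallPt_add hA h hx hx }
  by_cases hS : S = ⊤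
  · exact .inl fun x => (hS ▸ AddSubgroup.mem_top x : x ∈ S)
  refine .inr ?_
  by_cases h0 : ∃ u ∈ S, u ≠ 0
  · obtain ⟨u, hu, hu0⟩ := h0
    refine ⟨u, hu0, fun σ hσ => ?_⟩
    obtain ⟨c, hc⟩ := eq_smul_of_mem hS hu hu0
      (smallPt_act hA h (Density.mem_inertiaSubgroupIn_iff.mp hσ).1 hu : vecAct R σ u ∈ S)
    rw [vecAct_apply] at hc
    rw [hc, det_eq_of_eigen hu0 hc fun x => ?_]
    exact eq_smul_of_mem hS hu hu0 (smallPt_act_sub hA h hσ x : vecAct R σ x - x ∈ S)
  · push Not at h0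
    obtain ⟨σ, hσ, hσd⟩ := exists_inertia_det hA hdet
    have hone : R σ = 1 := Matrix.ext_iff_mulVec.mpr fun x => by
      rw [Matrix.one_mulVec]
      exact sub_eq_zero.mp (h0 _ (smallPt_act_sub hA h hσ x : vecAct R σ x - x ∈ S))
    rw [hone, Matrix.det_one] at hσd
    exact absurd hσd (by decide)

theorem res_three (hA : A.LiesOverPrime 3) : (3 : IsLocalRing.ResidueField A) = 0 := by
  have h3 : ((3 : ℕ) : IsLocalRing.ResidueField A) = 0 := by
    rw [← ares_natCast, ares_eq_zero_iff (natCast_mem A 3), Nat.cast_ofNat]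
    exact val_three_lt hA
  exact_mod_cast h3

theorem res_neg_one_ne_one (hA : A.LiesOverPrime 3) :
    (-1 : IsLocalRing.ResidueField A) ≠ 1 := fun h => one_ne_zero
  (α := IsLocalRing.ResidueField A) (by linear_combination res_three hA + h)

/-- The leading term of a model with small points and no stable line. -/
theorem exists_leading_term (hA : A.LiesOverPrime 3) (h : IsFlatModel 3 (vecAct R) H)
    (hall : ∀ x : Vec, SmallPt A H x) (hline : NoInertiaLine R A) :
    ∃ f ∈ H, ∃ a : Vec, dev f a ≠ 0 ∧ A.valuation (dev f a) < 1 ∧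
      A.valuation (3 : Qbar) ≤ A.valuation (dev f a) * A.valuation (dev f a) ∧
      ∃ e : Vec →+ IsLocalRing.ResidueField A, Function.Injective e ∧
        ∀ σ ∈ A.inertiaSubgroupIn ℚ, ∀ x, e (Matrix.mulVec (R σ) x) =
          ratio A σ (dev f a) * e x := by
  obtain ⟨f, hf, a, -, hmax⟩ := exists_max_dev hA h (S := Set.univ) ⟨(0 : Vec), trivial⟩
  have hne : dev f a ≠ 0 := by
    obtain ⟨g, hg, hg0⟩ := exists_dev_ne_zero h (a := (Pi.single 0 1 : Vec)) (by simp)
    intro h0
    have := hmax g hg (Pi.single 0 1) trivial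
    rw [h0, map_zero] at this
    exact hg0 (A.valuation.zero_iff.mp (le_antisymm this zero_le))
  have hlt := hall a f hf
  set z := dev f a
  have hz0 : (0 : A.ValueGroup) < A.valuation z := zero_lt_iff.mpr (A.valuation.ne_zero_iff.mpr hne)
  refine ⟨f, hf, a, hne, hlt,
    val_three_le h (vec_three a) hf (fun g hg => hmax g hg a trivial) hlt hne, ?_⟩
  have hmem : ∀ x, dev f x / z ∈ A := fun x => by
    rw [← A.valuation_le_one_iff, map_div₀]
    exact (div_le_one₀ hz0).mpr (hmax f hf x trivial)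
  have hadd : ∀ x y, ares A (dev f (x + y) / z) = ares A (dev f x / z) + ares A (dev f y / z) := by
    intro x y
    rw [← ares_add (hmem x) (hmem y)]
    refine ares_eq_of_sub (hmem _) (A.add_mem _ _ (hmem x) (hmem y)) ?_
    rw [← add_div, ← sub_div, map_div₀, div_lt_one₀ hz0,
      show f = ((⟨f, hf⟩ : H) : Vec → Qbar) from rfl, dev_add_eq h, add_sub_cancel_left]
    exact (val_mixedDiff_le _ (fun g hg => hmax g hg x trivial)
      (fun g hg => hmax g hg y trivial)).trans_lt (mul_lt_of_lt_one_left hz0 hlt)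
  let e : Vec →+ IsLocalRing.ResidueField A := AddMonoidHom.mk' (fun x => ares A (dev f x / z)) hadd
  have heq : ∀ σ ∈ A.inertiaSubgroupIn ℚ, ∀ x,
      e (Matrix.mulVec (R σ) x) = ratio A σ z * e x := by
    intro σ hσ x
    have hd := (Density.mem_inertiaSubgroupIn_iff.mp hσ).1
    show ares A (dev f (vecAct R σ x) / z) = _
    rw [dev_act h hf, show σ (dev f x) / z = σ z / z * σ (dev f x / z) by
        rw [map_div₀, mul_comm, div_mul_div_cancel₀ ((map_ne_zero σ).mpr hne)],
      ares_mul (mem_of_val_eq_one (val_ratio Nat.prime_three hA hd hne))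
        ((FLTAgent.Density.apply_mem_iff hd _).mpr (hmem x)), ares_apply hσ (hmem x)]
    rfl
  refine ⟨e, ?_, heq⟩
  have hK : e.ker ≠ ⊤ := fun hK => by
    have h1 : e a = 0 := by
      rw [← AddMonoidHom.mem_ker, hK]
      trivial
    rw [show e a = 1 from (congrArg (ares A) (div_self hne)).trans ares_one] at h1
    exact one_ne_zero h1
  refine (injective_iff_map_eq_zero e).mpr fun u hu => ?_
  by_contra hu0
  refine hline u hu0 fun σ hσ => eq_smul_of_mem hK (AddMonoidHom.mem_ker.mpr hu) hu0 ?_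
  rw [AddMonoidHom.mem_ker, heq σ hσ, hu, mul_zero]

/-- The arithmetic of an eighth root of unity in characteristic three. -/
theorem eq_add_cube {k : Type*} [Field k] (h3 : (3 : k) = 0) {g s : k} {m n : ℕ}
    (hn : g ^ n = -1) (hm : 0 < m) (hmn : m ≤ n) (hn4 : n ≤ 4) (hs : s * s = 1)
    (h : g ^ m * g ^ m = s * g ^ m + 1) : s = g + g ^ 3 := by
  have h4 : (g ^ m) ^ 4 = -1 := by
    linear_combination (g ^ m * g ^ m + s * g ^ m + 1) * h + (g ^ m) ^ 2 * hs +
      (s * g ^ m + 1) * h3 + h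
  have hne : (-1 : k) ≠ 1 := fun h => one_ne_zero (α := k) (by linear_combination h3 + h)
  have hn' : n = 4 := by
    by_contra hcon
    have hn1 : 1 ≤ n := hm.trans_le hmn
    interval_cases n
    · refine hne (h4.symm.trans ?_)
      rw [← pow_mul, mul_comm, pow_mul, show g ^ 4 = 1 by
        linear_combination (g ^ 2 + 1) * (g - 1) * hn, one_pow]
    · refine hne (h4.symm.trans ?_)
      rw [← pow_mul, mul_comm, pow_mul, show g ^ 4 = 1 by linear_combination (g ^ 2 - 1) * hn,
        one_pow]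
    · have h6 : (g ^ m) ^ 6 = 1 := by
        rw [← pow_mul, mul_comm, pow_mul, show g ^ 6 = 1 by linear_combination (g ^ 3 - 1) * hn,
          one_pow]
      have h2 : (g ^ m) ^ 2 = -1 := by linear_combination (g ^ m) ^ 2 * h4 - h6
      exact hne (h4.symm.trans (by linear_combination ((g ^ m) ^ 2 - 1) * h2))
    · exact hcon rfl
  subst hn'
  interval_cases m
  · linear_combination g ^ 3 * h + (s - g) * hn
  · exact absurd (h4.symm.trans (by linear_combination (g ^ 4 - 1) * hn)) hne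
  · linear_combination g * h - (g ^ 3 - s) * hn
  · exact absurd (h4.symm.trans (by
      linear_combination (g ^ 12 - g ^ 8 + g ^ 4 - 1) * hn)) hne

end Rep

section Main

variable {R : GalQ →* Matrix (Fin 2) (Fin 2) (ZMod 3)} {A : ValuationSubring Qbar}

theorem detCyclo_twistDet (hdet : DetCyclo R) : DetCyclo (twistDet R) := fun σ ζ hζ => by
  rw [det_twistDet, hdet σ ζ hζ]

theorem twistDet_eq_one_imp {σ : GalQ} (h : twistDet R σ = 1) : R σ = 1 := by
  have hd : (R σ).det = 1 := by rw [← det_twistDet, h, Matrix.det_one]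
  rw [smul_twistDet R σ, hd, one_smul, h]

/-- The tame character at a uniformizer: its image is cyclic, values of `L` give its powers. -/
theorem exists_tame_char (hA : A.LiesOverPrime 3) (L : IntermediateField ℚ Qbar)
    [FiniteDimensional ℚ L] [IsGalois ℚ L] :
    ∃ ϖ ∈ L, ϖ ≠ 0 ∧ ∃ τ ∈ A.inertiaSubgroupIn ℚ,
      (∀ y ∈ L, y ≠ 0 → A.valuation y < 1 →
        ∃ m : ℕ, 0 < m ∧ A.valuation y = A.valuation ϖ ^ m ∧
          ∀ σ ∈ A.inertiaSubgroupIn ℚ, ratio A σ y = ratio A σ ϖ ^ m) ∧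
      A.valuation (3 : Qbar) = A.valuation ϖ ^ Nat.card (inertiaImage L A) ∧
      (0 : A.ValueGroup) < A.valuation ϖ ∧ A.valuation ϖ < 1 ∧
      ∀ σ ∈ A.inertiaSubgroupIn ℚ, ∃ k : ℕ, ratio A σ ϖ = ratio A τ ϖ ^ k := by
  obtain ⟨ϖ, hϖL, hϖ0, hϖ1, hval, he, -⟩ := exists_uniformizer L Nat.prime_three hA
  rw [Nat.cast_ofNat] at he
  have hpos : (0 : A.ValueGroup) < A.valuation ϖ :=
    zero_lt_iff.mpr (A.valuation.ne_zero_iff.mpr hϖ0)
  set e := Nat.card (inertiaImage L A)
  have : NeZero e := ⟨Nat.card_pos.ne'⟩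
  have hdec : ∀ σ ∈ A.inertiaSubgroupIn ℚ, σ ∈ A.decompositionSubgroup ℚ := fun σ hσ =>
    (Density.mem_inertiaSubgroupIn_iff.mp hσ).1
  have hy : ∀ y ∈ L, y ≠ 0 → A.valuation y < 1 →
      ∃ m : ℕ, 0 < m ∧ A.valuation y = A.valuation ϖ ^ m ∧
        ∀ σ ∈ A.inertiaSubgroupIn ℚ, ratio A σ y = ratio A σ ϖ ^ m := by
    intro y hyL hy0 hy1
    obtain ⟨m, hm⟩ := hval y hyL hy0
    have hm0 : 0 < m := by
      by_contra hcon
      have := zpow_le_zpow_right_of_le_one₀ hpos hϖ1.le (not_lt.mp hcon)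
      rw [zpow_zero] at this
      exact absurd (hm ▸ hy1) (not_lt.mpr this)
    obtain ⟨m, rfl⟩ := Int.eq_ofNat_of_zero_le hm0.le
    rw [zpow_natCast] at hm
    refine ⟨m, by omega, hm, fun σ hσ => ?_⟩
    have hu : A.valuation (y / ϖ ^ m) = 1 := by
      rw [map_div₀, hm, map_pow, div_self (pow_ne_zero _ hpos.ne')]
    have hym : y = ϖ ^ m * (y / ϖ ^ m) := (mul_div_cancel₀ _ (pow_ne_zero _ hϖ0)).symm
    rw [hym, ratio_mul Nat.prime_three hA (hdec σ hσ) (pow_ne_zero _ hϖ0)
      (div_ne_zero hy0 (pow_ne_zero _ hϖ0)), ratio_of_val_one hσ hu, mul_one,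
      ratio_pow Nat.prime_three hA (hdec σ hσ) hϖ0]
  let θ : A.inertiaSubgroupIn ℚ →* (IsLocalRing.ResidueField A)ˣ :=
    MonoidHom.mk' (fun σ => Units.mk0 (ratio A σ ϖ)
      (ratio_ne_zero Nat.prime_three hA (hdec σ σ.2) hϖ0)) fun σ τ => Units.ext
        (ratio_comp Nat.prime_three hA σ.2 τ.2 hϖ0)
  have hroot : θ.range ≤ rootsOfUnity e (IsLocalRing.ResidueField A) := by
    rintro _ ⟨σ, rfl⟩
    rw [mem_rootsOfUnity']
    show ratio A σ ϖ ^ e = 1
    obtain ⟨m, -, hm, hr⟩ := hy 3 (by exact_mod_cast natCast_mem L 3) three_ne_zero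
      (val_three_lt hA)
    have hme : m = e := (pow_right_strictAnti₀ hpos hϖ1).injective (hm.symm.trans he)
    rw [← hme, ← hr σ σ.2, ratio, map_ofNat, div_self three_ne_zero, ares_one]
  have : Finite θ.range :=
    Finite.of_injective _ (Subgroup.inclusion_injective hroot)
  have : IsCyclic θ.range := Subgroup.isCyclic_of_le hroot
  obtain ⟨⟨g, τ, rfl⟩, hg⟩ := IsCyclic.exists_monoid_generator (α := θ.range)
  refine ⟨ϖ, hϖL, hϖ0, τ, τ.2, hy, he, hpos, hϖ1, fun σ hσ => ?_⟩
  obtain ⟨k, hk⟩ := Submonoid.mem_powers_iff _ _ |>.mp (hg ⟨θ ⟨σ, hσ⟩, ⟨_, rfl⟩⟩)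
  exact ⟨k, (congrArg (fun u : θ.range => ((u : (IsLocalRing.ResidueField A)ˣ) :
    IsLocalRing.ResidueField A)) hk).symm.trans (by push_cast; rfl)⟩

/-- An eigenvector of an involution. -/
theorem exists_eigen_of_sq {T : Matrix (Fin 2) (Fin 2) (ZMod 3)} (h : T * T = 1) :
    ∃ u : Vec, u ≠ 0 ∧ ∃ c : ZMod 3, Matrix.mulVec T u = c • u := by
  by_cases h0 : Matrix.mulVec T (Pi.single 0 1) + Pi.single 0 1 = 0
  · exact ⟨Pi.single 0 1, by simp, -1, by rw [neg_one_smul, eq_neg_iff_add_eq_zero, h0]⟩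
  · refine ⟨_, h0, 1, ?_⟩
    rw [one_smul, Matrix.mulVec_add, Matrix.mulVec_mulVec, h, Matrix.one_mulVec, add_comm]

/-- The field cut out by `S`. -/
private def kerField (S : GalQ →* Matrix (Fin 2) (Fin 2) (ZMod 3)) : IntermediateField ℚ Qbar :=
  IntermediateField.fixedField S.ker

/-- Membership in the field cut out by `S`. -/
private theorem mem_kerField {S : GalQ →* Matrix (Fin 2) (Fin 2) (ZMod 3)} {z : Qbar} :
    z ∈ kerField S ↔ ∀ σ : GalQ, S σ = 1 → σ z = z :=
  (IntermediateField.mem_fixedField_iff _ _).trans (by simp only [MonoidHom.mem_ker])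

/-- The field cut out by a representation with a flat model is finite over `ℚ`. -/
private theorem finiteDimensional_kerField {S : GalQ →* Matrix (Fin 2) (Fin 2) (ZMod 3)}
    {H : Subalgebra (ratLocalizedAt 3) (Vec → Qbar)} (hH : IsFlatModel 3 (vecAct S) H) :
    FiniteDimensional ℚ (kerField S) := by
  obtain ⟨L₀, hL₀, hker, -⟩ := hH.exists_valueField
  have := hL₀
  have : IsGalois ℚ Qbar := FLTAgent.Density.isGalois_qbar
  have hle : kerField S ≤ L₀ := by
    rw [← InfiniteGalois.fixedField_fixingSubgroup L₀]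
    intro z hz τ
    refine mem_kerField.mp hz _ (Matrix.ext_iff_mulVec.mpr fun x => ?_)
    have h1 := hker (τ : GalQ) ((IntermediateField.mem_fixingSubgroup_iff L₀ _).mp τ.2)
    rw [Matrix.one_mulVec, ← vecAct_apply, h1]
    rfl
  exact FiniteDimensional.of_injective (IntermediateField.inclusion hle).toLinearMap
    (IntermediateField.inclusion hle).injective

/-- The field cut out by a representation is Galois. -/
private theorem isGalois_kerField (S : GalQ →* Matrix (Fin 2) (Fin 2) (ZMod 3)) :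
    IsGalois ℚ (kerField S) := by
  have : Normal ℚ (kerField S) := IntermediateField.normal_iff_forall_map_le'.mpr fun σ => by
    rintro _ ⟨z, hz, rfl⟩
    refine mem_kerField.mpr fun τ hτ => ?_
    have h1 : S (σ⁻¹ * τ * σ) = 1 := by rw [map_mul, map_mul, hτ, mul_one, ← map_mul,
      inv_mul_cancel, map_one]
    have h2 := congrArg σ (mem_kerField.mp hz _ h1)
    rw [AlgEquiv.mul_apply, AlgEquiv.mul_apply, AlgEquiv.aut_inv, AlgEquiv.apply_symm_apply] at h2
    exact h2
  exact ⟨⟩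

/-- The values of a flat model lie in any field cut out by a representation with smaller
kernel. -/
private theorem dev_mem_kerField {S S' : GalQ →* Matrix (Fin 2) (Fin 2) (ZMod 3)}
    {H : Subalgebra (ratLocalizedAt 3) (Vec → Qbar)} (hH : IsFlatModel 3 (vecAct S') H)
    (hker : ∀ σ, S σ = 1 → S' σ = 1) {f : Vec → Qbar} (hf : f ∈ H) (x : Vec) :
    dev f x ∈ kerField S := by
  refine mem_kerField.mpr fun σ hσ => ?_
  rw [← dev_act hH hf, vecAct_apply, hker σ hσ, Matrix.one_mulVec]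

/-- A cyclotomic element: its tame character is the sign `det R`, so a generator of tame inertia
has determinant `-1`. -/
private theorem det_tame_generator (hA : A.LiesOverPrime 3) (hdet : DetCyclo R) {ϖ ξ : Qbar}
    {τ : GalQ} (hτ : τ ∈ A.inertiaSubgroupIn ℚ) {n : ℕ}
    (hgen : ∀ σ ∈ A.inertiaSubgroupIn ℚ, ∃ k : ℕ, ratio A σ ϖ = ratio A τ ϖ ^ k)
    (hξone : ∀ σ, (R σ).det = 1 → ratio A σ ξ = 1)
    (hξneg : ∀ σ, (R σ).det = -1 → ratio A σ ξ = -1)
    (hn : ∀ σ ∈ A.inertiaSubgroupIn ℚ, ratio A σ ξ = ratio A σ ϖ ^ n) :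
    (R τ).det = -1 ∧ ratio A τ ϖ ^ n = -1 := by
  have hd : (R τ).det = -1 := by
    refine (zmod_three_cases' _ (det_ne_zero R τ)).resolve_left fun h1 => ?_
    obtain ⟨σ, hσ, hσd⟩ := exists_inertia_det hA hdet
    obtain ⟨k, hk⟩ := hgen σ hσ
    have h2 := hξneg σ hσd
    rw [hn σ hσ, hk, ← pow_mul, mul_comm, pow_mul, ← hn τ hτ, hξone τ h1, one_pow] at h2
    exact res_neg_one_ne_one hA h2.symm
  exact ⟨hd, (hn τ hτ).symm.trans (hξneg τ hd)⟩

/-- If all points are small and no vector has character `det R` under the twist, then inertia has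
no stable line in the twist. -/
private theorem noInertiaLine_twistDet (hA : A.LiesOverPrime 3)
    {H : Subalgebra (ratLocalizedAt 3) (Vec → Qbar)} (hH : IsFlatModel 3 (vecAct (twistDet R)) H)
    (hall : ∀ x, SmallPt A H x)
    (hfixed : ∀ u : Vec, u ≠ 0 → ¬ ∀ σ ∈ A.inertiaSubgroupIn ℚ,
      Matrix.mulVec (twistDet R σ) u = (twistDet R σ).det • u) {ϖ ξ : Qbar} {τ : GalQ}
    (hτ : τ ∈ A.inertiaSubgroupIn ℚ) {n : ℕ}
    (hgen : ∀ σ ∈ A.inertiaSubgroupIn ℚ, ∃ k : ℕ, ratio A σ ϖ = ratio A τ ϖ ^ k)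
    (hval : ∀ f ∈ H, ∀ x, dev f x ≠ 0 → A.valuation (dev f x) < 1 →
      ∃ m : ℕ, ∀ σ ∈ A.inertiaSubgroupIn ℚ, ratio A σ (dev f x) = ratio A σ ϖ ^ m)
    (hξone : ∀ σ, (R σ).det = 1 → ratio A σ ξ = 1)
    (hξneg : ∀ σ, (R σ).det = -1 → ratio A σ ξ = -1)
    (hn : ∀ σ ∈ A.inertiaSubgroupIn ℚ, ratio A σ ξ = ratio A σ ϖ ^ n)
    (hgn : ratio A τ ϖ ^ n = -1) : NoInertiaLine (twistDet R) A := by
  intro u hu hstab
  obtain ⟨f, hf, a, ha, hmax⟩ := exists_max_dev hA hH (S := {u}) ⟨u, rfl⟩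
  rw [Set.mem_singleton_iff] at ha
  subst a
  have hne : dev f u ≠ 0 := by
    obtain ⟨f', hf', hf0⟩ := exists_dev_ne_zero hH hu
    intro h0
    have := hmax f' hf' u rfl
    rw [h0, map_zero] at this
    exact hf0 (A.valuation.zero_iff.mp (le_antisymm this zero_le))
  obtain ⟨m, hm⟩ := hval f hf u hne (hall u f hf)
  have hchar : ∀ σ ∈ A.inertiaSubgroupIn ℚ,
      (Matrix.mulVec (twistDet R σ) u = u ∧ ratio A σ (dev f u) = 1) ∨
      (Matrix.mulVec (twistDet R σ) u = -u ∧ ratio A σ (dev f u) = -1) := by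
    intro σ hσ
    have hr := ratio_dev_eq hH (vec_three u) hf (fun g hg => hmax g hg u rfl) (hall u f hf)
      hne σ
    obtain ⟨c, hc⟩ := hstab σ hσ
    have hc0 : c ≠ 0 := fun h => by
      rw [h, zero_smul] at hc
      have h1 := congrArg (Matrix.mulVec (twistDet R σ⁻¹)) hc
      rw [Matrix.mulVec_mulVec, ← map_mul, inv_mul_cancel, map_one, Matrix.one_mulVec,
        Matrix.mulVec_zero] at h1
      exact hu h1
    rcases zmod_three_cases' c hc0 with rfl | rfl
    · rw [one_smul] at hc; exact .inl ⟨hc, hr.1 hc⟩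
    · rw [neg_one_smul] at hc; exact .inr ⟨hc, hr.2 hc⟩
  by_cases hgm : ratio A τ ϖ ^ m = 1
  · refine false_of_fixed_small hA hH hu (hall u) fun σ hσ => ?_
    rcases hchar σ hσ with ⟨h, -⟩ | ⟨-, h⟩
    · exact h
    · obtain ⟨k, hk⟩ := hgen σ hσ
      rw [hm σ hσ, hk, ← pow_mul, mul_comm, pow_mul, hgm, one_pow] at h
      exact absurd h.symm (res_neg_one_ne_one hA)
  · have hgm' : ratio A τ ϖ ^ m = -1 := by
      rcases hchar τ hτ with ⟨-, h⟩ | ⟨-, h⟩
      · exact absurd ((hm τ hτ).symm.trans h) hgm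
      · exact (hm τ hτ).symm.trans h
    refine hfixed u hu fun σ hσ => ?_
    obtain ⟨k, hk⟩ := hgen σ hσ
    have hrr : ratio A σ (dev f u) = ratio A σ ξ := by
      rw [hm σ hσ, hn σ hσ, hk, ← pow_mul, ← pow_mul, mul_comm k m, mul_comm k n, pow_mul,
        pow_mul, hgm', hgn]
    rw [det_twistDet]
    rcases zmod_three_cases' _ (det_ne_zero R σ) with hd | hd <;> rw [hd]
    · rw [one_smul]
      rcases hchar σ hσ with ⟨h, -⟩ | ⟨-, h⟩
      · exact h
      · rw [hrr, hξone σ hd] at h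
        exact absurd h.symm (res_neg_one_ne_one hA)
    · rw [neg_one_smul]
      rcases hchar σ hσ with ⟨-, h⟩ | ⟨h, -⟩
      · rw [hrr, hξneg σ hd] at h
        exact absurd h (res_neg_one_ne_one hA)
      · exact h

/-- If inertia acts faithfully through a power of the tame character, its image is generated by
the image of a tame generator. -/
private theorem exists_eq_pow_generator (hA : A.LiesOverPrime 3)
    {S : GalQ →* Matrix (Fin 2) (Fin 2) (ZMod 3)} {ϖ w : Qbar} {τ : GalQ} {m : ℕ}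
    (hϖ : ϖ ≠ 0) (hτ : τ ∈ A.inertiaSubgroupIn ℚ)
    (hgen : ∀ σ ∈ A.inertiaSubgroupIn ℚ, ∃ k : ℕ, ratio A σ ϖ = ratio A τ ϖ ^ k)
    (hw : ∀ σ ∈ A.inertiaSubgroupIn ℚ, ratio A σ w = ratio A σ ϖ ^ m)
    {e : Vec →+ IsLocalRing.ResidueField A} (he : Function.Injective e)
    (heq : ∀ σ ∈ A.inertiaSubgroupIn ℚ, ∀ x, e (Matrix.mulVec (S σ) x) = ratio A σ w * e x)
    {σ : GalQ} (hσ : σ ∈ A.inertiaSubgroupIn ℚ) : ∃ k : ℕ, S σ = S τ ^ k := by
  have hpow : ∀ k : ℕ, ratio A (τ ^ k) ϖ = ratio A τ ϖ ^ k := by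
    intro k
    induction k with
    | zero =>
      rw [pow_zero, pow_zero, ratio, AlgEquiv.one_apply, div_self hϖ, ares_one]
    | succ k ih =>
      rw [pow_succ, ratio_comp Nat.prime_three hA (pow_mem hτ k) hτ hϖ, ih, pow_succ]
  obtain ⟨k, hk⟩ := hgen σ hσ
  refine ⟨k, Matrix.ext_iff_mulVec.mpr fun x => he ?_⟩
  rw [← map_pow, heq σ hσ, heq _ (pow_mem hτ k), hw σ hσ, hw _ (pow_mem hτ k), hk, hpow]

/-- Without stable line, a generator of inertia of determinant `-1` has nonzero trace, hence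
order dividing `8`. -/
private theorem trace_ne_zero_and_pow_eight {S : GalQ →* Matrix (Fin 2) (Fin 2) (ZMod 3)}
    {τ : GalQ} (hd : (S τ).det = -1)
    (hrep : ∀ σ ∈ A.inertiaSubgroupIn ℚ, ∃ k : ℕ, S σ = S τ ^ k) (hline : NoInertiaLine S A) :
    (S τ).trace ≠ 0 ∧ S τ ^ 8 = 1 := by
  set T := S τ with hT
  set t := T.trace
  have hsq : T * T = t • T + 1 := by
    rw [mul_self_eq T, hd, neg_neg, one_smul]
  have ht : t ≠ 0 := by
    intro h0
    rw [h0, zero_smul, zero_add] at hsq
    obtain ⟨u, hu, c, hc⟩ := exists_eigen_of_sq hsq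
    refine hline u hu fun σ hσ => ?_
    obtain ⟨k, hk⟩ := hrep σ hσ
    refine ⟨c ^ k, ?_⟩
    rw [hk]
    clear hk
    induction k with
    | zero => rw [pow_zero, pow_zero, Matrix.one_mulVec, one_smul]
    | succ k ih =>
      rw [pow_succ, ← Matrix.mulVec_mulVec, hc, Matrix.mulVec_smul, ih, smul_smul, pow_succ']
  refine ⟨ht, ?_⟩
  have h4 : T ^ 4 = (-1 : Matrix (Fin 2) (Fin 2) (ZMod 3)) := by
    rw [show (4 : ℕ) = 2 + 2 from rfl, pow_add, pow_two, hsq, add_mul, mul_add, mul_one,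
      Matrix.smul_mul, Matrix.mul_smul, smul_smul, zmod_three_sq t ht, one_smul, hsq, one_mul]
    ext i j
    simp only [Matrix.add_apply, Matrix.smul_apply, Matrix.neg_apply, smul_eq_mul]
    generalize (1 : Matrix (Fin 2) (Fin 2) (ZMod 3)) i j = b
    generalize T i j = c
    have key : ∀ a b c : ZMod 3, a * c + b + a * c + (a * c + b) = -b := by decide
    exact key t b c
  rw [show (8 : ℕ) = 4 * 2 from rfl, pow_mul, h4, neg_one_sq]

/-- The inertia group of the field cut out by `S` has at most `8` elements. -/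
private theorem card_inertiaImage_le_eight {S : GalQ →* Matrix (Fin 2) (Fin 2) (ZMod 3)}
    [FiniteDimensional ℚ (kerField S)] [IsGalois ℚ (kerField S)] {τ : GalQ}
    (hτ : τ ∈ A.inertiaSubgroupIn ℚ) (hT8 : S τ ^ 8 = 1)
    (hrep : ∀ σ ∈ A.inertiaSubgroupIn ℚ, ∃ k : ℕ, S σ = S τ ^ k) :
    Nat.card (inertiaImage (kerField S) A) ≤ 8 := by
  set L := kerField S
  have hk : ∀ k : Fin 8, AlgEquiv.restrictNormalHom L (τ ^ (k : ℕ)) ∈ inertiaImage L A :=
    fun k => Subgroup.mem_map.mpr ⟨_, pow_mem hτ _, rfl⟩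
  refine (Nat.card_le_card_of_surjective (fun k : Fin 8 =>
    (⟨_, hk k⟩ : inertiaImage L A)) ?_).trans_eq (Nat.card_fin 8)
  rintro ⟨_, σ, hσ, rfl⟩
  obtain ⟨k, hk'⟩ := hrep σ hσ
  refine ⟨⟨k % 8, Nat.mod_lt _ (by norm_num)⟩, Subtype.ext (AlgEquiv.ext fun z => ?_)⟩
  show AlgEquiv.restrictNormalHom L (τ ^ (k % 8)) z = AlgEquiv.restrictNormalHom L σ z
  apply Subtype.ext
  refine (AlgEquiv.restrictNormal_commutes _ L z).trans
    ((?_ : _ = σ z.1).trans (AlgEquiv.restrictNormal_commutes σ L z).symm)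
  have h1 : S (σ⁻¹ * τ ^ (k % 8)) = 1 := by
    rw [map_mul, map_pow, show S τ ^ (k % 8) = S σ by
      rw [hk']
      conv_rhs => rw [← Nat.mod_add_div k 8, pow_add, pow_mul, hT8, one_pow, mul_one],
      ← map_mul, inv_mul_cancel, map_one]
  have h2 := congrArg σ (mem_kerField.mp z.2 _ h1)
  rwa [AlgEquiv.mul_apply, AlgEquiv.aut_inv, AlgEquiv.apply_symm_apply] at h2

/-- A matrix of determinant `-1` acting as a scalar gives that scalar a quadratic relation. -/
private theorem quadratic_of_intertwine {k : Type*} [Field k]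
    {T : Matrix (Fin 2) (Fin 2) (ZMod 3)} (hd : T.det = -1) {φ : Vec →+ k}
    (hφ : Function.Injective φ) {r : k} (hrel : ∀ x, φ (Matrix.mulVec T x) = r * φ x) :
    (T.trace = 1 → r * r = 1 * r + 1) ∧ (T.trace = -1 → r * r = -1 * r + 1) := by
  set u : Vec := Pi.single 0 1
  have hu : φ u ≠ 0 := fun h0 => by
    have := hφ (h0.trans (map_zero φ).symm)
    simp [u] at this
  have h2 := congrArg (fun M => φ (Matrix.mulVec M u)) (mul_self_eq T)
  simp only [hd, neg_neg, one_smul, ← Matrix.mulVec_mulVec, Matrix.add_mulVec,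
    Matrix.smul_mulVec, Matrix.one_mulVec, map_add, hrel] at h2
  constructor
  · intro hs
    rw [hs, one_smul, hrel] at h2
    exact mul_right_cancel₀ hu (by linear_combination h2)
  · intro hs
    rw [hs, neg_one_smul, map_neg, hrel] at h2
    exact mul_right_cancel₀ hu (by linear_combination h2)

/-- If the determinant twist is finite flat at `3`, and so is the representation unless inertia
stabilises a line, then inertia fixes a nonzero vector. -/
theorem exists_inertia_fixed_of_flat_twist (hA : A.LiesOverPrime 3) (hdet : DetCyclo R)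
    (hflat' : HasFlatModel 3 (vecAct (twistDet R)))
    (hflat : NoInertiaLine R A → HasFlatModel 3 (vecAct R)) :
    ∃ v : Vec, v ≠ 0 ∧ ∀ σ ∈ A.inertiaSubgroupIn ℚ, Matrix.mulVec (R σ) v = v := by
  classical
  by_contra hgoal
  push Not at hgoal
  obtain ⟨H', hH'⟩ := hflat'
  set R' := twistDet R with hR'
  have hfixed : ∀ u : Vec, u ≠ 0 →
      ¬ ∀ σ ∈ A.inertiaSubgroupIn ℚ, Matrix.mulVec (R' σ) u = (R' σ).det • u := by
    intro u hu h
    obtain ⟨σ, hσ, hne⟩ := hgoal u hu
    refine hne ?_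
    rw [smul_twistDet R σ, Matrix.smul_mulVec, ← hR', h σ hσ, det_twistDet, smul_smul,
      zmod_three_sq _ (det_ne_zero R σ), one_smul]
  have hall' : ∀ x, SmallPt A H' x :=
    (allSmall_or_line hA (detCyclo_twistDet hdet) hH').resolve_right
      fun ⟨u, hu, h⟩ => hfixed u hu h
  -- the field cut out by `R'` and its tame character
  have := finiteDimensional_kerField hH'
  have := isGalois_kerField R'
  obtain ⟨ϖ, -, hϖ0, τ, hτ, hy, he, hpos, hϖ1, hgen⟩ := exists_tame_char hA (kerField R')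
  obtain ⟨ξ, hξ0, hξ1, hξ2, hξfix, hξneg⟩ := exists_cyclo_elt hA hdet
  obtain ⟨n, hn0, hnv, hn⟩ := hy ξ (mem_kerField.mpr fun σ hσ => hξfix σ (by
    rw [twistDet_eq_one_imp hσ, Matrix.det_one])) hξ0 hξ1
  have hξone : ∀ σ, (R σ).det = 1 → ratio A σ ξ = 1 := fun σ hσ => by
    rw [ratio, hξfix σ hσ, div_self hξ0, ares_one]
  obtain ⟨hdτ, hgn⟩ := det_tame_generator hA hdet hτ hgen hξone hξneg hn
  have hline' : NoInertiaLine R' A := noInertiaLine_twistDet hA hH' hall' hfixed hτ hgen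
    (fun f hf x h0 h1 =>
      let ⟨m, _, _, hm⟩ := hy _ (dev_mem_kerField hH' (fun _ h => h) hf x) h0 h1
      ⟨m, hm⟩) hξone hξneg hn hgn
  have hline : NoInertiaLine R A := fun u hu h => hline' u hu fun σ hσ => by
    obtain ⟨c, hc⟩ := h σ hσ
    refine ⟨(R σ).det * c, ?_⟩
    show Matrix.mulVec ((R σ).det • R σ) u = _
    rw [Matrix.smul_mulVec, hc, smul_smul]
  obtain ⟨H, hH⟩ := hflat hline
  have hall : ∀ x, SmallPt A H x := (allSmall_or_line hA hdet hH).resolve_right
    fun ⟨u, hu, h⟩ => hline u hu fun σ hσ => ⟨_, h σ hσ⟩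
  -- the leading terms
  obtain ⟨f, hf, a, hz, hz1, hz3, e, he_inj, heq⟩ := exists_leading_term hA hH hall hline
  obtain ⟨f', hf', a', hz', hz1', hz3', e', he_inj', heq'⟩ :=
    exists_leading_term hA hH' hall' hline'
  obtain ⟨m, hm0, hmv, hm⟩ :=
    hy _ (dev_mem_kerField hH (fun _ h => twistDet_eq_one_imp h) hf a) hz hz1
  obtain ⟨m', hm0', hmv', hm'⟩ := hy _ (dev_mem_kerField hH' (fun _ h => h) hf' a') hz' hz1'
  have hdτ' : (R' τ).det = -1 := by rw [det_twistDet, hdτ]
  have hrep : ∀ σ ∈ A.inertiaSubgroupIn ℚ, ∃ k : ℕ, R' σ = R' τ ^ k :=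
    fun σ hσ => exists_eq_pow_generator hA hϖ0 hτ hgen hm' he_inj' heq' hσ
  obtain ⟨ht, hT8⟩ := trace_ne_zero_and_pow_eight hdτ' hrep hline'
  have hcard := card_inertiaImage_le_eight hτ hT8 hrep
  have hinj := (pow_right_strictAnti₀ hpos hϖ1)
  have hn2 : n + n = Nat.card (inertiaImage (kerField R') A) := hinj.injective (by
    rw [pow_add, ← hnv, hξ2, he])
  have hmn : ∀ {k : ℕ} {z : Qbar}, A.valuation z = A.valuation ϖ ^ k →
      A.valuation (3 : Qbar) ≤ A.valuation z * A.valuation z → k ≤ n := by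
    intro k z hk hz3
    rw [he, ← hn2, hk, ← pow_add] at hz3
    have := hinj.le_iff_ge.mp hz3
    omega
  -- the quadratic relations contradict each other
  have htr : (R τ).trace = -(R' τ).trace := by
    rw [smul_twistDet R τ, hdτ, Matrix.trace_smul, neg_one_smul]
  have q := quadratic_of_intertwine hdτ he_inj (r := ratio A τ ϖ ^ m)
    fun x => (heq τ hτ x).trans (by rw [hm τ hτ])
  have q' := quadratic_of_intertwine hdτ' he_inj' (r := ratio A τ ϖ ^ m')
    fun x => (heq' τ hτ x).trans (by rw [hm' τ hτ])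
  have h3 := res_three hA
  have hn4 : n ≤ 4 := by omega
  have hne := res_neg_one_ne_one hA
  rcases zmod_three_cases' _ ht with h1 | h1
  · have a1 := eq_add_cube h3 hgn hm0' (hmn hmv' hz3') hn4 (one_mul 1) (q'.1 h1)
    have a2 := eq_add_cube h3 hgn hm0 (hmn hmv hz3) hn4 (by ring) (q.2 (by rw [htr, h1]))
    exact hne (a2.trans a1.symm)
  · have a1 := eq_add_cube h3 hgn hm0' (hmn hmv' hz3') hn4 (by ring) (q'.2 h1)
    have a2 := eq_add_cube h3 hgn hm0 (hmn hmv hz3) hn4 (one_mul 1)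
      (q.1 (by rw [htr, h1, neg_neg]))
    exact hne (a1.trans a2.symm)

end Main

end FLTAgent.LocalThree
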