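import Mathlib.Algebra.CharP.Basic
import Fermat.Agent.LevelRaising.Hecke

/-!
# Lowering the power of `3` in the level of mod `3` eigensystems

Mod `3` modular symbols of level `Γ₀(3N)`, `3 ∣ N`: every Hecke eigensystem occurs at level
`Γ₀(N)` up to a twist by a power of `ℓ mod 3`.

`Γ₀(N)` acts on level `3N` symbols through the unipotent `u = pull (1 0; N 1)`, `u ^ 3 = 1`, and
`T_ℓ u = u ^ ℓ T_ℓ`.
-/

set_option autoImplicit false

noncomputable section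

open Matrix CongruenceSubgroup FLTAgent.LevelRaising
open scoped MatrixGroups

namespace FLTAgent.LocalThree

/-- The matrix `(1 0; N k 1)`. -/
def lowerShift (N : ℕ) (k : ℤ) : SL(2, ℤ) :=
  ⟨!![1, 0; (N : ℤ) * k, 1], by simp [Matrix.det_fin_two]⟩

theorem coe_lowerShift (N : ℕ) (k : ℤ) :
    (lowerShift N k : M2) = !![1, 0; (N : ℤ) * k, 1] := rfl

theorem lowerShift_add (N : ℕ) (j k : ℤ) :
    lowerShift N (j + k) = lowerShift N j * lowerShift N k := by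
  apply Subtype.ext
  rw [Matrix.SpecialLinearGroup.coe_mul, coe_lowerShift, coe_lowerShift, coe_lowerShift]
  ext a b
  fin_cases a <;> fin_cases b <;> simp [Matrix.mul_apply, Fin.sum_univ_two, mul_add]

variable {F : Type*} [CommRing F] {N : ℕ}

/-- Pullback by `(1 0; N k 1)`. -/
abbrev shiftOp (F : Type*) [CommRing F] (N : ℕ) (k : ℤ) :
    (Cusp → Cusp → F) →ₗ[F] (Cusp → Cusp → F) := pull F (glQ (lowerShift N k))

theorem shiftOp_shiftOp (j k : ℤ) (Φ : Cusp → Cusp → F) :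
    shiftOp F N k (shiftOp F N j Φ) = shiftOp F N (j + k) Φ := by
  show pull F _ (pull F _ Φ) = pull F _ Φ
  rw [lowerShift_add, map_mul, pull_mul]
  rfl

theorem shiftOp_zero (Φ : Cusp → Cusp → F) : shiftOp F N 0 Φ = Φ := by
  have : lowerShift N 0 = 1 := by
    apply Subtype.ext
    rw [coe_lowerShift, Matrix.SpecialLinearGroup.coe_one]
    ext a b
    fin_cases a <;> fin_cases b <;> simp
  show pull F (glQ (lowerShift N 0)) Φ = Φ
  rw [this, map_one, pull_one]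
  rfl

theorem three_dvd_diag_sub (hN : 3 ∣ N) {γ : SL(2, ℤ)} (hγ : γ ∈ Gamma0 N) :
    (3 : ℤ) ∣ γ 0 0 - γ 1 1 := by
  have hc : (3 : ℤ) ∣ γ 1 0 :=
    (Int.natCast_dvd_natCast.mpr hN).trans (mem_Gamma0_iff_dvd.mp hγ)
  have hdet := γ.det_coe
  rw [Matrix.det_fin_two] at hdet
  have h := congrArg (fun z : ℤ => (z : ZMod 3)) hdet
  push_cast at h
  rw [(ZMod.intCast_zmod_eq_zero_iff_dvd (γ 1 0) 3).mpr hc, mul_zero, sub_zero] at h
  refine (ZMod.intCast_zmod_eq_zero_iff_dvd _ 3).mp ?_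
  push_cast
  revert h
  generalize (γ 0 0 : ZMod 3) = a
  generalize (γ 1 1 : ZMod 3) = d
  revert a d
  decide

theorem shift_conj_mem (hN : 3 ∣ N) (k : ℤ) {γ : SL(2, ℤ)} (hγ : γ ∈ Gamma0 (3 * N)) :
    lowerShift N k * γ * lowerShift N (-k) ∈ Gamma0 (3 * N) := by
  have hγN : γ ∈ Gamma0 N :=
    mem_Gamma0_iff_dvd.mpr ((Int.natCast_dvd_natCast.mpr (dvd_mul_left N 3)).trans
      (mem_Gamma0_iff_dvd.mp hγ))
  obtain ⟨c, hc⟩ := mem_Gamma0_iff_dvd.mp hγ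
  obtain ⟨e, he⟩ := three_dvd_diag_sub hN hγN
  obtain ⟨m, hm⟩ := hN
  refine mem_Gamma0_iff_dvd.mpr ⟨k * e + c - (m : ℤ) * k * k * γ 0 1, ?_⟩
  rw [Matrix.SpecialLinearGroup.coe_mul, Matrix.SpecialLinearGroup.coe_mul, coe_lowerShift,
    coe_lowerShift]
  simp only [Matrix.mul_apply, Fin.sum_univ_two, Matrix.of_apply, Matrix.cons_val',
    Matrix.cons_val_zero, Matrix.cons_val_one, Matrix.cons_val_fin_one]
  have hmz : (N : ℤ) = 3 * m := by exact_mod_cast hm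
  push_cast at hc ⊢
  linear_combination hc + (N : ℤ) * k * he - (N : ℤ) * k * k * γ 0 1 * hmz

theorem shiftOp_mem (hN : 3 ∣ N) (k : ℤ) {Φ : Cusp → Cusp → F} (hΦ : Φ ∈ Lev F (3 * N)) :
    shiftOp F N k Φ ∈ Lev F (3 * N) := by
  refine ⟨fun x y z => hΦ.1 _ _ _, fun γ hγ x y => ?_⟩
  simp only [pull_apply, ← mul_smul, ← map_mul]
  have h1 : lowerShift N k * γ =
      (lowerShift N k * γ * lowerShift N (-k)) * lowerShift N k := by
    rw [mul_assoc (lowerShift N k * γ), ← lowerShift_add, neg_add_cancel]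
    have : lowerShift N 0 = 1 := by
      apply Subtype.ext
      rw [coe_lowerShift, Matrix.SpecialLinearGroup.coe_one]
      ext a b
      fin_cases a <;> fin_cases b <;> simp
    rw [this, mul_one]
  rw [h1, map_mul, mul_smul, mul_smul]
  exact hΦ.2 _ (shift_conj_mem hN k hγ) _ _

theorem shiftOp_three {Φ : Cusp → Cusp → F} (hΦ : Φ ∈ Lev F (3 * N)) :
    shiftOp F N 3 Φ = Φ :=
  pull_glQ_eq hΦ (mem_Gamma0_iff_dvd.mpr ⟨1, by
    show (N : ℤ) * 3 = _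
    push_cast; ring⟩)

theorem mem_lev_of_shift_eq (hN : 3 ∣ N) {Φ : Cusp → Cusp → F} (hΦ : Φ ∈ Lev F (3 * N))
    (h1 : shiftOp F N 1 Φ = Φ) : Φ ∈ Lev F N := by
  have hn : ∀ n : ℕ, shiftOp F N n Φ = Φ := by
    intro n
    induction n with
    | zero => simpa using shiftOp_zero (N := N) Φ
    | succ n ih => rw [Nat.cast_succ, ← shiftOp_shiftOp, ih, h1]
  refine ⟨hΦ.1, fun γ hγ x y => ?_⟩
  obtain ⟨c, hc⟩ := mem_Gamma0_iff_dvd.mp hγ
  obtain ⟨e, he⟩ := three_dvd_diag_sub hN hγ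
  obtain ⟨d, hd⟩ : (3 : ℤ) ∣ γ 0 0 * γ 1 1 - 1 := by
    have hdet := γ.det_coe
    rw [Matrix.det_fin_two] at hdet
    exact ⟨γ 0 1 * (c * ((N / 3 : ℕ) : ℤ)), by
      have hm : (3 : ℤ) * ((N / 3 : ℕ) : ℤ) = N := by exact_mod_cast Nat.mul_div_cancel' hN
      linear_combination hdet + γ 0 1 * hc - γ 0 1 * c * hm⟩
  set k : ℕ := ((c * γ 0 0) % 3).toNat with hk
  have hk' : ((k : ℕ) : ℤ) = (c * γ 0 0) % 3 :=
    Int.toNat_of_nonneg (Int.emod_nonneg _ (by norm_num))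
  have hδ : γ * lowerShift N (-(k : ℤ)) ∈ Gamma0 (3 * N) := by
    refine mem_Gamma0_iff_dvd.mpr ⟨-c * d + γ 1 1 * ((c * γ 0 0) / 3), ?_⟩
    rw [Matrix.SpecialLinearGroup.coe_mul, coe_lowerShift]
    simp only [Matrix.mul_apply, Fin.sum_univ_two, Matrix.of_apply, Matrix.cons_val',
      Matrix.cons_val_zero, Matrix.cons_val_one, Matrix.cons_val_fin_one]
    rw [hk']
    push_cast
    linear_combination hc - (N : ℤ) * c * hd
      - (N : ℤ) * γ 1 1 * (Int.emod_add_mul_ediv (c * γ 0 0) 3)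
  have hsplit : γ = γ * lowerShift N (-(k : ℤ)) * lowerShift N k := by
    rw [mul_assoc, ← lowerShift_add, neg_add_cancel]
    have : lowerShift N 0 = 1 := by
      apply Subtype.ext
      rw [coe_lowerShift, Matrix.SpecialLinearGroup.coe_one]
      ext a b
      fin_cases a <;> fin_cases b <;> simp
    rw [this, mul_one]
  calc Φ (glQ γ • x) (glQ γ • y)
      = shiftOp F N k Φ x y := by
        rw [hsplit, map_mul, mul_smul, mul_smul, hΦ.2 _ hδ]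
        rfl
    _ = Φ x y := by rw [hn]

theorem tOp_shiftOp (hN : 3 ∣ N) {ℓ : ℕ} (hℓ : ℓ.Prime) (hℓN : ¬ ℓ ∣ 3 * N)
    {Φ : Cusp → Cusp → F} (hΦ : Φ ∈ Lev F (3 * N)) :
    tOp F ℓ (shiftOp F N 1 Φ) = shiftOp F N ℓ (tOp F ℓ Φ) := by
  have h3ℓ : ¬ (3 : ℤ) ∣ (ℓ : ℤ) := fun h => hℓN <| by
    have h' : 3 ∣ ℓ := by exact_mod_cast h
    rw [(Nat.prime_dvd_prime_iff_eq Nat.prime_three hℓ).mp h']
    exact dvd_mul_right ℓ N
  rw [tOp, pullFam_apply, pullFam_apply, map_sum]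
  simp only [shiftOp, ← ofMat_coe, ← pull_ofMat_mul (heckeFam_det_ne_zero hℓ.ne_zero _)
    (sl_det_ne_zero _), ← pull_ofMat_mul (sl_det_ne_zero _) (heckeFam_det_ne_zero hℓ.ne_zero _)]
  refine sum_pull_eq hΦ rfl _ _ (fun k => ?_) (fun i => ?_) fun i i' γ' _ he => ?_
  · rw [Matrix.det_mul]
    exact mul_ne_zero (heckeFam_det_ne_zero hℓ.ne_zero _) (sl_det_ne_zero _)
  · obtain ⟨k, γ, hγ, hδ⟩ := exists_gamma_mul_heckeFam hℓ hℓN
      (δ := (lowerShift N 1 : M2) * heckeFam ℓ i * (lowerShift N (-(ℓ : ℤ)) : M2)) (by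
        rw [Matrix.det_mul, Matrix.det_mul, heckeFam_det, (lowerShift N 1).det_coe,
          (lowerShift N _).det_coe, one_mul, mul_one]) (by
        have h31 : (3 : ℤ) ∣ (ℓ : ℤ) * ℓ - 1 := by
          refine (ZMod.intCast_zmod_eq_zero_iff_dvd _ 3).mp ?_
          have hne : ((ℓ : ℤ) : ZMod 3) ≠ 0 := fun h =>
            h3ℓ ((ZMod.intCast_zmod_eq_zero_iff_dvd _ 3).mp h)
          push_cast at hne ⊢
          revert hne
          generalize (ℓ : ZMod 3) = z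
          revert z
          decide
        obtain ⟨e, he⟩ := h31
        obtain ⟨m, hm⟩ := hN
        have hmz : (N : ℤ) = 3 * m := by exact_mod_cast hm
        rcases i with _ | j
        · simp only [coe_lowerShift, heckeFam, Matrix.mul_apply, Fin.sum_univ_two, Matrix.of_apply,
            Matrix.cons_val', Matrix.cons_val_zero, Matrix.cons_val_one, Matrix.cons_val_fin_one]
          refine ⟨0, ?_⟩
          ring
        · simp only [coe_lowerShift, heckeFam, Matrix.mul_apply, Fin.sum_univ_two, Matrix.of_apply,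
            Matrix.cons_val', Matrix.cons_val_zero, Matrix.cons_val_one, Matrix.cons_val_fin_one]
          refine ⟨-e - (m : ℤ) * ℓ * ((j : ℕ) : ℤ), ?_⟩
          push_cast
          linear_combination -(N : ℤ) * he - (N : ℤ) * ℓ * ((j : ℕ) : ℤ) * hmz)
    refine ⟨k, γ, hγ, ?_⟩
    rw [← mul_assoc, ← hδ, mul_assoc, ← Matrix.SpecialLinearGroup.coe_mul, ← lowerShift_add,
      neg_add_cancel]
    ext a b
    fin_cases a <;> fin_cases b <;>
      simp [coe_lowerShift, Matrix.mul_apply, Matrix.vecMul, dotProduct, Fin.sum_univ_two]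
  · rw [← mul_assoc] at he
    refine heckeFam_right_unique hℓ (δ₁ := (lowerShift N 1 : M2))
      (δ₂ := (γ' : M2) * (lowerShift N 1 : M2)) (not_dvd_det_SL hℓ _) ?_ he
    rw [← Matrix.SpecialLinearGroup.coe_mul]
    exact not_dvd_det_SL hℓ _

theorem shiftOp_sub_eq (n : ℕ) {v : Cusp → Cusp → F}
    (h : shiftOp F N 1 (shiftOp F N 1 v - v) = shiftOp F N 1 v - v) :
    shiftOp F N n v - v = (n : F) • (shiftOp F N 1 v - v) := by
  induction n with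
  | zero => simp [shiftOp_zero]
  | succ n ih =>
    rw [Nat.cast_succ, ← shiftOp_shiftOp, Nat.cast_succ, add_smul, one_smul, ← ih]
    have hfix : shiftOp F N 1 (shiftOp F N n v - v) = shiftOp F N n v - v := by
      rw [ih, map_smul, h]
    rw [map_sub] at hfix
    rw [sub_eq_sub_iff_add_eq_add] at hfix
    linear_combination hfix

variable {K : Type*} [Field K] [CharP K 3]

/-- One step of lowering the power of `3` in the level. -/
theorem exists_eigen_lower (hN : 3 ∣ N) (a : ℕ → K) {Φ : Cusp → Cusp → K}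
    (hΦ : Φ ∈ Lev K (3 * N)) (h0 : Φ ≠ 0)
    (heig : ∀ ℓ : ℕ, ℓ.Prime → ¬ ℓ ∣ 3 * N → tOp K ℓ Φ = a ℓ • Φ) :
    ∃ (j : ℕ) (Ψ : Cusp → Cusp → K), Ψ ∈ Lev K N ∧ Ψ ≠ 0 ∧
      ∀ ℓ : ℕ, ℓ.Prime → ¬ ℓ ∣ 3 * N → tOp K ℓ Ψ = ((ℓ : K) ^ j * a ℓ) • Ψ := by
  set v₁ := shiftOp K N 1 Φ - Φ with hv₁
  have hv₁mem : v₁ ∈ Lev K (3 * N) := sub_mem (shiftOp_mem hN 1 hΦ) hΦ
  set v₂ := shiftOp K N 1 v₁ - v₁ with hv₂
  have hv₂mem : v₂ ∈ Lev K (3 * N) := sub_mem (shiftOp_mem hN 1 hv₁mem) hv₁mem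
  have hfix₂ : shiftOp K N 1 v₂ = v₂ := by
    have h3 : (3 : K) = 0 := CharP.cast_eq_zero K 3
    rw [← sub_eq_zero]
    simp only [hv₂, hv₁, map_sub, shiftOp_shiftOp]
    rw [show (1 : ℤ) + 1 + 1 = 3 by norm_num, shiftOp_three hΦ]
    have : ∀ x : Cusp → Cusp → K, (3 : ℕ) • x = 0 := fun x => by
      funext s t
      simp [h3]
    have h := this (shiftOp K N 1 Φ - shiftOp K N (1 + 1) Φ)
    rw [← h]
    abel
  have hcomm : ∀ {v : Cusp → Cusp → K}, v ∈ Lev K (3 * N) → ∀ {ℓ : ℕ} {b : K}, ℓ.Prime →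
      ¬ ℓ ∣ 3 * N → tOp K ℓ v = b • v →
      tOp K ℓ (shiftOp K N 1 v - v) = b • (shiftOp K N ℓ v - v) := by
    intro v hv ℓ b hℓ hℓN hb
    rw [map_sub, tOp_shiftOp hN hℓ hℓN hv, hb, map_smul, smul_sub]
  by_cases h1 : v₁ = 0
  · refine ⟨0, Φ, mem_lev_of_shift_eq hN hΦ (sub_eq_zero.mp h1), h0, fun ℓ hℓ hℓN => ?_⟩
    rw [pow_zero, one_mul, heig ℓ hℓ hℓN]
  by_cases h2 : v₂ = 0
  · refine ⟨1, v₁, mem_lev_of_shift_eq hN hv₁mem (sub_eq_zero.mp h2), h1, fun ℓ hℓ hℓN => ?_⟩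
    rw [hcomm hΦ hℓ hℓN (heig ℓ hℓ hℓN), shiftOp_sub_eq ℓ (sub_eq_zero.mp h2), smul_smul,
      pow_one, mul_comm, ← hv₁]
  refine ⟨2, v₂, mem_lev_of_shift_eq hN hv₂mem hfix₂, h2, fun ℓ hℓ hℓN => ?_⟩
  have hiter : ∀ n : ℕ, shiftOp K N n v₁ - v₁ = (n : K) • v₂ := fun n => shiftOp_sub_eq n hfix₂
  -- `u ^ ℓ - 1` applied twice
  have hsum : ∀ n : ℕ, shiftOp K N n Φ - Φ =
      (n : K) • v₁ + ((n.choose 2 : ℕ) : K) • v₂ := by
    intro n
    induction n with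
    | zero => simp [shiftOp_zero]
    | succ n ih =>
      have e1 : shiftOp K N ((n + 1 : ℕ) : ℤ) Φ - Φ =
          shiftOp K N 1 (shiftOp K N n Φ - Φ) + (shiftOp K N 1 Φ - Φ) := by
        rw [map_sub, shiftOp_shiftOp]
        push_cast
        abel
      rw [e1, ih, map_add, map_smul, map_smul, hfix₂, ← hv₁,
        show shiftOp K N 1 v₁ = v₁ + v₂ by rw [hv₂]; abel, Nat.choose_succ_succ,
        Nat.choose_one_right, smul_add, Nat.cast_add, Nat.cast_add, Nat.cast_one, add_smul,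
        add_smul, one_smul]
      abel
  have hT1 : tOp K ℓ v₁ = (a ℓ * (ℓ : K)) • v₁ + (a ℓ * (ℓ.choose 2 : ℕ)) • v₂ := by
    rw [hcomm hΦ hℓ hℓN (heig ℓ hℓ hℓN), hsum, smul_add, smul_smul, smul_smul]
  have hT2 : tOp K ℓ v₂ = shiftOp K N ℓ (tOp K ℓ v₁) - tOp K ℓ v₁ := by
    rw [hv₂, map_sub, tOp_shiftOp hN hℓ hℓN hv₁mem]
  have hfixn : shiftOp K N ℓ v₂ = v₂ := by
    have := shiftOp_sub_eq (v := v₂) ℓ (by rw [hfix₂, sub_self, map_zero])
    rw [hfix₂, sub_self, smul_zero, sub_eq_zero] at this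
    exact this
  rw [hT2, hT1, map_add, map_smul, map_smul, hfixn, add_sub_add_right_eq_sub, ← smul_sub, hiter,
    smul_smul]
  congr 1
  ring

/-- Lowering `3 ^ k M'` to level `3 M'`. -/
theorem exists_eigen_lower_pow {M' : ℕ} (k : ℕ) (a : ℕ → K) :
    ∀ {Φ : Cusp → Cusp → K}, Φ ∈ Lev K (3 ^ k * (3 * M')) → Φ ≠ 0 →
      (∀ ℓ : ℕ, ℓ.Prime → ¬ ℓ ∣ 3 * M' → tOp K ℓ Φ = a ℓ • Φ) →
      ∃ (j : ℕ) (Ψ : Cusp → Cusp → K), Ψ ∈ Lev K (3 * M') ∧ Ψ ≠ 0 ∧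
        ∀ ℓ : ℕ, ℓ.Prime → ¬ ℓ ∣ 3 * M' → tOp K ℓ Ψ = ((ℓ : K) ^ j * a ℓ) • Ψ := by
  induction k generalizing a with
  | zero =>
    intro Φ hΦ h0 heig
    rw [pow_zero, one_mul] at hΦ
    exact ⟨0, Φ, hΦ, h0, fun ℓ hℓ hℓN => by rw [pow_zero, one_mul, heig ℓ hℓ hℓN]⟩
  | succ k ih =>
    intro Φ hΦ h0 heig
    have hprimes : ∀ ℓ : ℕ, ℓ.Prime → ¬ ℓ ∣ 3 * (3 ^ k * (3 * M')) → ¬ ℓ ∣ 3 * M' :=
      fun ℓ _ h h' => h (dvd_mul_of_dvd_right (dvd_mul_of_dvd_right h' _) 3)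
    have hΦ' : Φ ∈ Lev K (3 * (3 ^ k * (3 * M'))) := by rwa [← mul_assoc, ← pow_succ']
    obtain ⟨j, Ψ, hΨ, hΨ0, hΨe⟩ := exists_eigen_lower
      (dvd_mul_of_dvd_right (dvd_mul_right 3 M') _) a hΦ' h0
      fun ℓ hℓ h => heig ℓ hℓ (hprimes ℓ hℓ h)
    obtain ⟨i, Θ, hΘ, hΘ0, hΘe⟩ := ih (fun ℓ => (ℓ : K) ^ j * a ℓ) hΨ hΨ0 fun ℓ hℓ h => hΨe ℓ hℓ
      fun hd => by
        rcases (hℓ.dvd_mul).mp hd with h3 | h3
        · exact h (dvd_mul_of_dvd_left h3 _)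
        · rcases (hℓ.dvd_mul).mp h3 with h4 | h4
          · exact h (dvd_mul_of_dvd_left (hℓ.dvd_of_dvd_pow h4) _)
          · exact h h4
    exact ⟨i + j, Θ, hΘ, hΘ0, fun ℓ hℓ h => by rw [hΘe ℓ hℓ h, pow_add, mul_assoc]⟩

end FLTAgent.LocalThree
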