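import Fermat.Agent.LocalThree.Flat
import Fermat.Agent.LocalThree.Symbols
import Fermat.Agent.LocalThree.Twist
import Fermat.Agent.Endgame.Semistable
import Fermat.Agent.LevelRaising.NonEisenstein
import Fermat.Agent.TateLocal.Exists
import Fermat.Agent.ECTorsion.GlobalTrace
import Fermat.Agent.Newforms.Occurrence
import Fermat.Agent.GaloisAttach.Main

/-!
# The bridge to residual modularity at `3` with `9 ∤ M`

Residual modularity at `3` at a level not divisible by `9`, from residual modularity at any level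
without inertia-fixed points in the `3`-torsion, given the line at `3` of a newform with `3 ∥ L`.
-/

set_option autoImplicit false

noncomputable section

open CongruenceSubgroup WeierstrassCurve WeierstrassCurve.Affine WeierstrassCurve.Affine.Point
open scoped WeierstrassCurve.Affine

namespace FLTAgent.LocalThree

open FLTAgent.GaloisImage FLTAgent.FiniteFlat FLTAgent.LevelRaising
open FLTAgent.Density (Qbar GalQ)
open FLTAgent.Endgame (ResidualThreeNineFree)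

local notation "Γ₀" => Gamma0

/-- A nonzero vector on which inertia acts by the determinant. -/
def HasDetLine (R : GalQ →* Matrix (Fin 2) (Fin 2) (ZMod 3)) (A : ValuationSubring Qbar) : Prop :=
  ∃ u : Vec, u ≠ 0 ∧ ∀ σ ∈ A.inertiaSubgroupIn ℚ, Matrix.mulVec (R σ) u = (R σ).det • u

/-- A newform of level divisible by `3` exactly once has, residually, at each place over `3` a line
with trivial action of inertia on the quotient. -/
abbrev NewformDetLineInput : Prop :=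
  ∀ (L : ℕ) [NeZero L] (g : CuspForm (Gamma0 L) 2), g.IsNewform → 3 ∣ L → ¬ 3 ^ 2 ∣ L →
    ∀ (𝔪 : Ideal (integralClosure ℤ ℂ)), 𝔪.IsMaximal →
      ((3 : ℕ) : integralClosure ℤ ℂ) ∈ 𝔪 →
    ∀ (S : Finset ℕ), (∀ q, q.Prime → q ∣ L → q ∈ S) → 3 ∈ S →
    ∀ (R : GalQ →* Matrix (Fin 2) (Fin 2) (ZMod 3)), GaloisFactorsThroughFiniteLevel R →
      NoStableLine (extRep (AlgebraicClosure (ZMod 3)) R) →
      (∀ ℓ : ℕ, ℓ.Prime → ℓ ∉ S → ∃ (a : integralClosure ℤ ℂ) (n : ℤ),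
        (a : ℂ) = ModularFormClass.qCoeff g ℓ ∧ a - (n : integralClosure ℤ ℂ) ∈ 𝔪 ∧
        ∀ P : ValuationSubring Qbar, P.LiesOverPrime ℓ → ∀ σ, P.IsFrobeniusAt σ ℓ →
          (R σ).trace = (n : ZMod 3) ∧ (R σ).det = (ℓ : ZMod 3)) →
      ∀ A : ValuationSubring Qbar, A.LiesOverPrime 3 → HasDetLine R A

section Curve

variable {W : WeierstrassCurve ℤ} (b : Module.Basis (Fin 2) (ZMod 3) (Tors W 3))

theorem matRep_factors (hΔ : W.Δ ≠ 0) : GaloisFactorsThroughFiniteLevel (matRep W 3 b) := by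
  have : Fact (Nat.Prime 3) := ⟨Nat.prime_three⟩
  have := isElliptic_qbar hΔ
  have : Finite (Tors W 3) := FLTAgent.ECTorsion.finite_torsionBy
    (W.map (Int.castRingHom ℚ)).toAffine (K := AlgebraicClosure ℚ)
    (Nat.cast_ne_zero.mpr three_ne_zero)
  obtain ⟨L, hL, hfix⟩ := FLTAgent.ECTorsion.exists_fixingSubgroup_smul_eq (S := ℚ)
    (K := AlgebraicClosure ℚ) (W.map (Int.castRingHom ℚ)).toAffine (n := 3)
  refine ⟨L, hL, fun σ hσ => Matrix.ext_of_mulVec_single fun j => ?_⟩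
  have e : ⇑(b.repr (b j)) = Pi.single j (1 : ZMod 3) := by
    rw [b.repr_self]; exact Finsupp.single_eq_pi_single j 1
  rw [← e, matRep_mulVec, hfix σ ((IntermediateField.mem_fixingSubgroup_iff _ _).mpr hσ),
    Matrix.one_mulVec]

theorem trace_det_matRep_frobenius (hΔ : W.Δ ≠ 0) {ℓ : ℕ} (hℓ : ℓ.Prime)
    (hgood : W.IsGoodPrimeFor ℓ) (hℓ3 : ℓ ≠ 3) {P : ValuationSubring Qbar}
    (hP : P.LiesOverPrime ℓ) {σ : GalQ} (hσ : P.IsFrobeniusAt σ ℓ) :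
    (matRep W 3 b σ).trace = (W.apOfModel ℓ : ZMod 3) ∧ (matRep W 3 b σ).det = (ℓ : ZMod 3) := by
  have : Fact (Nat.Prime 3) := ⟨Nat.prime_three⟩
  refine ⟨?_, det_eq_of_apply_eq_pow b hΔ fun ζ hζ => ?_⟩
  · rw [← FLTAgent.ECTorsion.galoisTrace_eq_apOfModel hℓ hgood hℓ3 hP hσ, galoisTrace_def,
      LinearMap.trace_eq_matrix_trace (ZMod 3) b]
    rfl
  · exact FLTAgent.Density.isFrobeniusAt_apply_of_pow_eq_one hℓ hP hσ
      (fun h => hℓ3 ((Nat.prime_dvd_prime_iff_eq hℓ Nat.prime_three).mp h)) hζ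

theorem detCyclo_matRep (hΔ : W.Δ ≠ 0) : DetCyclo (matRep W 3 b) := fun σ _ hζ =>
  haveI : Fact (Nat.Prime 3) := ⟨Nat.prime_three⟩
  apply_eq_pow_det b hΔ σ hζ

/-- Good reduction at `3` gives a finite flat `3`-torsion. -/
theorem hasFlatModel_matRep (hgood : W.IsGoodPrimeFor 3) (hΔ : W.Δ ≠ 0) :
    HasFlatModel 3 (vecAct (matRep W 3 b)) := by
  have : Fact (Nat.Prime 3) := ⟨Nat.prime_three⟩
  have := isElliptic_qbar hΔ
  have : Finite (Tors W 3) := FLTAgent.ECTorsion.finite_torsionBy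
    (W.map (Int.castRingHom ℚ)).toAffine (K := AlgebraicClosure ℚ)
    (Nat.cast_ne_zero.mpr three_ne_zero)
  refine (FLTAgent.TateLocal.hasFlatModel_torsion W (ℓ := 3) (by norm_num) hgood
    three_ne_zero).of_surjective b.equivFun.toLinearMap.toAddMonoidHom (fun σ z => ?_)
      b.equivFun.surjective
  exact (matRep_mulVec b σ z).symm

/-- Bad reduction at `3` gives inertia a stable line. -/
theorem exists_inertia_line_of_bad (hΔ : W.Δ ≠ 0) (hW : W.IsSemistableModel)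
    (hbad : ¬ W.IsGoodPrimeFor 3) {A : ValuationSubring Qbar} (hA : A.LiesOverPrime 3)
    (hb : ∀ σ, FLTAgent.DefRing.mapRep PadicInt.toZMod
      (FLTAgent.ConductorMatch.tateRep 3 W hΔ) σ = matRep W 3 b σ) :
    ¬ NoInertiaLine (matRep W 3 b) A := by
  have : Fact (Nat.Prime 3) := ⟨Nat.prime_three⟩
  have hdvd : ((3 : ℕ) : ℤ) ∣ W.Δ := not_not.1 hbad
  obtain ⟨ε, -, hstr⟩ := FLTAgent.TateLocal.exists_strictAt (p := 3) (by norm_num) hΔ hdvd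
    (hW 3 Nat.prime_three hdvd)
  obtain ⟨g, hg⟩ := hstr A hA
  intro hno
  let φ : ℤ_[3] →+* ZMod 3 := PadicInt.toZMod
  let G : Matrix (Fin 2) (Fin 2) (ZMod 3) := φ.mapMatrix (g : Matrix (Fin 2) (Fin 2) ℤ_[3])
  let G' : Matrix (Fin 2) (Fin 2) (ZMod 3) :=
    φ.mapMatrix ((g⁻¹ : GL (Fin 2) ℤ_[3]) : Matrix (Fin 2) (Fin 2) ℤ_[3])
  have hGG' : G' * G = 1 := by rw [← map_mul, Units.inv_mul, map_one]
  have hG'G : G * G' = 1 := by rw [← map_mul, Units.mul_inv, map_one]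
  set u : Vec := G'.mulVec (Pi.single 0 1) with hu
  have hu0 : u ≠ 0 := fun h => by
    have := congrArg G.mulVec h
    rw [hu, Matrix.mulVec_mulVec, hG'G, Matrix.one_mulVec, Matrix.mulVec_zero] at this
    simpa using congrFun this 0
  refine hno u hu0 fun σ hσ => ⟨(G * matRep W 3 b σ * G') 0 0, ?_⟩
  have hσD : σ ∈ A.decompositionSubgroup ℚ := (FLTAgent.Density.mem_inertiaSubgroupIn_iff.mp hσ).1
  have h10 : (G * matRep W 3 b σ * G') 1 0 = 0 := by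
    have := congrArg φ (hg σ hσD).1
    rw [_root_.map_zero] at this
    rw [← hb, FLTAgent.DefRing.mapRep_eq_map]
    simp only [G, G', RingHom.mapMatrix_apply]
    rw [← Matrix.map_mul, ← Matrix.map_mul]
    exact this
  have hcol : (G * matRep W 3 b σ * G').mulVec (Pi.single 0 1) =
      (G * matRep W 3 b σ * G') 0 0 • Pi.single 0 1 := by
    funext i
    fin_cases i <;> simp [h10]
  have h := congrArg G'.mulVec hcol
  rwa [Matrix.mulVec_mulVec, ← mul_assoc, ← mul_assoc, hGG', one_mul, ← Matrix.mulVec_mulVec,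
    Matrix.mulVec_smul] at h

end Curve

theorem noStableLine_twistDet {R : GalQ →* Matrix (Fin 2) (Fin 2) (ZMod 3)} (K : Type) [Field K]
    [Algebra (ZMod 3) K] (h : NoStableLine (extRep K R)) :
    NoStableLine (extRep K (twistDet R)) := by
  rintro v ⟨hv, hst⟩
  refine h v ⟨hv, fun σ hσ => ?_⟩
  obtain ⟨c, hc⟩ := hst σ hσ
  refine ⟨algebraMap (ZMod 3) K (R σ).det * c, ?_⟩
  have e : extRep K R σ = algebraMap (ZMod 3) K (R σ).det • extRep K (twistDet R) σ := by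
    show (R σ).map _ = _ • (twistDet R σ).map _
    conv_lhs => rw [smul_twistDet R σ]
    ext i j
    simp
  rw [e, Matrix.smul_mulVec, hc, smul_smul]

theorem twistDet_factors {R : GalQ →* Matrix (Fin 2) (Fin 2) (ZMod 3)}
    (h : GaloisFactorsThroughFiniteLevel R) : GaloisFactorsThroughFiniteLevel (twistDet R) := by
  obtain ⟨L, hL, hfix⟩ := h
  refine ⟨L, hL, fun σ hσ => ?_⟩
  show (R σ).det • R σ = 1
  rw [hfix σ hσ, Matrix.det_one, one_smul]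

/-- The residual character of an eigenform with congruences to rational integers. -/
theorem exists_residual_char {N : ℕ} [NeZero N] {g : CuspForm (Γ₀ N) 2}
    (hg : g.IsNormalizedEigenform) {𝔪 : Ideal (integralClosure ℤ ℂ)} (h𝔪 : 𝔪.IsMaximal)
    (h3 : ((3 : ℕ) : integralClosure ℤ ℂ) ∈ 𝔪) (S : Finset ℕ)
    (hS : ∀ q, q.Prime → q ∣ N → q ∈ S) (n : ℕ → ℤ)
    (hn : ∀ ℓ, ℓ.Prime → ℓ ∉ S → ∃ a : integralClosure ℤ ℂ,
      (a : ℂ) = ModularFormClass.qCoeff g ℓ ∧ a - (n ℓ : integralClosure ℤ ℂ) ∈ 𝔪) :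
    ∃ θ : CuspForm.heckeAlgebra N 2 (↑S : Set ℕ) →+* ZMod 3,
      ∀ (ℓ : ℕ) (hℓ : ℓ.Prime) (hℓN : ¬ ℓ ∣ N) (hℓS : ℓ ∉ (↑S : Set ℕ)),
        θ (CuspForm.heckeAlgebra.T hℓ hℓN hℓS) = (n ℓ : ZMod 3) := by
  have : Fact (Nat.Prime 3) := ⟨Nat.prime_three⟩
  have := h𝔪
  have : CharP (integralClosure ℤ ℂ ⧸ 𝔪) 3 := by
    refine (CharP.charP_iff_prime_eq_zero Nat.prime_three).mpr ?_
    rw [← map_natCast (Ideal.Quotient.mk 𝔪), Ideal.Quotient.eq_zero_iff_mem]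
    exact h3
  let ψ := (Ideal.Quotient.mk 𝔪).comp (GaloisAttach.eigenCharInt (↑S : Set ℕ) hg)
  let ι : ZMod 3 →+* integralClosure ℤ ℂ ⧸ 𝔪 := ZMod.castHom dvd_rfl _
  have hT : ∀ (ℓ : ℕ) (hℓ : ℓ.Prime) (hℓN : ¬ ℓ ∣ N) (hℓS : ℓ ∉ (↑S : Set ℕ)),
      ψ (CuspForm.heckeAlgebra.T hℓ hℓN hℓS) = ι (n ℓ) := fun ℓ hℓ hℓN hℓS => by
    obtain ⟨a, ha, hab⟩ := hn ℓ hℓ (fun h => hℓS (Finset.mem_coe.mpr h))
    rw [map_intCast, ← map_intCast (Ideal.Quotient.mk 𝔪)]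
    refine (Ideal.Quotient.eq).mpr ?_
    rwa [show GaloisAttach.eigenCharInt (↑S : Set ℕ) hg (CuspForm.heckeAlgebra.T hℓ hℓN hℓS) = a
      from Subtype.ext ((GaloisAttach.coe_eigenCharInt_T hg hℓ hℓN hℓS).trans ha.symm)]
  have hrange : ∀ t, ψ t ∈ ι.range := by
    rintro ⟨T, hT'⟩
    induction hT' using Algebra.adjoin_induction with
    | mem x hx =>
      rcases hx with ⟨ℓ, hℓ, hℓN, hℓS, rfl⟩ | ⟨q, hqN, hq, hqS, rfl⟩
      · exact ⟨_, (hT ℓ hℓ hℓN hℓS).symm⟩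
      · exact absurd (Finset.mem_coe.mpr (hS q hq hqN)) hqS
    | algebraMap r =>
      rw [show (⟨_, Subalgebra.algebraMap_mem _ r⟩ : CuspForm.heckeAlgebra N 2 (↑S : Set ℕ)) =
        algebraMap ℤ _ r from rfl, eq_intCast, map_intCast]
      exact intCast_mem _ r
    | add x y hx hy ihx ihy =>
      rw [show (⟨x + y, _⟩ : CuspForm.heckeAlgebra N 2 (↑S : Set ℕ)) = ⟨x, hx⟩ + ⟨y, hy⟩ from rfl,
        map_add]
      exact add_mem ihx ihy
    | mul x y hx hy ihx ihy =>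
      rw [show (⟨x * y, _⟩ : CuspForm.heckeAlgebra N 2 (↑S : Set ℕ)) = ⟨x, hx⟩ * ⟨y, hy⟩ from rfl,
        map_mul]
      exact mul_mem ihx ihy
  let e : ZMod 3 ≃+* ι.range := RingEquiv.ofBijective ι.rangeRestrict
    ⟨fun x y h => ι.injective (congrArg Subtype.val h), ι.rangeRestrict_surjective⟩
  refine ⟨e.symm.toRingHom.comp (ψ.codRestrict ι.range hrange), fun ℓ hℓ hℓN hℓS => ?_⟩
  exact e.injective ((e.apply_symm_apply _).trans (Subtype.ext (hT ℓ hℓ hℓN hℓS)))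

/-- The twist by the determinant cannot be modular of a level prime to `9`, unless inertia fixes a
vector. -/
theorem exists_inertia_fixed_of_twisted (hline : NewformDetLineInput) {W : WeierstrassCurve ℤ}
    (hΔ : W.Δ ≠ 0) (hW : W.IsSemistableModel) (hirr : W.ModRepIsIrreducible 3) {L : ℕ} [NeZero L]
    (h9 : ¬ 3 ^ 2 ∣ L) (h3L : 3 ∣ L) {f : CuspForm (Γ₀ L) 2} (hf : f.IsNormalizedEigenform)
    {𝔪 : Ideal (integralClosure ℤ ℂ)} (h𝔪 : 𝔪.IsMaximal)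
    (h3 : ((3 : ℕ) : integralClosure ℤ ℂ) ∈ 𝔪) (hgood : ∀ ℓ, ℓ.Prime → ¬ ℓ ∣ L → W.IsGoodPrimeFor ℓ)
    (hcong : ∀ ℓ, ℓ.Prime → ¬ ℓ ∣ L → ∃ a : integralClosure ℤ ℂ,
      (a : ℂ) = ModularFormClass.qCoeff f ℓ ∧
        a - (((ℓ : ℤ) * W.apOfModel ℓ : ℤ) : integralClosure ℤ ℂ) ∈ 𝔪)
    {A : ValuationSubring Qbar} (hA : A.LiesOverPrime 3) :
    ∃ x : Submodule.torsionBy ℤ
        ((W.map (Int.castRingHom ℚ))⁄(AlgebraicClosure ℚ)).Point (3 : ℕ),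
      x ≠ 0 ∧ ∀ σ ∈ A.inertiaSubgroupIn ℚ, σ • x = x := by
  have : Fact (Nat.Prime 3) := ⟨Nat.prime_three⟩
  obtain ⟨b, hb⟩ := ModularityLifting.exists_torsion_basis 3 W hΔ
  set R := matRep W 3 b with hR
  suffices h : ∃ v : Vec, v ≠ 0 ∧ ∀ σ ∈ A.inertiaSubgroupIn ℚ, Matrix.mulVec (R σ) v = v by
    obtain ⟨v, hv, hfix⟩ := h
    have hrepr : ⇑(b.repr (b.equivFun.symm v)) = v := b.equivFun.apply_symm_apply v
    refine ⟨b.equivFun.symm v, fun h0 => hv (by rw [← hrepr, h0]; simp), fun σ hσ =>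
      b.repr.injective (DFunLike.coe_injective ?_)⟩
    rw [← matRep_mulVec, hrepr]
    exact hfix σ hσ
  -- the twist
  have hfac := twistDet_factors (matRep_factors b hΔ)
  have habs := noStableLine_twistDet (AlgebraicClosure (ZMod 3))
    (noStableLine_extRep_matRep b hΔ (by norm_num) hirr (AlgebraicClosure (ZMod 3)))
  have hfrob : ∀ ℓ, ℓ.Prime → ¬ ℓ ∣ L → ∀ P : ValuationSubring Qbar, P.LiesOverPrime ℓ →
      ∀ σ, P.IsFrobeniusAt σ ℓ →
        (twistDet R σ).trace = (((ℓ : ℤ) * W.apOfModel ℓ : ℤ) : ZMod 3) ∧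
          (twistDet R σ).det = (ℓ : ZMod 3) := fun ℓ hℓ hℓL P hP σ hσ => by
    obtain ⟨h1, h2⟩ := trace_det_matRep_frobenius b hΔ hℓ (hgood ℓ hℓ hℓL)
      (fun h => hℓL (h ▸ h3L)) hP hσ
    refine ⟨?_, (det_twistDet R σ).trans h2⟩
    show ((R σ).det • R σ).trace = _
    rw [Matrix.trace_smul, h1, h2, smul_eq_mul]
    push_cast
    ring
  obtain ⟨L0, hL0, g, hL0L, hg, hgf⟩ := FLTAgent.Newforms.exists_newform_of_eigenform hf
  set S := L.primeFactors with hSdef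
  have hmem : ∀ {ℓ}, ℓ.Prime → ℓ ∉ S → ¬ ℓ ∣ L := fun hℓ hℓS h =>
    hℓS (Nat.mem_primeFactors.mpr ⟨hℓ, h, NeZero.ne L⟩)
  have hS0 : ∀ q, q.Prime → q ∣ L0 → q ∈ S := fun q hq hd =>
    Nat.mem_primeFactors.mpr ⟨hq, hd.trans hL0L, NeZero.ne L⟩
  have hcong0 : ∀ ℓ, ℓ.Prime → ℓ ∉ S → ∃ a : integralClosure ℤ ℂ,
      (a : ℂ) = ModularFormClass.qCoeff g ℓ ∧
        a - (((ℓ : ℤ) * W.apOfModel ℓ : ℤ) : integralClosure ℤ ℂ) ∈ 𝔪 := fun ℓ hℓ hℓS => by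
    obtain ⟨a, ha, hab⟩ := hcong ℓ hℓ (hmem hℓ hℓS)
    exact ⟨a, by rw [hgf ℓ hℓ (hmem hℓ hℓS), ha], hab⟩
  by_cases h30 : 3 ∣ L0
  · -- a line with inertia acting by the determinant
    obtain ⟨u, hu, hline'⟩ := hline L0 g hg h30 (fun h => h9 (h.trans hL0L)) 𝔪 h𝔪 h3 S hS0
      (Nat.mem_primeFactors.mpr ⟨Nat.prime_three, h3L, NeZero.ne L⟩) (twistDet R) hfac habs
      (fun ℓ hℓ hℓS => by
        obtain ⟨a, ha, hab⟩ := hcong0 ℓ hℓ hℓS
        exact ⟨a, _, ha, hab, hfrob ℓ hℓ (hmem hℓ hℓS)⟩) A hA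
    refine ⟨u, hu, fun σ hσ => ?_⟩
    rw [smul_twistDet R σ, Matrix.smul_mulVec, hline' σ hσ, det_twistDet, smul_smul,
      zmod_three_sq _ (det_ne_zero R σ), one_smul]
  · obtain ⟨θ, hθ⟩ := exists_residual_char hg.isNormalizedEigenform h𝔪 h3 S hS0
      (fun ℓ => (ℓ : ℤ) * W.apOfModel ℓ) hcong0
    have hflat' : HasFlatModel 3 (vecAct (twistDet R)) :=
      hasFlatModel_vecAct_of_char h30 θ _ hfac (fun ℓ hℓ hℓN hℓS _ P hP σ hσ => by
        rw [hθ ℓ hℓ hℓN hℓS]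
        exact hfrob ℓ hℓ (hmem hℓ fun h => hℓS (Finset.mem_coe.mpr h)) P hP σ hσ) habs
    refine exists_inertia_fixed_of_flat_twist hA (detCyclo_matRep b hΔ) hflat' fun hno => ?_
    by_cases hg3 : W.IsGoodPrimeFor 3
    · exact hasFlatModel_matRep b hg3 hΔ
    · exact absurd hno (exists_inertia_line_of_bad b hΔ hW hg3 hA hb)

theorem cubeFree_lcm {a c : ℕ} (ha : a ≠ 0) (hc : c ≠ 0) {q : ℕ} (hq : q.Prime)
    (h : q ^ 3 ∣ Nat.lcm a c) : q ^ 3 ∣ a ∨ q ^ 3 ∣ c := by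
  rw [hq.pow_dvd_iff_le_factorization (Nat.lcm_ne_zero ha hc), Nat.factorization_lcm ha hc,
    Finsupp.sup_apply, le_sup_iff] at h
  rwa [hq.pow_dvd_iff_le_factorization ha, hq.pow_dvd_iff_le_factorization hc]

/-- Residual modularity at `3` with `9 ∤ M`, from the statement of S50. -/
theorem threeInput_of (hline : NewformDetLineInput)
    (h50 : ∀ W : WeierstrassCurve ℤ, W.Δ ≠ 0 → W.IsSemistableModel → W.ModRepIsIrreducible 3 →
      ∃ M : ℕ, 0 < M ∧ W.IsResiduallyModularOfLevel 3 M ∧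
      (∀ q : ℕ, q.Prime → q ≠ 3 → ¬ q ^ 3 ∣ M) ∧
      (3 ^ 2 ∣ M →
        ∀ A : ValuationSubring (AlgebraicClosure ℚ), A.LiesOverPrime 3 →
          ∀ x : Submodule.torsionBy ℤ
              ((W.map (Int.castRingHom ℚ))⁄(AlgebraicClosure ℚ)).Point (3 : ℕ),
            (∀ σ ∈ A.inertiaSubgroupIn ℚ, σ • x = x) → x = 0))
    (W : WeierstrassCurve ℤ) (hΔ : W.Δ ≠ 0) (hW : W.IsSemistableModel)
    (hirr : W.ModRepIsIrreducible 3) : ResidualThreeNineFree W := by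
  classical
  have : Fact (Nat.Prime 3) := ⟨Nat.prime_three⟩
  obtain ⟨M, hM, hres, hcube, hfix⟩ := h50 W hΔ hW hirr
  by_cases hM9 : 3 ^ 2 ∣ M
  swap
  · exact ⟨M, hM, hres, hM9, hcube⟩
  obtain ⟨k, M', hM'3, hMk⟩ := Nat.exists_eq_pow_mul_and_not_dvd hM.ne' 3 (by norm_num)
  have hM'0 : M' ≠ 0 := fun h => hM.ne' (by rw [hMk, h, mul_zero])
  set B := ∏ q ∈ W.Δ.natAbs.primeFactors.erase 3, q with hB
  have hB0 : B ≠ 0 := Finset.prod_ne_zero_iff.mpr fun q hq =>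
    (Nat.prime_of_mem_primeFactors (Finset.mem_of_mem_erase hq)).ne_zero
  set T := W.Δ.natAbs.primeFactors.erase 3
  have hTprime : ∀ q ∈ T, q.Prime := fun q hq =>
    Nat.prime_of_mem_primeFactors (Finset.mem_of_mem_erase hq)
  have hmemT : ∀ {q} {U : Finset ℕ}, U ⊆ T → q.Prime → q ∣ ∏ r ∈ U, r → q ∈ U :=
    fun {q U} hU hq h => by
      obtain ⟨r, hr, hd⟩ := (hq.prime.dvd_finsetProd_iff _).mp h
      exact (Nat.prime_dvd_prime_iff_eq hq (hTprime r (hU hr))).mp hd ▸ hr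
  have hBsq : ∀ q, q.Prime → ¬ q ^ 2 ∣ B := fun q hq h => by
    have hqT := hmemT (Finset.Subset.refl T) hq ((dvd_pow_self q two_ne_zero).trans h)
    rw [hB, ← Finset.mul_prod_erase T (fun r => r) hqT, pow_two] at h
    exact Finset.notMem_erase q T
      (hmemT (Finset.erase_subset q T) hq (Nat.dvd_of_mul_dvd_mul_left hq.pos h))
  set M'' := Nat.lcm M' (Nat.lcm 2 B) with hM''
  have h20 : Nat.lcm 2 B ≠ 0 := Nat.lcm_ne_zero two_ne_zero hB0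
  have hM''0 : M'' ≠ 0 := Nat.lcm_ne_zero hM'0 h20
  have hM''3 : ¬ 3 ∣ M'' := fun h => by
    rcases (Nat.prime_three.dvd_mul).mp (h.trans (Nat.lcm_dvd_mul _ _)) with h' | h'
    · exact hM'3 h'
    rcases (Nat.prime_three.dvd_mul).mp (h'.trans (Nat.lcm_dvd_mul _ _)) with h'' | h''
    · norm_num at h''
    · obtain ⟨q, hq, hd⟩ := (Nat.prime_three.prime.dvd_finsetProd_iff _).mp h''
      exact (Finset.mem_erase.mp hq).1 (((Nat.prime_dvd_prime_iff_eq Nat.prime_three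
        (Nat.prime_of_mem_primeFactors (Finset.mem_of_mem_erase hq))).mp hd).symm)
  set L := 3 * M'' with hL
  have : NeZero L := ⟨mul_ne_zero three_ne_zero hM''0⟩
  have : NeZero M := ⟨hM.ne'⟩
  have h2L : 2 ∣ L := dvd_mul_of_dvd_right ((Nat.dvd_lcm_left 2 B).trans (Nat.dvd_lcm_right _ _)) 3
  have h3L : 3 ∣ L := dvd_mul_right 3 _
  have hL9 : ¬ 3 ^ 2 ∣ L := fun h => hM''3 (by
    rw [hL, pow_two] at h
    exact Nat.dvd_of_mul_dvd_mul_left three_pos h)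
  have hLcube : ∀ q : ℕ, q.Prime → q ≠ 3 → ¬ q ^ 3 ∣ L := fun q hq hq3 h => by
    have h' : q ^ 3 ∣ M'' := ((Nat.coprime_primes hq Nat.prime_three).mpr hq3).pow_left 3
      |>.dvd_of_dvd_mul_left h
    rcases cubeFree_lcm hM'0 h20 hq h' with h1 | h1
    · exact hcube q hq hq3 (h1.trans (hMk ▸ dvd_mul_left M' _))
    rcases cubeFree_lcm two_ne_zero hB0 hq h1 with h2 | h2
    · exact absurd (Nat.le_of_dvd two_pos h2) (by
        have := Nat.pow_le_pow_left hq.two_le 3; omega)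
    · exact hBsq q hq ((pow_dvd_pow q (by norm_num : 2 ≤ 3)).trans h2)
  have hgood : ∀ ℓ, ℓ.Prime → ¬ ℓ ∣ L → W.IsGoodPrimeFor ℓ := fun ℓ hℓ hℓL hd => hℓL
    (dvd_mul_of_dvd_right (((Finset.dvd_prod_of_mem (fun r => r)
      (Finset.mem_erase.mpr ⟨fun h => hℓL (h ▸ h3L), Nat.mem_primeFactors.mpr
        ⟨hℓ, Int.natCast_dvd.mp hd, Int.natAbs_ne_zero.mpr hΔ⟩⟩) : ℓ ∣ B).trans
          (Nat.dvd_lcm_right 2 B)).trans (Nat.dvd_lcm_right _ _)) 3)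
  have hℓM : ∀ ℓ, ℓ.Prime → ¬ ℓ ∣ L → ¬ ℓ ∣ M := fun ℓ hℓ hℓL h => by
    rw [hMk] at h
    rcases (hℓ.dvd_mul).mp h with h | h
    · exact hℓL ((hℓ.dvd_of_dvd_pow h).trans h3L)
    · exact hℓL (dvd_mul_of_dvd_right (h.trans (Nat.dvd_lcm_left _ _)) 3)
  -- residual symbol
  obtain ⟨f, 𝔪, hf, h𝔪, h3, hcong⟩ := hres
  have : CharP (IsLocalRing.ResidueField ℤ_[3]) 3 := charP_of_injective_ringHom
    (f := (PadicInt.residueField (p := 3)).symm.toRingHom) (RingEquiv.injective _) 3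
  obtain ⟨Φ, hΦ, hΦ0, hΦe⟩ := exists_residual_symb (IsLocalRing.ResidueField ℤ_[3]) hf h𝔪 h3
    W.apOfModel (fun ℓ => W.IsGoodPrimeFor ℓ ∧ ℓ ≠ 3)
    fun ℓ hℓ hℓM' hP => hcong ℓ hℓ hP.1 hℓM' hP.2
  obtain ⟨k', rfl⟩ : ∃ k', k = k' + 1 := Nat.exists_eq_succ_of_ne_zero fun h => hM'3 (by
    rw [hMk, h, pow_zero, one_mul] at hM9
    exact (dvd_pow_self 3 two_ne_zero).trans hM9)
  obtain ⟨j, Ψ, hΨ, hΨ0, hΨe⟩ := exists_eigen_lower_pow (M' := M'') k'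
    (fun ℓ => (W.apOfModel ℓ : IsLocalRing.ResidueField ℤ_[3]))
    (lev_mono (by
      rw [hMk, pow_succ, mul_assoc]
      exact Nat.mul_dvd_mul_left _ (Nat.mul_dvd_mul_left 3 (Nat.dvd_lcm_left _ _))) hΦ) hΦ0
    fun ℓ hℓ hℓL => hΦe ℓ hℓ (hℓM ℓ hℓ hℓL)
      ⟨hgood ℓ hℓ hℓL, fun h => hℓL (by rw [h]; exact dvd_mul_right 3 M'')⟩
  have hmem : ∀ {ℓ}, ℓ.Prime → ℓ ∉ L.primeFactors → ¬ ℓ ∣ L := fun hℓ hℓS h =>
    hℓS (Nat.mem_primeFactors.mpr ⟨hℓ, h, NeZero.ne L⟩)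
  obtain ⟨ℓ₀, hℓ₀, hℓ₀S, -, hℓ₀3, hℓ₀1, hℓ₀a⟩ := exists_prime_not_eisenstein (p := 3)
    (by norm_num) hΔ hirr (NeZero.pos L) L.primeFactors
  obtain ⟨f', 𝔪', hf', h𝔪', h3', hcong'⟩ := exists_eigenform_of_residual_symb h2L L.primeFactors
    (fun q hq hd => Nat.mem_primeFactors.mpr ⟨hq, (hq.dvd_mul.mp hd).elim id fun h =>
      ((Nat.prime_dvd_prime_iff_eq hq Nat.prime_three).mp h) ▸ h3L, NeZero.ne L⟩)
    (fun ℓ => (ℓ : ℤ) ^ j * W.apOfModel ℓ) hΨ hΨ0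
    (fun ℓ hℓ hℓS => by rw [hΨe ℓ hℓ (hmem hℓ hℓS)]; push_cast; rfl)
    ⟨ℓ₀, hℓ₀, hℓ₀S, hℓ₀1, fun h => hℓ₀a ((CharP.intCast_eq_zero_iff
      (IsLocalRing.ResidueField ℤ_[3]) 3 _).mp (by
        have h1 : ((ℓ₀ : ℕ) : IsLocalRing.ResidueField ℤ_[3]) = 1 := by
          rw [← Nat.cast_one]
          exact (CharP.natCast_eq_natCast _ 3).mpr (hℓ₀1.of_dvd h3L)
        push_cast at h ⊢
        rw [h1, one_pow, one_mul] at h
        rw [h]
        ring))⟩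
  rcases Nat.even_or_odd j with hj | hj
  · refine ⟨L, NeZero.pos L, ⟨f', 𝔪', hf', h𝔪', h3', fun ℓ hℓ _ hℓL hℓ3 => ?_⟩, hL9, hLcube⟩
    obtain ⟨a, ha, hab⟩ := hcong' ℓ hℓ fun h => hℓL (Nat.mem_primeFactors.mp h).2.1
    refine ⟨a, ha, ?_⟩
    have hd : (3 : ℤ) ∣ (ℓ : ℤ) ^ j * W.apOfModel ℓ - W.apOfModel ℓ := by
      rw [← sub_one_mul, show (3 : ℤ) = ((3 : ℕ) : ℤ) from rfl]
      refine dvd_mul_of_dvd_left ((ZMod.intCast_zmod_eq_zero_iff_dvd _ 3).mp ?_) _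
      obtain ⟨i, rfl⟩ := hj
      push_cast
      rw [pow_add, ← mul_pow, zmod_three_sq _ (fun h => hℓ3 ((Nat.prime_dvd_prime_iff_eq
        Nat.prime_three
        hℓ).mp ((ZMod.natCast_eq_zero_iff _ 3).mp h)).symm), one_pow, sub_self]
    obtain ⟨c, hc⟩ := hd
    have e : a - ((W.apOfModel ℓ : ℤ) : integralClosure ℤ ℂ) =
        (a - (((ℓ : ℤ) ^ j * W.apOfModel ℓ : ℤ) : integralClosure ℤ ℂ)) +
          ((3 : ℕ) : integralClosure ℤ ℂ) * (c : integralClosure ℤ ℂ) := by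
      have := congrArg (fun z : ℤ => (z : integralClosure ℤ ℂ)) hc
      push_cast at this ⊢
      linear_combination this
    rw [e]
    exact add_mem hab (Ideal.mul_mem_right _ _ h3')
  · exfalso
    obtain ⟨A, hA⟩ := FLTAgent.Density.exists_liesOverPrime Nat.prime_three
    obtain ⟨x, hx, hxfix⟩ := exists_inertia_fixed_of_twisted hline hΔ hW hirr hL9 h3L hf' h𝔪' h3'
      hgood (fun ℓ hℓ hℓL => by
        obtain ⟨a, ha, hab⟩ := hcong' ℓ hℓ fun h => hℓL (Nat.mem_primeFactors.mp h).2.1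
        refine ⟨a, ha, ?_⟩
        obtain ⟨c, hc⟩ : (3 : ℤ) ∣ (ℓ : ℤ) ^ j * W.apOfModel ℓ - ℓ * W.apOfModel ℓ := by
          rw [← sub_mul, show (3 : ℤ) = ((3 : ℕ) : ℤ) from rfl]
          refine dvd_mul_of_dvd_left ((ZMod.intCast_zmod_eq_zero_iff_dvd _ 3).mp ?_) _
          obtain ⟨i, rfl⟩ := hj
          push_cast
          rw [pow_succ, pow_mul, sq, zmod_three_sq _ (fun h => hℓL (((Nat.prime_dvd_prime_iff_eq
            Nat.prime_three hℓ).mp ((ZMod.natCast_eq_zero_iff _ 3).mp h)) ▸ h3L)),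
            one_pow, one_mul, sub_self]
        have e : a - (((ℓ : ℤ) * W.apOfModel ℓ : ℤ) : integralClosure ℤ ℂ) =
            (a - (((ℓ : ℤ) ^ j * W.apOfModel ℓ : ℤ) : integralClosure ℤ ℂ)) +
              ((3 : ℕ) : integralClosure ℤ ℂ) * (c : integralClosure ℤ ℂ) := by
          have := congrArg (fun z : ℤ => (z : integralClosure ℤ ℂ)) hc
          push_cast at this ⊢
          linear_combination this
        rw [e]
        exact add_mem hab (Ideal.mul_mem_right _ _ h3')) hA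
    exact hx (hfix hM9 A hA x hxfix)

end FLTAgent.LocalThree
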