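import Fermat.Agent.ExtVanishing.Places
import Fermat.Agent.FreyUnramified.Inertia
import Fermat.Agent.MordellWeil.Inertia
import Mathlib.NumberTheory.RamificationInertia.Galois

/-!
# Values and tame characters at a place of `ℚ̄`, on a finite Galois number field

For `L` finite Galois and `A` over `p`: the values of `L` are the powers of one value `w`, with
`w ^ e = v p` where `e` is the order of the image of inertia in `Gal(L/ℚ)`. The residue of `σ y / y`
is multiplicative in `y` and in `σ`.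
-/

set_option autoImplicit false

noncomputable section

open scoped Pointwise NumberField

namespace FLTAgent.LocalThree

open FLTAgent.Density FLTAgent.ExtVanishing

variable (A : ValuationSubring Qbar)

open scoped Classical in
/-- The residue of an element of the valuation ring, `0` elsewhere. -/
def ares (x : Qbar) : IsLocalRing.ResidueField A :=
  if h : x ∈ A then IsLocalRing.residue A ⟨x, h⟩ else 0

variable {A}

theorem ares_of_mem {x : Qbar} (h : x ∈ A) : ares A x = IsLocalRing.residue A ⟨x, h⟩ := dif_pos h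

theorem ares_one : ares A 1 = 1 := (ares_of_mem A.one_mem).trans (map_one (IsLocalRing.residue A))

theorem ares_zero : ares A 0 = 0 :=
  (ares_of_mem A.zero_mem).trans (map_zero (IsLocalRing.residue A))

theorem ares_add {x y : Qbar} (hx : x ∈ A) (hy : y ∈ A) : ares A (x + y) = ares A x + ares A y := by
  rw [ares_of_mem hx, ares_of_mem hy, ares_of_mem (A.add_mem _ _ hx hy), ← map_add]
  rfl

theorem ares_mul {x y : Qbar} (hx : x ∈ A) (hy : y ∈ A) : ares A (x * y) = ares A x * ares A y := by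
  rw [ares_of_mem hx, ares_of_mem hy, ares_of_mem (A.mul_mem _ _ hx hy), ← map_mul]
  rfl

theorem ares_natCast (n : ℕ) : ares A (n : Qbar) = n := by
  rw [ares_of_mem (natCast_mem A n), show (⟨(n : Qbar), natCast_mem A n⟩ : A) = (n : A) from
    Subtype.ext (by simp), map_natCast]

theorem ares_eq_zero_iff {x : Qbar} (hx : x ∈ A) : ares A x = 0 ↔ A.valuation x < 1 := by
  rw [ares_of_mem hx, IsLocalRing.residue_eq_zero_iff, ← ValuationSubring.coe_mem_nonunits_iff,
    ValuationSubring.mem_nonunits_iff]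

theorem ares_eq_of_sub {x y : Qbar} (_hx : x ∈ A) (hy : y ∈ A) (h : A.valuation (x - y) < 1) :
    ares A x = ares A y := by
  have hd : x - y ∈ A := (A.valuation_le_one_iff _).mp h.le
  rw [show x = x - y + y by ring, ares_add hd hy, (ares_eq_zero_iff hd).mpr h, zero_add]

theorem ares_ne_zero {x : Qbar} (hx : A.valuation x = 1) : ares A x ≠ 0 := fun h =>
  ((ares_eq_zero_iff ((A.valuation_le_one_iff _).mp hx.le)).mp h).ne hx

theorem mem_of_val_eq_one {x : Qbar} (hx : A.valuation x = 1) : x ∈ A :=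
  (A.valuation_le_one_iff _).mp hx.le

variable {p : ℕ}

theorem residueChar_of_liesOverPrime (hp : p.Prime) (hA : A.LiesOverPrime p) :
    FLTAgent.FreyUnramified.ResidueChar A.valuation p :=
  ⟨hp, fun n => (A.valuation_le_one_iff _).mpr (intCast_mem A n),
    (ValuationSubring.mem_nonunits_iff A).mp hA⟩

theorem val_apply_eq_one_iff {σ : GalQ} (hσ : σ ∈ A.decompositionSubgroup ℚ) (x : Qbar) :
    A.valuation (σ x) = 1 ↔ A.valuation x = 1 := by
  have h1 : A.valuation (σ x) ≤ 1 ↔ A.valuation x ≤ 1 := by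
    rw [A.valuation_le_one_iff, A.valuation_le_one_iff, apply_mem_iff hσ]
  have h2 : A.valuation (σ x) < 1 ↔ A.valuation x < 1 := by
    rw [← A.mem_nonunits_iff, ← A.mem_nonunits_iff, apply_mem_nonunits_iff hσ]
  simp only [le_antisymm_iff, ← not_lt (b := (1 : A.ValueGroup)) (a := A.valuation (σ x)), h1, h2,
    not_lt]

/-- Decomposition elements preserve the valuation. -/
theorem val_apply (hp : p.Prime) (hA : A.LiesOverPrime p) {σ : GalQ}
    (hσ : σ ∈ A.decompositionSubgroup ℚ) (x : Qbar) : A.valuation (σ x) = A.valuation x := by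
  rcases eq_or_ne x 0 with rfl | hx
  · simp
  have hv := residueChar_of_liesOverPrime hp hA
  obtain ⟨e, he, n, hn⟩ := hv.exists_pow_eq_zpow hx
  have hp0 : A.valuation ((p : Qbar) ^ n) ≠ 0 :=
    A.valuation.ne_zero_iff.mpr (zpow_ne_zero _ (Nat.cast_ne_zero.mpr hp.ne_zero))
  have h1 : A.valuation (x ^ e / (p : Qbar) ^ n) = 1 := by
    rw [map_div₀, map_pow, hn, ← map_zpow₀, div_self hp0]
  have h2 := (val_apply_eq_one_iff hσ _).mpr h1
  rw [map_div₀, map_pow, map_zpow₀, map_natCast, map_div₀, map_pow, div_eq_one_iff_eq hp0,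
    map_zpow₀, ← hn] at h2
  exact (pow_left_inj₀ zero_le zero_le he.ne').mp h2

theorem val_ratio (hp : p.Prime) (hA : A.LiesOverPrime p) {σ : GalQ}
    (hσ : σ ∈ A.decompositionSubgroup ℚ) {y : Qbar} (hy : y ≠ 0) :
    A.valuation (σ y / y) = 1 := by
  rw [map_div₀, val_apply hp hA hσ, div_self (A.valuation.ne_zero_iff.mpr hy)]

theorem ares_apply {σ : GalQ} (hσ : σ ∈ A.inertiaSubgroupIn ℚ) {x : Qbar} (hx : x ∈ A) :
    ares A (σ x) = ares A x :=
  ares_eq_of_sub ((apply_mem_iff (mem_inertiaSubgroupIn_iff.mp hσ).1 x).mpr hx) hx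
    ((ValuationSubring.mem_nonunits_iff A).mp ((mem_inertiaSubgroupIn_iff.mp hσ).2 x hx))

/-- The residue of `σ y / y`. -/
def ratio (A : ValuationSubring Qbar) (σ : GalQ) (y : Qbar) : IsLocalRing.ResidueField A :=
  ares A (σ y / y)

theorem ratio_mul (hp : p.Prime) (hA : A.LiesOverPrime p) {σ : GalQ}
    (hσ : σ ∈ A.decompositionSubgroup ℚ) {x y : Qbar} (hx : x ≠ 0) (hy : y ≠ 0) :
    ratio A σ (x * y) = ratio A σ x * ratio A σ y := by
  rw [ratio, ratio, ratio, ← ares_mul (mem_of_val_eq_one (val_ratio hp hA hσ hx))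
    (mem_of_val_eq_one (val_ratio hp hA hσ hy)), map_mul, mul_div_mul_comm]

theorem ratio_ne_zero (hp : p.Prime) (hA : A.LiesOverPrime p) {σ : GalQ}
    (hσ : σ ∈ A.decompositionSubgroup ℚ) {x : Qbar} (hx : x ≠ 0) : ratio A σ x ≠ 0 :=
  ares_ne_zero (val_ratio hp hA hσ hx)

theorem ratio_one (σ : GalQ) : ratio A σ 1 = 1 := by
  rw [ratio, map_one, div_one, ares_one]

theorem ratio_pow (hp : p.Prime) (hA : A.LiesOverPrime p) {σ : GalQ}
    (hσ : σ ∈ A.decompositionSubgroup ℚ) {x : Qbar} (hx : x ≠ 0) (n : ℕ) :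
    ratio A σ (x ^ n) = ratio A σ x ^ n := by
  induction n with
  | zero => rw [pow_zero, pow_zero, ratio_one]
  | succ n ih => rw [pow_succ, ratio_mul hp hA hσ (pow_ne_zero _ hx) hx, ih, pow_succ]

theorem ratio_of_val_one {σ : GalQ} (hσ : σ ∈ A.inertiaSubgroupIn ℚ)
    {u : Qbar} (hu : A.valuation u = 1) : ratio A σ u = 1 := by
  have hmem := mem_of_val_eq_one hu
  have hinv : A.valuation u⁻¹ = 1 := by rw [map_inv₀, hu, inv_one]
  have hu0 : u ≠ 0 := fun h => by simp [h] at hu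
  rw [ratio, div_eq_mul_inv, ares_mul ((apply_mem_iff (mem_inertiaSubgroupIn_iff.mp hσ).1 u).mpr
    hmem) (mem_of_val_eq_one hinv), ares_apply hσ hmem, ← ares_mul hmem (mem_of_val_eq_one hinv),
    mul_inv_cancel₀ hu0, ares_one]

theorem ratio_comp (hp : p.Prime) (hA : A.LiesOverPrime p) {σ τ : GalQ}
    (hσ : σ ∈ A.inertiaSubgroupIn ℚ) (hτ : τ ∈ A.inertiaSubgroupIn ℚ) {x : Qbar} (hx : x ≠ 0) :
    ratio A (σ * τ) x = ratio A σ x * ratio A τ x := by
  have hσd := (mem_inertiaSubgroupIn_iff.mp hσ).1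
  have hτd := (mem_inertiaSubgroupIn_iff.mp hτ).1
  have h1 : (σ * τ) x / x = σ x / x * σ (τ x / x) := by
    rw [AlgEquiv.mul_apply, map_div₀, div_mul_div_comm, mul_comm x (σ x),
      mul_div_mul_left _ _ ((map_ne_zero σ).mpr hx)]
  have h2 := mem_of_val_eq_one (val_ratio hp hA hτd hx)
  rw [ratio, h1, ares_mul (mem_of_val_eq_one (val_ratio hp hA hσd hx))
    ((apply_mem_iff hσd _).mpr h2), ares_apply hσ h2]
  rfl

section Field

variable (L : IntermediateField ℚ Qbar) [FiniteDimensional ℚ L] [IsGalois ℚ L]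

/-- The image of inertia at `A` in the Galois group of `L`. -/
def inertiaImage (A : ValuationSubring Qbar) : Subgroup (L ≃ₐ[ℚ] L) :=
  (A.inertiaSubgroupIn ℚ).map (AlgEquiv.restrictNormalHom L)

omit [FiniteDimensional ℚ ↥L] in
theorem inertiaImage_eq (hp : p.Prime) (hA : A.LiesOverPrime p) :
    inertiaImage L A = ((primeBelow A).comap (intEmb L)).inertia (L ≃ₐ[ℚ] L) := by
  have hcoe : ∀ (σ : GalQ) (y : L),
      ((AlgEquiv.restrictNormalHom L σ y : L) : Qbar) = σ (y : Qbar) := fun σ y =>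
    AlgEquiv.restrictNormal_commutes σ L y
  ext τ
  constructor
  · rintro ⟨σ, hσ, rfl⟩ y
    show AlgEquiv.restrictNormalHom L σ • y - y ∈ _
    rw [Submodule.mem_toAddSubgroup, Ideal.mem_comap, map_sub, mem_primeBelow]
    push_cast
    show ((AlgEquiv.restrictNormalHom L σ (y : L) : L) : Qbar) - ((y : L) : Qbar) ∈ A.nonunits
    rw [hcoe]
    exact (mem_inertiaSubgroupIn_iff.mp hσ).2 _ (mem_of_isIntegral A (intEmb L y).2)
  · intro hτ
    obtain ⟨σ, hσ, hσL⟩ := exists_inertia_lift hp hA rfl hτ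
    exact ⟨σ, hσ, AlgEquiv.ext fun y => Subtype.ext ((hcoe σ y).trans (hσL y))⟩

omit [FiniteDimensional ℚ ↥L] [IsGalois ℚ ↥L] in
/-- A nonzero integer of `L` has nonzero value. -/
private theorem val_intEmb_ne_zero {y : 𝓞 L} (hy : y ≠ 0) :
    A.valuation ((intEmb L y : Zbar) : Qbar) ≠ 0 :=
  A.valuation.ne_zero_iff.mpr fun h =>
    hy (intEmb_injective L ((Subtype.ext h).trans (map_zero _).symm))

omit [IsGalois ℚ ↥L] in
/-- An element exactly in the `m`-th power of the place has the `m`-th power of one value. -/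
private theorem exists_val_eq_pow {P : Ideal (𝓞 L)} [P.IsPrime] (hP0 : P ≠ ⊥)
    (hP : ∀ y : 𝓞 L, y ∈ P ↔ A.valuation ((intEmb L y : Zbar) : Qbar) < 1) :
    ∃ π : 𝓞 L, π ∈ P ∧ π ≠ 0 ∧ ∀ m : ℕ, ∀ y ∈ P ^ m, y ∉ P ^ (m + 1) →
      A.valuation ((intEmb L y : Zbar) : Qbar)
        = A.valuation ((intEmb L π : Zbar) : Qbar) ^ m := by
  have : NumberField L := { }
  have hunit : ∀ y : 𝓞 L, y ∉ P → A.valuation ((intEmb L y : Zbar) : Qbar) = 1 := fun y hy =>
    le_antisymm ((A.valuation_le_one_iff _).mpr (mem_of_isIntegral A (intEmb L y).2))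
      (not_lt.mp (fun h => hy ((hP y).mpr h)))
  obtain ⟨π, hπ, hπ2⟩ : ∃ π ∈ P, π ∉ P ^ 2 := by
    have : P ^ 2 < P ^ 1 :=
      Ideal.pow_right_strictAnti P hP0 (Ideal.IsPrime.ne_top inferInstance) one_lt_two
    exact SetLike.exists_of_lt (by simpa using this)
  obtain ⟨J, hJ⟩ : P ∣ Ideal.span {π} :=
    Ideal.dvd_iff_le.mpr (by rwa [Ideal.span_singleton_le_iff_mem])
  obtain ⟨s, hsJ, hsP⟩ : ∃ s ∈ J, s ∉ P := by
    by_contra hcon
    push Not at hcon
    refine hπ2 ?_
    rw [← Ideal.span_singleton_le_iff_mem, hJ, pow_two]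
    exact Ideal.mul_mono le_rfl hcon
  refine ⟨π, hπ, fun h => hπ2 (h ▸ zero_mem _), fun m y hy hy' => ?_⟩
  have h1 : s ^ m * y ∈ Ideal.span {π ^ m} := by
    rw [← Ideal.span_singleton_pow, hJ, mul_pow, mul_comm (s ^ m) y]
    exact Ideal.mul_mem_mul hy (Ideal.pow_mem_pow hsJ m)
  obtain ⟨u, hu⟩ := Ideal.mem_span_singleton'.mp h1
  have huP : u ∉ P := fun hu' => by
    have h2 : s ^ m * y ∈ P ^ (m + 1) := by
      rw [← hu, pow_succ']
      exact Ideal.mul_mem_mul hu' (Ideal.pow_mem_pow hπ m)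
    rcases Ideal.IsPrime.mul_mem_pow P h2 with h3 | h3
    · exact hsP (Ideal.IsPrime.mem_of_pow_mem inferInstance m h3)
    · exact hy' h3
  have h2 := congrArg (fun z : 𝓞 L => A.valuation ((intEmb L z : Zbar) : Qbar)) hu
  simp only [map_mul, map_pow, MulMemClass.coe_mul, SubmonoidClass.coe_pow, hunit u huP,
    hunit s hsP, one_pow, one_mul] at h2
  exact h2.symm

omit [IsGalois ℚ ↥L] in
/-- Every nonzero integer lies exactly in one power of a prime. -/
private theorem exists_mem_pow_notMem_pow_succ {P : Ideal (𝓞 L)} [P.IsPrime] {y : 𝓞 L}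
    (hy : y ≠ 0) : ∃ m : ℕ, y ∈ P ^ m ∧ y ∉ P ^ (m + 1) := by
  classical
  have : NumberField L := { }
  have hex : ∃ m, y ∉ P ^ m := by
    by_contra hcon
    push Not at hcon
    have h := Submodule.mem_iInf _ |>.2 hcon
    rw [Ideal.iInf_pow_eq_bot_of_isDomain P (Ideal.IsPrime.ne_top inferInstance)] at h
    exact hy h
  have h0 : Nat.find hex ≠ 0 := fun h => Nat.find_spec hex (by rw [h, pow_zero]; simp)
  obtain ⟨m, hm⟩ := Nat.exists_eq_succ_of_ne_zero h0
  refine ⟨m, not_not.mp (Nat.find_min hex (by omega)), ?_⟩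
  have h3 := Nat.find_spec hex
  rwa [hm] at h3

omit [IsGalois ℚ ↥L] in
/-- A nonzero element of `L` is a quotient of integers, with exact orders at `P` and the value. -/
private theorem exists_div_val_eq_zpow {P : Ideal (𝓞 L)} [P.IsPrime] {w : A.ValueGroup}
    (hw0 : w ≠ 0) (hval : ∀ m : ℕ, ∀ y ∈ P ^ m, y ∉ P ^ (m + 1) →
      A.valuation ((intEmb L y : Zbar) : Qbar) = w ^ m)
    {y : L} (hy : y ≠ 0) :
    ∃ (a b : 𝓞 L) (m n : ℕ), b ≠ 0 ∧ (a : L) = y * (b : L) ∧
      (a ∈ P ^ m ∧ a ∉ P ^ (m + 1)) ∧ (b ∈ P ^ n ∧ b ∉ P ^ (n + 1)) ∧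
      A.valuation (y : Qbar) = w ^ ((m : ℤ) - n) := by
  have : NumberField L := { }
  obtain ⟨a, b, hb, hab⟩ := IsFractionRing.div_surjective (A := 𝓞 L) y
  have hb0 : b ≠ 0 := nonZeroDivisors.ne_zero hb
  have hbL : (b : L) ≠ 0 := by simpa using hb0
  have hab' : (a : L) = y * (b : L) := by
    rw [← hab, div_mul_cancel₀ _ hbL]
  have ha0 : a ≠ 0 := fun h => mul_ne_zero hy hbL (by rw [← hab', h]; rfl)
  obtain ⟨m, hm⟩ := exists_mem_pow_notMem_pow_succ L (P := P) ha0
  obtain ⟨n, hn⟩ := exists_mem_pow_notMem_pow_succ L (P := P) hb0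
  refine ⟨a, b, m, n, hb0, hab', hm, hn, ?_⟩
  have h := congrArg (fun z : L => A.valuation (z : Qbar)) hab'
  simp only [MulMemClass.coe_mul, map_mul] at h
  rw [zpow_sub₀ hw0, zpow_natCast, zpow_natCast, ← hval m a hm.1 hm.2, ← hval n b hn.1 hn.2,
    eq_div_iff (val_intEmb_ne_zero L hb0)]
  exact h.symm

/-- The exact power of the place dividing `p` is the order of the image of inertia. -/
private theorem card_inertiaImage_eq (hp : p.Prime) (hA : A.LiesOverPrime p) {M : ℕ}
    (hM : (p : 𝓞 L) ∈ ((primeBelow A).comap (intEmb L)) ^ M)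
    (hM' : (p : 𝓞 L) ∉ ((primeBelow A).comap (intEmb L)) ^ (M + 1)) :
    Nat.card (inertiaImage L A) = M := by
  have : NumberField L := { }
  set P := (primeBelow A).comap (intEmb L) with hP
  have hpP : (p : 𝓞 L) ∈ P := by
    rw [hP, Ideal.mem_comap, map_natCast, mem_primeBelow]
    exact_mod_cast hA
  have hP0 : P ≠ ⊥ := fun h => by
    rw [h, Ideal.mem_bot, Nat.cast_eq_zero] at hpP; exact hp.ne_zero hpP
  have : P.IsPrime := Ideal.comap_isPrime _ _
  have : P.IsMaximal := Ideal.IsPrime.isMaximal inferInstance hP0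
  have : (P.under ℤ).IsMaximal := Ideal.isMaximal_comap_of_isIntegral_of_isMaximal P
  have : Finite (ℤ ⧸ P.under ℤ) :=
    Ideal.finiteQuotientOfFreeOfNeBot _ fun h0 => hP0 (Ideal.eq_bot_of_comap_eq_bot h0)
  have : PerfectField (P.under ℤ).ResidueField := PerfectField.ofFinite
  have hp0 : (p : ℤ) ≠ 0 := by exact_mod_cast hp.ne_zero
  have hunder : P.under ℤ = Ideal.span {(p : ℤ)} := by
    symm
    refine ((Ideal.span_singleton_prime hp0).2 (Nat.prime_iff_prime_int.1 hp)).isMaximal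
      (by simpa using hp.ne_zero) |>.eq_of_le (Ideal.IsPrime.ne_top inferInstance) ?_
    rw [Ideal.span_singleton_le_iff_mem, Ideal.under_def, Ideal.mem_comap, map_natCast]
    exact hpP
  have hpne : P.under ℤ ≠ ⊥ := by
    rw [hunder, Ne, Ideal.span_singleton_eq_bot]; exact hp0
  have hmap : Ideal.map (algebraMap ℤ (𝓞 L)) (P.under ℤ) = Ideal.span {(p : 𝓞 L)} := by
    rw [hunder, Ideal.map_span, Set.image_singleton, map_natCast]
  rw [inertiaImage_eq L hp hA, ← hP,
    Ideal.card_inertia_eq_ramificationIdxIn (G := L ≃ₐ[ℚ] L) (P.under ℤ) P,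
    Ideal.ramificationIdxIn_eq_ramificationIdx (P.under ℤ) P (L ≃ₐ[ℚ] L),
    ← Ideal.ramificationIdx'_eq_ramificationIdx (P.under ℤ) P hpne]
  apply Ideal.ramificationIdx'_spec
  · rwa [hmap, Ideal.span_singleton_le_iff_mem]
  · rwa [hmap, Ideal.span_singleton_le_iff_mem]

omit [FiniteDimensional ℚ ↥L] [IsGalois ℚ ↥L] in
/-- An element exactly in the `k`-th power of a prime has `Q`-adic logarithm `-k`. -/
private theorem log_valuation_of_mem_pow [NumberField L]
    (Q : IsDedekindDomain.HeightOneSpectrum (𝓞 L)) {c : 𝓞 L} {k : ℕ}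
    (h1 : c ∈ Q.asIdeal ^ k) (h2 : c ∉ Q.asIdeal ^ (k + 1)) :
    WithZero.log (Q.valuation L (c : L)) = -(k : ℤ) := by
  have hc0 : c ≠ 0 := fun h => h2 (h ▸ zero_mem _)
  rw [show (c : L) = algebraMap (𝓞 L) L c from rfl,
    IsDedekindDomain.HeightOneSpectrum.valuation_of_algebraMap]
  have h1' := (Q.intValuation_le_pow_iff_mem c k).mpr h1
  have h2' := mt (Q.intValuation_le_pow_iff_mem c (k + 1)).mp h2
  obtain ⟨z, hz⟩ : ∃ z : ℤ, Q.intValuation c = WithZero.exp z :=
    ⟨WithZero.log (Q.intValuation c), (WithZero.exp_log (Q.intValuation_ne_zero c hc0)).symm⟩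
  rw [hz, WithZero.exp_le_exp] at h1' h2'
  rw [hz, WithZero.log_exp]
  push_cast at h2'
  omega

/-- At the place, elements fixed by inertia have orders divisible by the order of its image. -/
private theorem exists_log_valuation_eq_mul [NumberField L] (hp : p.Prime)
    (hA : A.LiesOverPrime p) (Q : IsDedekindDomain.HeightOneSpectrum (𝓞 L))
    (hQ : Q.asIdeal = (primeBelow A).comap (intEmb L)) {y : L}
    (hfix : ∀ σ ∈ A.inertiaSubgroupIn ℚ, σ (y : Qbar) = y) :
    ∃ k : ℤ, WithZero.log (Q.valuation L y) = (Nat.card (inertiaImage L A) : ℤ) * k := by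
  let I := inertiaImage L A
  let F := IntermediateField.fixedField I
  have : NumberField F := { }
  let yF : F := ⟨y, (IntermediateField.mem_fixedField_iff _ _).mpr (by
    rintro _ ⟨σ, hσ, rfl⟩
    exact Subtype.ext ((AlgEquiv.restrictNormal_commutes σ L _).trans (hfix σ hσ)))⟩
  have hcard : Nat.card (Q.asIdeal.inertia (L ≃ₐ[F] L)) = Nat.card I := by
    have htop : Q.asIdeal.inertia (L ≃ₐ[F] L) = ⊤ := by
      refine eq_top_iff.mpr fun g _ z => ?_
      have hg : (g.restrictScalars ℚ) ∈ I := by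
        have h : (g.restrictScalars ℚ) ∈ F.fixingSubgroup :=
          (IntermediateField.mem_fixingSubgroup_iff _ _).mpr fun x hx => g.commutes ⟨x, hx⟩
        rwa [IntermediateField.fixingSubgroup_fixedField] at h
      rw [show I = _ from inertiaImage_eq L hp hA, ← hQ] at hg
      exact hg z
    rw [htop, Subgroup.card_top, IsGalois.card_aut_eq_finrank,
      IntermediateField.finrank_fixedField_eq_card]
  rw [MordellWeil.card_inertia_eq_ramificationIdx] at hcard
  have hlog := MordellWeil.log_valuation_algebraMap Q yF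
  rw [hcard] at hlog
  exact ⟨_, hlog⟩

/-- The values of `L` are the powers of one value. -/
theorem exists_uniformizer (hp : p.Prime) (hA : A.LiesOverPrime p) :
    ∃ ϖ ∈ L, ϖ ≠ 0 ∧ A.valuation ϖ < 1 ∧
      (∀ y ∈ L, y ≠ 0 → ∃ m : ℤ, A.valuation y = A.valuation ϖ ^ m) ∧
      A.valuation (p : Qbar) = A.valuation ϖ ^ Nat.card (inertiaImage L A) ∧
      ∀ y ∈ L, y ≠ 0 → (∀ σ ∈ A.inertiaSubgroupIn ℚ, σ y = y) →
        ∃ k : ℤ, A.valuation y = A.valuation (p : Qbar) ^ k := by
  have : NumberField L := { }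
  set P := (primeBelow A).comap (intEmb L) with hP
  have hmem : ∀ y : 𝓞 L, y ∈ P ↔ A.valuation ((intEmb L y : Zbar) : Qbar) < 1 := fun y => by
    rw [hP, Ideal.mem_comap, mem_primeBelow, ValuationSubring.mem_nonunits_iff]
  have hpP : (p : 𝓞 L) ∈ P := by
    rw [hP, Ideal.mem_comap, map_natCast, mem_primeBelow]
    exact_mod_cast hA
  have hP0 : P ≠ ⊥ := fun h => by
    rw [h, Ideal.mem_bot, Nat.cast_eq_zero] at hpP; exact hp.ne_zero hpP
  have : P.IsPrime := Ideal.comap_isPrime _ _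
  obtain ⟨π, hπ, hπ0, key⟩ := exists_val_eq_pow L hP0 hmem
  have hw0 := val_intEmb_ne_zero L (A := A) hπ0
  have hpval : A.valuation (p : Qbar)
      = A.valuation ((intEmb L π : Zbar) : Qbar) ^ Nat.card (inertiaImage L A) := by
    obtain ⟨M, hM, hM'⟩ := exists_mem_pow_notMem_pow_succ L (P := P)
      (y := (p : 𝓞 L)) (Nat.cast_ne_zero.mpr hp.ne_zero)
    have hval := key M (p : 𝓞 L) hM hM'
    rw [map_natCast] at hval
    push_cast at hval
    rw [hval, card_inertiaImage_eq L hp hA hM hM']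
  refine ⟨(intEmb L π : Zbar), ((π : L)).2, A.valuation.ne_zero_iff.mp hw0, (hmem π).mp hπ,
    fun y hy hy0 => ?_, hpval, fun y hy hy0 hfix => ?_⟩
  · obtain ⟨-, -, m, n, -, -, -, -, h⟩ := exists_div_val_eq_zpow L hw0 key
      (y := ⟨y, hy⟩) fun h => hy0 (congrArg Subtype.val h)
    exact ⟨(m : ℤ) - n, h⟩
  -- the fixed field of inertia is unramified below `P`
  let Q : IsDedekindDomain.HeightOneSpectrum (𝓞 L) := ⟨P, inferInstance, hP0⟩
  obtain ⟨k, hk⟩ := exists_log_valuation_eq_mul L hp hA Q rfl (y := ⟨y, hy⟩) hfix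
  have hyL : (⟨y, hy⟩ : L) ≠ 0 := fun h => hy0 (congrArg Subtype.val h)
  obtain ⟨a, b, m, n, hb, hab, hm, hn, hv⟩ := exists_div_val_eq_zpow L hw0 key hyL
  have h := congrArg (fun z : L => WithZero.log (Q.valuation L z)) hab
  have hbL : (b : L) ≠ 0 := by simpa using hb
  simp only [map_mul] at h
  rw [WithZero.log_mul ((Valuation.ne_zero_iff _).mpr hyL) ((Valuation.ne_zero_iff _).mpr hbL),
    log_valuation_of_mem_pow L Q hm.1 hm.2, log_valuation_of_mem_pow L Q hn.1 hn.2, hk] at h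
  refine ⟨-k, ?_⟩
  rw [hv, hpval, ← zpow_natCast, ← zpow_mul]
  congr 1
  linarith

end Field

/-- Values of elements fixed by inertia are powers of the value of `p`. -/
theorem exists_val_zpow (hp : p.Prime) (hA : A.LiesOverPrime p) {x : Qbar} (hx : x ≠ 0)
    (hfix : ∀ σ ∈ A.inertiaSubgroupIn ℚ, σ x = x) :
    ∃ k : ℤ, A.valuation x = A.valuation (p : Qbar) ^ k := by
  let f : Polynomial ℚ := minpoly ℚ x
  let L : IntermediateField ℚ Qbar := IntermediateField.adjoin ℚ (f.rootSet Qbar)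
  have : f.IsSplittingField ℚ L :=
    IntermediateField.adjoin_rootSet_isSplittingField (IsAlgClosed.splits _)
  have : FiniteDimensional ℚ L := Polynomial.IsSplittingField.finiteDimensional L f
  have : Normal ℚ L := Normal.of_isSplittingField f
  have : IsGalois ℚ L := ⟨⟩
  obtain ⟨-, -, -, -, -, -, h⟩ := exists_uniformizer L hp hA
  refine h x (IntermediateField.subset_adjoin ℚ _ ?_) hx hfix
  rw [Polynomial.mem_rootSet]
  exact ⟨minpoly.ne_zero (Algebra.IsIntegral.isIntegral x), minpoly.aeval ℚ x⟩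

end FLTAgent.LocalThree
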